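import Mathlib.LinearAlgebra.Eigenspace.Charpoly
import Fermat.Agent.HeckeDuality.Eigenform

/-!
# Eigenvectors for characters of commuting integral matrices
-/

noncomputable section

namespace Fermat.Agent.LT.Theta

open Matrix

/-- The values of a character trivial on the kernel are eigenvalues: roots of the characteristic
polynomials. -/
private theorem hasEigenvalue_of_ringHom {n : Type*} [Fintype n] [DecidableEq n] {T : Type*}
    [CommRing T]
    (ρ : T →+* Matrix n n ℤ) (θ : T →+* ℂ) (hker : ∀ a, ρ a = 0 → θ a = 0) (g : T) :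
    Module.End.HasEigenvalue (Matrix.toLin' ((ρ g).map (Int.castRingHom ℂ))) (θ g) := by
  rw [Module.End.hasEigenvalue_iff_isRoot_charpoly, Matrix.charpoly_toLin', Matrix.charpoly_map]
  set χ := (ρ g).charpoly with hχ
  have h0 : ρ.toIntAlgHom (Polynomial.aeval g χ) = 0 := by
    rw [← Polynomial.aeval_algHom_apply]
    exact Matrix.aeval_self_charpoly _
  have h1 : θ.toIntAlgHom (Polynomial.aeval g χ) = 0 := hker _ h0
  rw [← Polynomial.aeval_algHom_apply, Polynomial.aeval_def, ← Polynomial.eval_map] at h1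
  exact h1

/-- A character to `ℂ` of a commutative ring acting through integral matrices, trivial on the
kernel of the action, has an eigenvector. -/
theorem exists_eigvec_of_ringHom {n : Type*} [Fintype n] [DecidableEq n] {T : Type*} [CommRing T]
    (ρ : T →+* Matrix n n ℤ) (θ : T →+* ℂ) (hker : ∀ a, ρ a = 0 → θ a = 0) :
    ∃ v : n → ℂ, v ≠ 0 ∧ ∀ a, ((ρ a).map (Int.castRingHom ℂ)) *ᵥ v = θ a • v := by
  classical
  let ρC : T →+* Module.End ℂ (n → ℂ) :=
    Matrix.toLinAlgEquiv'.toAlgHom.toRingHom.comp ((Int.castRingHom ℂ).mapMatrix.comp ρ)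
  have hρC : ∀ a v, ρC a v = ((ρ a).map (Int.castRingHom ℂ)) *ᵥ v := fun a v =>
    Matrix.toLinAlgEquiv'_apply _ v
  obtain ⟨r, gen, hgen⟩ := Submodule.fg_iff_exists_fin_generating_family.1
    (IsNoetherian.noetherian (LinearMap.range ρ.toIntAlgHom.toLinearMap))
  have hgen' : ∀ i, gen i ∈ LinearMap.range ρ.toIntAlgHom.toLinearMap := fun i =>
    hgen ▸ Submodule.subset_span (Set.mem_range_self i)
  choose a ha using hgen'
  have hspan : ∀ x, ∃ c : Fin r → ℤ, ρ x = ∑ i, c i • ρ (a i) := fun x => by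
    have hx : ρ x ∈ Submodule.span ℤ (Set.range gen) :=
      hgen.symm ▸ LinearMap.mem_range_self ρ.toIntAlgHom.toLinearMap x
    obtain ⟨c, hc⟩ := (Submodule.mem_span_range_iff_exists_fun ℤ).1 hx
    exact ⟨c, hc.symm.trans (Finset.sum_congr rfl fun i _ => congrArg _ (ha i).symm)⟩
  set Tset : Set (Fin r → ℂ) := Set.pi Set.univ fun i => {z | (ρC (a i)).HasEigenvalue z}
  have hT : Tset.Finite := Set.Finite.pi fun i => Module.End.finite_hasEigenvalue _
  -- `g = ∑ kⁱ aᵢ` separates `θ` from the other systems of eigenvalues of the generators `aᵢ`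
  obtain ⟨k, hk⟩ := HeckeDuality.exists_nat_separating hT fun i => θ (a i)
  set g : T := ∑ i : Fin r, (k : T) ^ (i : ℕ) * a i
  have hroot : (ρC g).HasEigenvalue (θ g) := hasEigenvalue_of_ringHom ρ θ hker g
  obtain ⟨θ', v, hvW, hv, heig⟩ := HeckeDuality.exists_eigenCharacter ρC
      ((ρC g).eigenspace (θ g)) hroot fun x w hw => by
    rw [Module.End.mem_eigenspace_iff] at hw ⊢
    rw [← Module.End.mul_apply, ← map_mul, mul_comm, map_mul, Module.End.mul_apply, hw, map_smul]
  have hg : θ' g = θ g := smul_left_injective ℂ hv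
    ((heig g).symm.trans (Module.End.mem_eigenspace_iff.1 hvW))
  have hθa : ∀ i, θ' (a i) = θ (a i) := congrFun (hk (fun i => θ' (a i))
    (fun i _ => Module.End.hasEigenvalue_of_hasEigenvector
      ⟨Module.End.mem_eigenspace_iff.2 (heig (a i)), hv⟩)
    (by simpa only [g, map_sum, map_mul, map_pow, map_natCast] using hg))
  refine ⟨v, hv, fun x => ?_⟩
  obtain ⟨c, hc⟩ := hspan x
  set y : T := x - ∑ i, c i • a i
  have hy : ρ y = 0 := by simp only [y, map_sub, map_sum, map_zsmul, hc, sub_self]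
  have h2 : θ x = ∑ i, c i • θ (a i) := by
    rw [← sub_eq_zero, ← hker y hy]
    simp only [y, map_sub, map_sum, map_zsmul]
  have h1 : ρC x = ∑ i, c i • ρC (a i) := by
    have : ρC y = 0 := by
      show Matrix.toLinAlgEquiv' ((Int.castRingHom ℂ).mapMatrix (ρ y)) = 0
      rw [hy, map_zero, map_zero]
    rw [← sub_eq_zero, ← this]
    simp only [y, map_sub, map_sum, map_zsmul]
  rw [← hρC, h1, h2, LinearMap.sum_apply, Finset.sum_smul]
  refine Finset.sum_congr rfl fun i _ => ?_
  rw [LinearMap.smul_apply, heig, hθa, smul_assoc]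

end Fermat.Agent.LT.Theta
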