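import Fermat.Agent.LT.Theta.Ideals

/-!
# The adjoint exchanges source and target of homomorphisms between ideals
-/

noncomputable section

namespace Fermat.Agent.LT.Theta.NormOrder

variable {N : ℕ} {H : Type*} [Ring H] [Algebra ℚ H] (𝒪 : NormOrder N H)

/-- An element of nonzero norm as a unit. -/
def toUnit (x : H) (hx : 𝒪.nrm x ≠ 0) : Hˣ where
  val := x
  inv := (𝒪.nrm x)⁻¹ • 𝒪.adj x
  val_inv := by rw [mul_smul_comm, 𝒪.mul_adj, inv_smul_smul₀ hx]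
  inv_val := by rw [smul_mul_assoc, 𝒪.adj_mul, inv_smul_smul₀ hx]

/-- The norm is homogeneous of degree two. -/
lemma nrm_smul (k : ℚ) (x : H) : 𝒪.nrm (k • x) = k * k * 𝒪.nrm x := by
  rw [QuadraticMap.map_smul, smul_eq_mul]

lemma nrm_adj {x : H} (hx : 𝒪.nrm x ≠ 0) : 𝒪.nrm (𝒪.adj x) = 𝒪.nrm x := by
  have h := congrArg 𝒪.nrm (𝒪.mul_adj x)
  rw [𝒪.nrm_mul, 𝒪.nrm_smul, 𝒪.nrm_one, mul_one] at h
  exact mul_left_cancel₀ hx h

lemma adj_smul_adj {x : H} (hx : 𝒪.nrm x ≠ 0) (k : ℚ) (hk : k ≠ 0) :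
    𝒪.adj (k • 𝒪.adj x) = k • x := by
  have h := 𝒪.adj_mul (k • 𝒪.adj x)
  rw [𝒪.nrm_smul, nrm_adj 𝒪 hx, mul_smul_comm] at h
  have h2 : (k • 𝒪.adj (k • 𝒪.adj x) * 𝒪.adj x) * x = (k * k * 𝒪.nrm x) • x := by
    rw [smul_mul_assoc, h, smul_mul_assoc, one_mul]
  rw [mul_assoc, 𝒪.adj_mul, mul_smul_comm, mul_one, smul_smul] at h2
  have h3 := congrArg (fun z => (k * 𝒪.nrm x)⁻¹ • z) h2
  simp only [smul_smul] at h3
  rw [show (k * 𝒪.nrm x)⁻¹ * (𝒪.nrm x * k) = 1 by field_simp,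
    show (k * 𝒪.nrm x)⁻¹ * (k * k * 𝒪.nrm x) = k by field_simp, one_smul] at h3
  exact h3

variable {𝒪}

/-- Membership in an additive subgroup from multiples prime to every prime. -/
lemma mem_of_local {A : AddSubgroup H} {x : H}
    (h : ∀ p : ℕ, p.Prime → ∃ k : ℤ, ¬ (p : ℤ) ∣ k ∧ (k : ℚ) • x ∈ A) : x ∈ A := by
  let I : Ideal ℤ :=
    { carrier := {k : ℤ | k • x ∈ A}
      add_mem' := fun {a b} ha hb => by
        show (a + b) • x ∈ A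
        rw [add_smul]; exact A.add_mem ha hb
      zero_mem' := by show (0 : ℤ) • x ∈ A; rw [zero_smul]; exact A.zero_mem
      smul_mem' := fun r a ha => by
        show (r • a) • x ∈ A
        rw [smul_assoc]; exact A.zsmul_mem ha r }
  -- the integers carrying `x` into `A` form an ideal, contained in no `(p)`
  obtain ⟨g, hg⟩ : ∃ g, I = Ideal.span {g} := ⟨_, (Ideal.span_singleton_generator I).symm⟩
  have h1 : IsUnit g := by
    by_contra hu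
    rcases eq_or_ne g 0 with rfl | hg0
    · obtain ⟨k, hk, hkx⟩ := h 2 Nat.prime_two
      have : k ∈ I := show k • x ∈ A by rwa [← zsmul_eq]
      rw [hg, Ideal.mem_span_singleton, zero_dvd_iff] at this
      exact hk (this ▸ dvd_zero _)
    obtain ⟨p, hp, hpd⟩ := Nat.exists_prime_and_dvd (mt Int.isUnit_iff_natAbs_eq.mpr hu)
    obtain ⟨k, hk, hkx⟩ := h p hp
    have : k ∈ I := show k • x ∈ A by rwa [← zsmul_eq]
    rw [hg, Ideal.mem_span_singleton] at this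
    exact hk ((Int.natCast_dvd.mpr hpd).trans this)
  have : (1 : ℤ) ∈ I := by
    rw [hg, Ideal.span_singleton_eq_top.mpr h1]; trivial
  simpa using show (1 : ℤ) • x ∈ A from this

/-- The norm of an element of an ideal is an integral multiple of its scale. -/
lemma Idl.exists_nrm_eq (I : 𝒪.Idl) {x : H} (hx : x ∈ I.lat) :
    ∃ z : ℤ, 𝒪.nrm x = I.ν * z := by
  obtain ⟨z, hz⟩ := rat_eq_int_of_local (r := 𝒪.nrm x / I.ν) fun p hp => by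
    obtain ⟨α, k, u, hα, hk, hu, hnα, hgen⟩ := I.gen p hp
    obtain ⟨o, ⟨z, rfl⟩, hxo⟩ := hgen x hx
    refine ⟨k * k, fun h' => hk (((Nat.prime_iff_prime_int.mp hp).dvd_or_dvd h').elim id id),
      u * 𝒪.form.eval z, ?_⟩
    have h1 := congrArg 𝒪.nrm hxo
    rw [𝒪.nrm_smul, 𝒪.nrm_mul, hnα, 𝒪.value] at h1
    have := I.ν_pos.ne'
    push_cast
    field_simp
    linear_combination h1
  exact ⟨z, by rw [← hz]; field_simp [I.ν_pos.ne']⟩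

/-- **The scaled adjoint maps `J` into `I`.** -/
theorem adj_mem_homLat {I J : 𝒪.Idl} {δ : H} (hδ : δ ∈ homLat I J) (hn : 𝒪.nrm δ ≠ 0) :
    (I.ν / J.ν) • 𝒪.adj δ ∈ homLat J I := by
  intro x hx
  refine mem_of_local fun p hp => ?_
  have hP := Nat.prime_iff_prime_int.mp hp
  obtain ⟨α, k', uJ, hα, hk', huJ, hnα, hgenJ⟩ := J.gen p hp
  obtain ⟨β, k, uI, hβ, hk, huI, hnβ, hgenI⟩ := I.gen p hp
  obtain ⟨o, ⟨z, rfl⟩, ho⟩ := hgenJ _ (hδ β hβ)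
  obtain ⟨o₂, ⟨z₂, rfl⟩, ho₂⟩ := hgenJ x hx
  obtain ⟨z₁, hz₁⟩ := 𝒪.adj_mem z
  obtain ⟨z₃, hz₃⟩ := 𝒪.mul_mem z₁ z₂
  have huJ0 : (uJ : ℚ) ≠ 0 := Int.cast_ne_zero.mpr fun h => huJ (h ▸ dvd_zero _)
  have hk'0 : (k' : ℚ) ≠ 0 := Int.cast_ne_zero.mpr fun h => hk' (h ▸ dvd_zero _)
  have hJ0 := J.ν_pos.ne'
  refine ⟨k' * k' * uI, fun h => ?_, ?_⟩
  · rcases hP.dvd_or_dvd h with h | h
    · exact (hP.dvd_or_dvd h).elim hk' hk'
    · exact huI h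
  -- the norm of `o` where `k' δ β = α o`
  have hno : (J.ν * uJ) * 𝒪.nrm (latVec 𝒪.basis z)
      = (k' * k') * 𝒪.nrm δ * (I.ν * uI) := by
    have h := congrArg 𝒪.nrm ho
    rw [𝒪.nrm_smul, 𝒪.nrm_mul, 𝒪.nrm_mul, hnα, hnβ] at h
    linear_combination -h
  -- multiply `k' δ β = α o` by the adjoints of `δ` and `o`, and apply it to `k' x = α o₂`
  have h1 : 𝒪.nrm (latVec 𝒪.basis z) • (𝒪.adj δ * α)
      = ((k' : ℚ) * 𝒪.nrm δ) • (β * latVec 𝒪.basis z₁) := by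
    have h := congrArg (fun y => 𝒪.adj δ * y * 𝒪.adj (latVec 𝒪.basis z)) ho
    simp only [mul_smul_comm, smul_mul_assoc, ← mul_assoc, 𝒪.adj_mul, one_mul, smul_smul,
      hz₁] at h
    rw [mul_assoc (𝒪.adj δ * α), ← hz₁, 𝒪.mul_adj, mul_smul_comm, mul_one] at h
    rw [← h, hz₁]
  have h2 : (𝒪.nrm (latVec 𝒪.basis z) * k') • (𝒪.adj δ * x)
      = ((k' : ℚ) * 𝒪.nrm δ) • (β * latVec 𝒪.basis z₃) := by
    rw [← smul_smul, ← mul_smul_comm (k' : ℚ), ho₂, ← mul_assoc, ← smul_mul_assoc, h1,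
      smul_mul_assoc, mul_assoc, hz₃]
  have h3 : ((k' * k' * uI : ℤ) : ℚ) • ((I.ν / J.ν) • 𝒪.adj δ * x)
      = (uJ : ℚ) • (β * latVec 𝒪.basis z₃) := by
    have h4 := congrArg (fun y => ((uJ : ℚ) / ((k' : ℚ) * 𝒪.nrm δ)) • y) h2
    simp only [smul_smul] at h4
    rw [show (uJ : ℚ) / ((k' : ℚ) * 𝒪.nrm δ) * ((k' : ℚ) * 𝒪.nrm δ) = uJ by field_simp] at h4
    rw [smul_mul_assoc, smul_smul, ← h4]
    congr 1
    push_cast
    field_simp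
    linear_combination -hno
  rw [h3]
  exact I.smul_mem (I.mul_mem β hβ _ ⟨z₃, rfl⟩) uJ

/-- The adjoint is a bijection between the homomorphisms of a given norm in both directions. -/
theorem card_homSet_swap (I J : 𝒪.Idl) {m : ℕ} (hm : m ≠ 0) :
    Nat.card (homSet 𝒪.nrmHom (I.lat : Set H) (J.lat : Set H) ((m : ℚ) * (J.ν / I.ν)))
      = Nat.card (homSet 𝒪.nrmHom (J.lat : Set H) (I.lat : Set H) ((m : ℚ) * (I.ν / J.ν))) := by
  have hne : ∀ (I J : 𝒪.Idl) (δ : H),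
      δ ∈ homSet 𝒪.nrmHom (I.lat : Set H) (J.lat : Set H) ((m : ℚ) * (J.ν / I.ν)) →
      𝒪.nrm δ ≠ 0 := fun I J δ h h0 => by
    have h2 : 𝒪.nrm δ = (m : ℚ) * (J.ν / I.ν) := h.2
    rw [h0] at h2
    exact mul_ne_zero (Nat.cast_ne_zero.mpr hm) (div_pos J.ν_pos I.ν_pos).ne' h2.symm
  have hmem : ∀ (I J : 𝒪.Idl) (δ : H),
      δ ∈ homSet 𝒪.nrmHom (I.lat : Set H) (J.lat : Set H) ((m : ℚ) * (J.ν / I.ν)) →
      (I.ν / J.ν) • 𝒪.adj δ
        ∈ homSet 𝒪.nrmHom (J.lat : Set H) (I.lat : Set H) ((m : ℚ) * (I.ν / J.ν)) :=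
    fun I J δ h => ⟨adj_mem_homLat h.1 (hne I J δ h), by
      show 𝒪.nrm _ = _
      have h2 : 𝒪.nrm δ = (m : ℚ) * (J.ν / I.ν) := h.2
      rw [𝒪.nrm_smul, 𝒪.nrm_adj (hne I J δ h), h2]
      field_simp [I.ν_pos.ne', J.ν_pos.ne']⟩
  have hinv : ∀ (I J : 𝒪.Idl) (δ : H),
      δ ∈ homSet 𝒪.nrmHom (I.lat : Set H) (J.lat : Set H) ((m : ℚ) * (J.ν / I.ν)) →
      (J.ν / I.ν) • 𝒪.adj ((I.ν / J.ν) • 𝒪.adj δ) = δ := fun I J δ h => by
    rw [adj_smul_adj 𝒪 (hne I J δ h) _ (div_pos I.ν_pos J.ν_pos).ne', smul_smul,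
      show J.ν / I.ν * (I.ν / J.ν) = 1 by field_simp [I.ν_pos.ne', J.ν_pos.ne'], one_smul]
  exact Nat.card_congr
    { toFun := fun δ => ⟨_, hmem I J δ.1 δ.2⟩
      invFun := fun γ => ⟨_, hmem J I γ.1 γ.2⟩
      left_inv := fun δ => Subtype.ext (hinv I J δ.1 δ.2)
      right_inv := fun γ => Subtype.ext (hinv J I γ.1 γ.2) }

end Fermat.Agent.LT.Theta.NormOrder
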