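import Fermat.Agent.LT.Theta.Eigen

/-!
# From eigenfunctions on a class set to eigenforms of weight two

`BrandtTheta` collects what the theta series of the ideal lattices of a definite quaternion order
satisfy: the Hecke recursions through neighbour counts, and the translations at the primes with
`U_q = 1`. `exists_eigenform`: for a squarefree level a nonzero eigenfunction of sum zero,
invariant under these translations, gives a normalised eigenform with the same eigenvalues. This is
the part of the Jacquet-Langlands correspondence that is needed.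
It is used in `LT/Theta/Bridge/Ring`.
-/

noncomputable section

namespace Fermat.Agent.LT.Theta

open QForm ModularFormClass

/-- Theta series attached to pairs of classes, with their Hecke recursions. -/
structure BrandtTheta (N : ℕ) [NeZero N] (C : Type*) [Fintype C] where
  form : C → C → QForm N
  disc_eq : ∀ c c' y, (form c y).disc = (form c' y).disc
  sameMod : ∀ c c' y (p : ℕ) [NeZero p], p.Prime → p ∣ N → SameMod (form c y) (form c' y) p
  rep_one_self : ∀ y, rep (form y y) 1 ≠ 0
  rep_one_ne : ∀ c y, c ≠ y → rep (form c y) 1 = 0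
  /-- `nb ℓ c c'` is the number of `ℓ`-neighbours of `c` in the class `c'`. -/
  nb : ℕ → C → C → ℕ
  /-- The primes at which the recursion holds. -/
  good : ℕ → Prop
  not_dvd_of_good : ∀ ℓ, good ℓ → ¬ ℓ ∣ N
  nb_symm : ∀ ℓ, ℓ.Prime → good ℓ → ∀ c c', nb ℓ c c' = nb ℓ c' c
  rec_nb : ∀ ℓ, ℓ.Prime → good ℓ → ∀ c y m, (∑ c', nb ℓ c c' * rep (form c' y) m)
    = rep (form c y) (m * ℓ) + if ℓ ∣ m then ℓ * rep (form c y) (m / ℓ) else 0
  /-- The primes of `N` with `U_q = 1` on invariant functions. -/
  trans : ℕ → Prop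
  shift : ℕ → Equiv.Perm C
  dvd_of_trans : ∀ q, trans q → q ∣ N
  rec_shift : ∀ q, q.Prime → trans q → ∀ c y m,
    rep (form c y) (m * q) = rep (form (shift q c) y) m

namespace BrandtTheta

variable {N : ℕ} [NeZero N] {C : Type*} [Fintype C] (D : BrandtTheta N C)

lemma thetaCoeff_one (f : C → ℂ) (y : C) :
    thetaCoeff (fun c => D.form c y) f 1 = f y * (rep (D.form y y) 1 : ℂ) := by
  refine Finset.sum_eq_single y (fun c _ hc => ?_) fun h => absurd (Finset.mem_univ _) h
  rw [D.rep_one_ne c y hc, Nat.cast_zero, mul_zero]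

/-- **Eigenfunctions orthogonal to constants give eigenforms.** -/
theorem exists_eigenform (hN : Squarefree N) (f : C → ℂ) (hne : f ≠ 0) (hsum : ∑ c, f c = 0)
    (lam : ℕ → ℂ)
    (heig : ∀ ℓ, ℓ.Prime → D.good ℓ → ∀ c, (∑ c', (D.nb ℓ c c' : ℂ) * f c') = lam ℓ * f c)
    (hinv : ∀ q, q.Prime → D.trans q → ∀ c, f (D.shift q c) = f c) :
    ∃ g : CuspForm (CongruenceSubgroup.Gamma0 N) 2, g.IsNormalizedEigenform ∧
      (∀ ℓ, ℓ.Prime → D.good ℓ → qCoeff g ℓ = lam ℓ) ∧
      ∀ q, q.Prime → D.trans q → qCoeff g q = 1 := by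
  classical
  -- Pair `f` with the theta series at a class where it does not vanish.
  obtain ⟨y, hy⟩ := Function.ne_iff.mp hne
  have h1 : thetaCoeff (fun c => D.form c y) f 1 ≠ 0 := by
    rw [D.thetaCoeff_one]
    exact mul_ne_zero hy (Nat.cast_ne_zero.mpr (D.rep_one_self y))
  let lam' : ℕ → ℂ := fun ℓ => if D.trans ℓ then 1 else lam ℓ
  have hexcl : ∀ ℓ, D.good ℓ → ¬ D.trans ℓ := fun ℓ hg ht =>
    D.not_dvd_of_good ℓ hg (D.dvd_of_trans ℓ ht)
  obtain ⟨g, hg, hco⟩ := exists_eigenform_thetaSum hN (fun c => D.form c y)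
    (fun c c' => D.disc_eq c c' y) (fun c c' p _ hp hpN => D.sameMod c c' y p hp hpN) f hsum h1
    (fun ℓ => D.good ℓ ∨ D.trans ℓ) lam' (fun ℓ hℓ hS m => by
      rcases hS with hg | ht
      -- At good primes the neighbour recursion and symmetry give the eigenvalue.
      · rw [show lam' ℓ = lam ℓ from if_neg (hexcl ℓ hg), HeckeDuality.eulerWeight,
          if_neg (D.not_dvd_of_good ℓ hg)]
        have hrec : ∀ c, ((∑ c', (D.nb ℓ c c' : ℂ) * (rep (D.form c' y) m : ℂ)))
            = (rep (D.form c y) (m * ℓ) : ℂ)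
              + if ℓ ∣ m then (ℓ : ℂ) * (rep (D.form c y) (m / ℓ) : ℂ) else 0 := fun c => by
          have := congrArg ((↑) : ℕ → ℂ) (D.rec_nb ℓ hℓ hg c y m)
          push_cast at this
          exact this
        calc thetaCoeff (fun c => D.form c y) f (m * ℓ) +
              (if ℓ ∣ m then (ℓ : ℂ) * thetaCoeff (fun c => D.form c y) f (m / ℓ) else 0)
            = ∑ c, f c * ∑ c', (D.nb ℓ c c' : ℂ) * (rep (D.form c' y) m : ℂ) := by
              simp only [hrec, thetaCoeff, mul_add, Finset.sum_add_distrib]
              split_ifs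
              · rw [Finset.mul_sum]
                exact congrArg _ (Finset.sum_congr rfl fun c _ => by ring)
              · simp
          _ = ∑ c', (∑ c, (D.nb ℓ c' c : ℂ) * f c) * (rep (D.form c' y) m : ℂ) := by
              simp only [Finset.mul_sum, Finset.sum_mul]
              rw [Finset.sum_comm]
              refine Finset.sum_congr rfl fun c' _ => Finset.sum_congr rfl fun c _ => ?_
              rw [D.nb_symm ℓ hℓ hg c c']
              ring
          _ = lam ℓ * thetaCoeff (fun c => D.form c y) f m := by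
              simp only [heig ℓ hℓ hg, thetaCoeff, Finset.mul_sum, mul_assoc]
      -- At the primes of translation the invariance of `f` gives eigenvalue one.
      · rw [show lam' ℓ = 1 from if_pos ht, HeckeDuality.eulerWeight, if_pos (D.dvd_of_trans ℓ ht),
          one_mul]
        simp only [zero_mul, ite_self, add_zero, thetaCoeff, D.rec_shift ℓ hℓ ht]
        refine Fintype.sum_equiv (D.shift ℓ) _ _ fun c => ?_
        rw [hinv ℓ hℓ ht c])
  exact ⟨g, hg, fun ℓ hℓ h => (hco ℓ hℓ (Or.inl h)).trans (if_neg (hexcl ℓ h)),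
    fun q hq h => (hco q hq (Or.inr h)).trans (if_pos h)⟩

end BrandtTheta

end Fermat.Agent.LT.Theta
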