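import Fermat.Agent.LT.Theta.Count

/-!
# Neighbours containing a given image

If `π : J → M₂(F)` is the reduction, the neighbours are the sets of `x ∈ J` with all columns of
`π x` on a given line.  The image of an ideal under a left multiplication with singular reductions
lies in all of them if it reduces to zero, and in exactly one otherwise.
-/

noncomputable section

namespace Fermat.Agent.LT.Theta

open scoped Classical

open Matrix

variable {F : Type*} [Field F]

/-- All columns of `A` lie on the line of `v`. -/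
def ColsIn (A : Matrix (Fin 2) (Fin 2) F) (v : Fin 2 → F) : Prop :=
  ∀ j, ∃ t : F, ∀ i, A i j = t * v i

/-- A family of representatives of the lines of `F²`. -/
structure LineSystem {ι : Type*} (w : ι → Fin 2 → F) : Prop where
  ne_zero : ∀ i, w i ≠ 0
  cover : ∀ v : Fin 2 → F, v ≠ 0 → ∃ i, ∃ t : F, ∀ r, v r = t * w i r
  unique : ∀ i j, ∀ t : F, (∀ r, w i r = t * w j r) → i = j

/-- The number of lines containing all columns of a right ideal of singular matrices. -/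
theorem card_lines_containing {ι : Type*} [Fintype ι] {w : ι → Fin 2 → F} (hw : LineSystem w)
    (S : Set (Matrix (Fin 2) (Fin 2) F)) (hadd : ∀ A ∈ S, ∀ B ∈ S, A + B ∈ S)
    (hmul : ∀ A ∈ S, ∀ B, A * B ∈ S) (hsing : ∀ A ∈ S, A.det = 0) :
    (Finset.univ.filter fun i => ∀ A ∈ S, ColsIn A (w i)).card
      = if ∀ A ∈ S, A = 0 then Fintype.card ι else 1 := by
  split_ifs with h0
  · rw [Finset.filter_true_of_mem fun i _ A hA j => ⟨0, fun r => by simp [h0 A hA]⟩,
      Finset.card_univ]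
  · push Not at h0
    obtain ⟨A, hA, hA0⟩ := h0
    obtain ⟨r₀, k, hk⟩ : ∃ r k, A r k ≠ 0 := by
      by_contra! h
      exact hA0 (Matrix.ext h)
    have hv0 : (fun r => A r k) ≠ 0 := fun h => hk (congr_fun h r₀)
    obtain ⟨i₀, t, ht⟩ := hw.cover _ hv0
    rw [Finset.card_eq_one]
    refine ⟨i₀, Finset.eq_singleton_iff_unique_mem.mpr ⟨?_, ?_⟩⟩
    · refine Finset.mem_filter.mpr ⟨Finset.mem_univ _, fun B hB j => ?_⟩
      obtain ⟨s, hs⟩ := exists_line_of_right_ideal S hadd hmul hsing hA (fun _ => rfl) hv0 B hB j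
      exact ⟨s * t, fun r => by rw [hs r, ht r, mul_assoc]⟩
    · intro i hi
      obtain ⟨s, hs⟩ := (Finset.mem_filter.mp hi).2 A hA k
      have hs0 : s ≠ 0 := fun h => hv0 (funext fun r => by simpa [h] using hs r)
      refine hw.unique i i₀ (t / s) fun r => ?_
      have := (hs r).symm.trans (ht r)
      field_simp
      linear_combination this

variable {H : Type*} [Ring H]

/-- **The neighbour count for an image `δ I ⊆ J`.** -/
theorem card_nbhd_containing {ι : Type*} [Fintype ι] {w : ι → Fin 2 → F} (hw : LineSystem w)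
    (O I J J' : Set H) (π φ : H → Matrix (Fin 2) (Fin 2) F)
    (hφ : ∀ B, ∃ o ∈ O, φ o = B) (hIadd : ∀ x ∈ I, ∀ y ∈ I, x + y ∈ I)
    (hImul : ∀ x ∈ I, ∀ o ∈ O, x * o ∈ I)
    (hπadd : ∀ x ∈ J, ∀ y ∈ J, π (x + y) = π x + π y)
    (hπmul : ∀ x ∈ J, ∀ o ∈ O, π (x * o) = π x * φ o)
    (hker : ∀ x ∈ J, π x = 0 ↔ x ∈ J') (K : ι → Set H)
    (hK : ∀ i x, x ∈ K i ↔ x ∈ J ∧ ColsIn (π x) (w i)) (δ : H) (hδ : ∀ x ∈ I, δ * x ∈ J)
    (hsing : ∀ x ∈ I, (π (δ * x)).det = 0) :
    (Finset.univ.filter fun i => ∀ x ∈ I, δ * x ∈ K i).card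
      = if ∀ x ∈ I, δ * x ∈ J' then Fintype.card ι else 1 := by
  set S : Set (Matrix (Fin 2) (Fin 2) F) := (fun x => π (δ * x)) '' I
  have h := card_lines_containing hw S (by
      rintro _ ⟨x, hx, rfl⟩ _ ⟨y, hy, rfl⟩
      exact ⟨x + y, hIadd x hx y hy, by
        show π (δ * (x + y)) = _
        rw [mul_add, hπadd _ (hδ x hx) _ (hδ y hy)]⟩)
    (by
      rintro _ ⟨x, hx, rfl⟩ B
      obtain ⟨o, ho, rfl⟩ := hφ B
      exact ⟨x * o, hImul x hx o ho, by
        show π (δ * (x * o)) = _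
        rw [← mul_assoc, hπmul _ (hδ x hx) o ho]⟩)
    (by
      rintro _ ⟨x, hx, rfl⟩
      exact hsing x hx)
  have h1 : (∀ A ∈ S, A = 0) ↔ ∀ x ∈ I, δ * x ∈ J' := by
    refine ⟨fun hS x hx => (hker _ (hδ x hx)).mp (hS _ ⟨x, hx, rfl⟩), ?_⟩
    rintro hI _ ⟨x, hx, rfl⟩
    exact (hker _ (hδ x hx)).mpr (hI x hx)
  simp only [h1] at h
  rw [← h]
  congr 1
  refine Finset.filter_congr fun i _ => ⟨?_, fun hS x hx => ?_⟩
  · rintro hI _ ⟨x, hx, rfl⟩
    exact ((hK i _).mp (hI x hx)).2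
  · exact (hK i _).mpr ⟨hδ x hx, hS _ ⟨x, hx, rfl⟩⟩

end Fermat.Agent.LT.Theta
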