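import Fermat.Agent.LT.Theta.Adjoint
import Fermat.Agent.LT.Theta.Lines
import Fermat.Agent.LT.Theta.JL

/-!
# Brandt data from a system of ideal classes

Representatives of the classes with neighbours and translations (`ClassData`) give Brandt data
(`brandtTheta`), their counts obeying the recursions `rec_nb` and `rec_shift`.
-/

noncomputable section

namespace Fermat.Agent.LT.Theta

/-! ## Lines -/

/-- The standard representatives of the lines of `F²`. -/
def stdLine (F : Type*) [Field F] : Option F → Fin 2 → F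
  | none => ![1, 0]
  | some t => ![t, 1]

/-- The standard lines form a system of representatives of the lines of `F²`. -/
theorem lineSystem_stdLine (F : Type*) [Field F] : LineSystem (stdLine F) where
  ne_zero i h := by
    rcases i with _ | t
    · simpa [stdLine] using congr_fun h 0
    · simpa [stdLine] using congr_fun h 1
  cover v hv := by
    by_cases h1 : v 1 = 0
    · exact ⟨none, v 0, fun r => by fin_cases r <;> simp [stdLine, h1]⟩
    · exact ⟨some (v 0 / v 1), v 1, fun r => by fin_cases r <;> simp [stdLine]; field_simp⟩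
  unique i j t h := by
    rcases i with _ | a <;> rcases j with _ | b
    · rfl
    · have h0 := h 0
      have h1 := h 1
      simp [stdLine] at h0 h1
      simp [← h1] at h0
    · have h1 := h 1
      simp [stdLine] at h1
    · have h0 := h 0
      have h1 := h 1
      simp only [stdLine, Matrix.cons_val_zero, Matrix.cons_val_one, Matrix.cons_val_fin_one,
        mul_one] at h0 h1
      rw [← h1, one_mul] at h0
      rw [h0]

/-! ## Class systems -/

namespace NormOrder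

open scoped Classical

variable {N : ℕ} {H : Type*} [Ring H] [Algebra ℚ H] (𝒪 : NormOrder N H)

/-- The left translate of a set. -/
def translate (g : H) (s : Set H) : Set H := (fun x => g * x) '' s

variable {𝒪}

/-- The reduction of an ideal modulo `ℓ`. -/
structure Reduction (J : 𝒪.Idl) (ℓ : ℕ) [Fact ℓ.Prime] where
  red : H → Matrix (Fin 2) (Fin 2) (ZMod ℓ)
  act : H → Matrix (Fin 2) (Fin 2) (ZMod ℓ)
  act_surj : ∀ B, ∃ o ∈ 𝒪.carrier, act o = B
  red_add : ∀ x ∈ J.lat, ∀ y ∈ J.lat, red (x + y) = red x + red y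
  red_mul : ∀ x ∈ J.lat, ∀ o ∈ 𝒪.carrier, red (x * o) = red x * act o
  red_eq_zero : ∀ x ∈ J.lat, red x = 0 ↔ ∃ y ∈ J.lat, x = (ℓ : ℚ) • y
  red_det : ∀ x ∈ J.lat, ∀ z : ℤ, 𝒪.nrm x = J.ν * ((ℓ : ℤ) * z : ℤ) → (red x).det = 0

/-- The neighbours of the class of `J` at `ℓ`: the sublattices of the lines, with their classes. -/
structure Nbhd {C : Type*} (idl : C → 𝒪.Idl) (J : 𝒪.Idl) (ℓ : ℕ) [Fact ℓ.Prime] where
  reduction : Reduction J ℓ
  cls : Option (ZMod ℓ) → C
  mult : Option (ZMod ℓ) → H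
  nrm_mult : ∀ i, 𝒪.nrm (mult i) * (idl (cls i)).ν = (ℓ : ℚ) * J.ν
  lat_eq : ∀ i, translate (mult i) ((idl (cls i)).lat : Set H)
    = {x | x ∈ J.lat ∧ ColsIn (reduction.red x) (stdLine (ZMod ℓ) i)}

/-- The translate at `q`: the elements of `J` of norm divisible by `q`. -/
structure Shift {C : Type*} (idl : C → 𝒪.Idl) (J : 𝒪.Idl) (q : ℕ) (c : C) where
  mult : H
  nrm_mult : 𝒪.nrm mult * (idl c).ν = (q : ℚ) * J.ν
  lat_eq : translate mult ((idl c).lat : Set H)
    = {x | x ∈ J.lat ∧ ∃ z : ℤ, 𝒪.nrm x = J.ν * ((q : ℤ) * z : ℤ)}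

variable (𝒪)

/-- A system of representatives of ideal classes with neighbours and translations. -/
structure ClassData (C : Type*) where
  idl : C → 𝒪.Idl
  sep : ∀ c c' (g : H), translate g ((idl c).lat : Set H) = ((idl c').lat : Set H) →
    𝒪.nrm g * (idl c).ν = (idl c').ν → c = c'
  units_card : ∀ c, Nat.card (homSet 𝒪.nrmHom ((idl c).lat : Set H) ((idl c).lat : Set H) 1) = 2
  good : ℕ → Prop
  not_dvd_of_good : ∀ ℓ, good ℓ → ¬ ℓ ∣ N
  nbhd : ∀ (ℓ : ℕ) [Fact ℓ.Prime], good ℓ → ∀ c, Nbhd idl (idl c) ℓ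
  trans : ℕ → Prop
  dvd_of_trans : ∀ q, trans q → q ∣ N
  shift : ℕ → Equiv.Perm C
  shiftData : ∀ q : ℕ, q.Prime → trans q → ∀ c, Shift idl (idl c) q (shift q c)

namespace ClassData

variable {𝒪} {C : Type*} [Fintype C] (D : ClassData 𝒪 C)

/-! ## The counts and the forms -/

/-- The number of neighbours in a class. -/
def nb (ℓ : ℕ) (c c' : C) : ℕ :=
  if h : ℓ.Prime ∧ D.good ℓ then
    haveI : Fact ℓ.Prime := ⟨h.1⟩
    (Finset.univ.filter fun i => (D.nbhd ℓ h.2 c).cls i = c').card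
  else 0

/-- The neighbour sum of a function. -/
lemma sum_nb {ℓ : ℕ} [hℓ : Fact ℓ.Prime] (hg : D.good ℓ) (c : C) {R : Type*} [CommSemiring R]
    (F : C → R) : ∑ c', (D.nb ℓ c c' : R) * F c' = ∑ i, F ((D.nbhd ℓ hg c).cls i) := by
  simp only [nb, dif_pos (show ℓ.Prime ∧ D.good ℓ from ⟨hℓ.out, hg⟩)]
  rw [← Finset.sum_fiberwise Finset.univ (D.nbhd ℓ hg c).cls]
  refine Finset.sum_congr rfl fun c' _ => ?_
  rw [Finset.sum_congr rfl (fun i hi => by rw [(Finset.mem_filter.mp hi).2] : ∀ i ∈ _, _ = F c'),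
    Finset.sum_const, nsmul_eq_mul]

variable [NeZero N]

/-- The theta form of a pair of classes. -/
def form (c y : C) : QForm N := (exists_homForm (D.idl y) (D.idl c)).choose

omit [Fintype C] in
/-- The form of a pair of classes is locally similar to that of the order and counts
homomorphisms. -/
lemma form_spec (c y : C) : (D.form c y).disc = 𝒪.form.disc ∧
    (∀ (p : ℕ) [NeZero p], p.Prime → QForm.SameMod 𝒪.form (D.form c y) p) ∧
    (∀ δ ∈ homLat (D.idl y) (D.idl c), ∃ z : ℤ,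
      𝒪.nrm δ = (z : ℚ) * ((D.idl c).ν / (D.idl y).ν)) ∧
    ∀ m : ℕ, (homSet 𝒪.nrmHom ((D.idl y).lat : Set H) ((D.idl c).lat : Set H)
        ((m : ℚ) * ((D.idl c).ν / (D.idl y).ν))).Finite ∧
      QForm.rep (D.form c y) m = Nat.card (homSet 𝒪.nrmHom ((D.idl y).lat : Set H)
        ((D.idl c).lat : Set H) ((m : ℚ) * ((D.idl c).ν / (D.idl y).ν))) :=
  (exists_homForm (D.idl y) (D.idl c)).choose_spec

omit [Fintype C] [NeZero N] in
lemma card_translate (y c' : C) (J : 𝒪.Idl) (g : H) (s : ℚ) (hs : 0 < s)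
    (hg : 𝒪.nrm g * (D.idl c').ν = s * J.ν) (m : ℕ) :
    Nat.card (homSet 𝒪.nrmHom ((D.idl y).lat : Set H) (translate g ((D.idl c').lat : Set H))
        ((m : ℚ) * s * (J.ν / (D.idl y).ν)))
      = Nat.card (homSet 𝒪.nrmHom ((D.idl y).lat : Set H) ((D.idl c').lat : Set H)
          ((m : ℚ) * ((D.idl c').ν / (D.idl y).ν))) := by
  have hne : 𝒪.nrm g ≠ 0 := fun h0 => by
    rw [h0, zero_mul] at hg
    exact (mul_pos hs J.ν_pos).ne hg
  have h := card_homSet_smul_right 𝒪.nrmHom ((D.idl y).lat : Set H) ((D.idl c').lat : Set H)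
    (toUnit 𝒪 g hne) ((m : ℚ) * ((D.idl c').ν / (D.idl y).ν))
  rw [← h]
  have hr : (m : ℚ) * s * (J.ν / (D.idl y).ν)
      = 𝒪.nrmHom ((toUnit 𝒪 g hne : Hˣ) : H) * ((m : ℚ) * ((D.idl c').ν / (D.idl y).ν)) := by
    show _ = 𝒪.nrm g * _
    rw [mul_div, mul_div, mul_div]
    congr 1
    linear_combination -(m : ℚ) * hg
  rw [hr]
  rfl

omit [Fintype C] in
/-- Homomorphisms into `ℓ J`: those into `J` times `ℓ`, present only for norms divisible by `ℓ`. -/
private lemma mul_card_homSet_smul_lat {ℓ : ℕ} (hℓ : ℓ.Prime) (c y : C) (m : ℕ) :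
    ℓ * Nat.card (homSet 𝒪.nrmHom ((D.idl y).lat : Set H)
        {x | ∃ z ∈ (D.idl c).lat, x = (ℓ : ℚ) • z}
        ((m : ℚ) * ℓ * ((D.idl c).ν / (D.idl y).ν)))
      = if ℓ ∣ m then ℓ * QForm.rep (D.form c y) (m / ℓ) else 0 := by
  set I := D.idl y
  set J := D.idl c
  obtain ⟨-, -, hint, hrep⟩ := D.form_spec c y
  have hl0 : (ℓ : ℚ) ≠ 0 := Nat.cast_ne_zero.mpr hℓ.ne_zero
  have hI0 := I.ν_pos.ne'
  have hJ0 := J.ν_pos.ne'
  split_ifs with hd
  · -- `δ ↦ ℓ δ`
    obtain ⟨m', rfl⟩ := hd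
    rw [Nat.mul_div_cancel_left _ hℓ.pos, (hrep m').2]
    congr 1
    have hne : 𝒪.nrm ((ℓ : ℚ) • (1 : H)) ≠ 0 := by
      rw [𝒪.nrm_smul, 𝒪.nrm_one, mul_one]; exact mul_ne_zero hl0 hl0
    rw [← card_homSet_smul_right 𝒪.nrmHom (I.lat : Set H) (J.lat : Set H)
      (toUnit 𝒪 _ hne) ((m' : ℚ) * (J.ν / I.ν))]
    have e1 : (fun x => ((toUnit 𝒪 _ hne : Hˣ) : H) * x) '' (J.lat : Set H)
        = {x | ∃ z ∈ J.lat, x = (ℓ : ℚ) • z} := by
      ext x
      show (∃ z ∈ J.lat, ((ℓ : ℚ) • (1 : H)) * z = x) ↔ ∃ z ∈ J.lat, x = (ℓ : ℚ) • z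
      simp only [smul_mul_assoc, one_mul, eq_comm]
    have e2 : 𝒪.nrmHom ((toUnit 𝒪 _ hne : Hˣ) : H) * ((m' : ℚ) * (J.ν / I.ν))
        = ((ℓ * m' : ℕ) : ℚ) * ℓ * (J.ν / I.ν) := by
      show 𝒪.nrm ((ℓ : ℚ) • (1 : H)) * _ = _
      rw [𝒪.nrm_smul, 𝒪.nrm_one]
      push_cast
      ring
    rw [e1, e2]
  · -- such a `δ` divided by `ℓ` would have norm `(m / ℓ) ν_J / ν_I`
    refine mul_eq_zero.mpr (Or.inr (Nat.card_eq_zero.mpr (Or.inl ⟨fun δ => hd ?_⟩)))
    obtain ⟨δ, hδ, hn⟩ := δ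
    have hη : (ℓ : ℚ)⁻¹ • δ ∈ homLat I J := fun x hx => by
      obtain ⟨z, hz, hzx⟩ := hδ x hx
      rw [smul_mul_assoc, hzx, inv_smul_smul₀ hl0]
      exact hz
    obtain ⟨z, hz⟩ := hint _ hη
    have hn' : 𝒪.nrm δ = (m : ℚ) * ℓ * (J.ν / I.ν) := hn
    rw [𝒪.nrm_smul, hn'] at hz
    change _ = (z : ℚ) * (J.ν / I.ν) at hz
    have hz' : ((m : ℤ) : ℚ) = ((z * ℓ : ℤ) : ℚ) := by
      push_cast
      field_simp at hz
      linear_combination hz
    exact Int.natCast_dvd_natCast.mp ⟨z, by rw [Int.cast_inj.mp hz']; ring⟩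

omit [Fintype C] in
/-- The form of a class with itself represents one exactly twice. -/
theorem rep_one_self (y : C) : QForm.rep (D.form y y) 1 = 2 := by
  rw [((D.form_spec y y).2.2.2 1).2, div_self (D.idl y).ν_pos.ne']
  simpa using D.units_card y

omit [Fintype C] in
/-- The form of two different classes does not represent one. -/
theorem rep_one_ne (c y : C) (h : c ≠ y) : QForm.rep (D.form c y) 1 = 0 := by
  rw [((D.form_spec c y).2.2.2 1).2]
  refine Nat.card_eq_zero.mpr (Or.inl ⟨fun δ => h ?_⟩)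
  obtain ⟨δ, hδ, hn⟩ := δ
  have hn' : 𝒪.nrm δ = (D.idl c).ν / (D.idl y).ν := by simpa [nrmHom] using hn
  have hne : 𝒪.nrm δ ≠ 0 := by rw [hn']; exact (div_pos (D.idl c).ν_pos (D.idl y).ν_pos).ne'
  refine (D.sep y c δ (Set.Subset.antisymm ?_ fun x hx => ?_) ?_).symm
  · rintro _ ⟨x, hx, rfl⟩
    exact hδ x hx
  · refine ⟨((D.idl y).ν / (D.idl c).ν) • 𝒪.adj δ * x, adj_mem_homLat hδ hne x hx, ?_⟩
    show δ * (((D.idl y).ν / (D.idl c).ν) • 𝒪.adj δ * x) = x
    rw [← mul_assoc, mul_smul_comm, 𝒪.mul_adj, smul_smul, hn',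
      show (D.idl y).ν / (D.idl c).ν * ((D.idl c).ν / (D.idl y).ν) = 1 by
        field_simp [(D.idl y).ν_pos.ne', (D.idl c).ν_pos.ne'],
      one_smul, one_mul]
  · rw [hn']
    field_simp [(D.idl y).ν_pos.ne']

/-! ## The recursions -/

/-- **The recursion of the neighbours.** -/
theorem rec_nb {ℓ : ℕ} (hℓ : ℓ.Prime) (hg : D.good ℓ) (c y : C) (m : ℕ) :
    (∑ c', D.nb ℓ c c' * QForm.rep (D.form c' y) m)
      = QForm.rep (D.form c y) (m * ℓ)
        + if ℓ ∣ m then ℓ * QForm.rep (D.form c y) (m / ℓ) else 0 := by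
  have : Fact ℓ.Prime := ⟨hℓ⟩
  set I := D.idl y
  set J := D.idl c
  set W : Nbhd D.idl J ℓ := D.nbhd ℓ hg c with hW
  set r : ℚ := (m : ℚ) * ℓ * (J.ν / I.ν) with hr
  have hI0 := I.ν_pos.ne'
  obtain ⟨-, -, -, hrep⟩ := D.form_spec c y
  have hr' : ((m * ℓ : ℕ) : ℚ) * (J.ν / I.ν) = r := by rw [hr]; push_cast; ring
  have hfin := (hrep (m * ℓ)).1
  rw [hr'] at hfin
  -- the homomorphisms into `ℓ J` lie in all `ℓ + 1` neighbours of `J`, the others in one
  set J' : Set H := {x | ∃ z ∈ J.lat, x = (ℓ : ℚ) • z}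
  have hJ' : J' ⊆ (J.lat : Set H) := by
    rintro _ ⟨z, hz, rfl⟩
    exact_mod_cast J.smul_mem hz ℓ
  have hcount : ∀ δ ∈ homSet 𝒪.nrmHom (I.lat : Set H) (J.lat : Set H) r,
      ((Finset.univ : Finset (Option (ZMod ℓ))).filter fun i => ∀ x ∈ (I.lat : Set H),
        δ * x ∈ translate (W.mult i) ((D.idl (W.cls i)).lat : Set H)).card
        = if (∀ x ∈ (I.lat : Set H), δ * x ∈ J') then ℓ + 1 else 1 := by
    intro δ hδ
    rw [card_nbhd_containing (lineSystem_stdLine (ZMod ℓ)) 𝒪.carrier (I.lat : Set H)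
      (J.lat : Set H) J' W.reduction.red W.reduction.act W.reduction.act_surj
      (fun x hx z hz => I.lat.add_mem hx hz) I.mul_mem W.reduction.red_add W.reduction.red_mul
      W.reduction.red_eq_zero _ (fun i x => Set.ext_iff.mp (W.lat_eq i) x) δ hδ.1
      (fun x hx => ?_)]
    · simp
    · obtain ⟨z, hz⟩ := I.exists_nrm_eq hx
      refine W.reduction.red_det _ (hδ.1 x hx) ((m : ℤ) * z) ?_
      have h2 : 𝒪.nrm δ = r := hδ.2
      rw [𝒪.nrm_mul, h2, hz, hr]
      push_cast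
      field_simp
  have hsum := sum_card_homSet 𝒪.nrmHom (I.lat : Set H) (J.lat : Set H) J' r Finset.univ
    (fun i => translate (W.mult i) ((D.idl (W.cls i)).lat : Set H)) ℓ hfin
    (fun i _ => by rw [W.lat_eq i]; exact fun x hx => hx.1) hJ' hcount
  have hleft : ∀ i, Nat.card (homSet 𝒪.nrmHom (I.lat : Set H)
      (translate (W.mult i) ((D.idl (W.cls i)).lat : Set H)) r)
      = QForm.rep (D.form (W.cls i) y) m := fun i => by
    rw [((D.form_spec (W.cls i) y).2.2.2 m).2, hr]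
    exact D.card_translate y (W.cls i) J (W.mult i) ℓ (by exact_mod_cast hℓ.pos) (W.nrm_mult i) m
  have hright : ℓ * Nat.card (homSet 𝒪.nrmHom (I.lat : Set H) J' r)
      = if ℓ ∣ m then ℓ * QForm.rep (D.form c y) (m / ℓ) else 0 :=
    D.mul_card_homSet_smul_lat hℓ c y m
  rw [Finset.sum_congr rfl fun i _ => hleft i] at hsum
  rw [(hrep (m * ℓ)).2, hr', ← hright, ← hsum]
  have hs := D.sum_nb hg c fun c' => QForm.rep (D.form c' y) m
  simp only [Nat.cast_id] at hs
  convert hs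

/-- The neighbour counts at a good prime are symmetric. -/
theorem nb_symm {ℓ : ℕ} (hℓ : ℓ.Prime) (hg : D.good ℓ) (c c' : C) :
    D.nb ℓ c c' = D.nb ℓ c' c := by
  -- the recursion at `m = 1` gives twice the neighbour count as a representation number
  have h : ∀ c c', D.nb ℓ c c' * 2 = QForm.rep (D.form c c') ℓ := by
    intro c c'
    have h1 := D.rec_nb hℓ hg c c' 1
    rw [Finset.sum_eq_single c' (fun x _ hx => by rw [D.rep_one_ne x c' hx, mul_zero])
      (fun hx => absurd (Finset.mem_univ _) hx), D.rep_one_self] at h1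
    simpa [hℓ.one_lt.ne', one_mul] using h1
  have h2 := h c c'
  have h3 := h c' c
  rw [((D.form_spec c c').2.2.2 ℓ).2, card_homSet_swap _ _ hℓ.ne_zero,
    ← ((D.form_spec c' c).2.2.2 ℓ).2] at h2
  omega

omit [Fintype C] in
/-- The form of `(c, y)` represents `m q` as often as the form of `(D.shift q c, y)` represents `m`,
for a prime `q` with a translation. -/
theorem rec_shift {q : ℕ} (hq : q.Prime) (ht : D.trans q) (c y : C) (m : ℕ) :
    QForm.rep (D.form c y) (m * q) = QForm.rep (D.form (D.shift q c) y) m := by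
  set S := D.shiftData q hq ht c
  set I := D.idl y
  set J := D.idl c
  rw [((D.form_spec c y).2.2.2 (m * q)).2, ((D.form_spec (D.shift q c) y).2.2.2 m).2,
    ← D.card_translate y (D.shift q c) J S.mult q (by exact_mod_cast hq.pos) S.nrm_mult m,
    S.lat_eq]
  push_cast
  refine congrArg (fun s : Set H => Nat.card s) ?_
  ext δ
  refine ⟨fun h => ⟨fun x hx => ⟨h.1 x hx, ?_⟩, h.2⟩, fun h => ⟨fun x hx => (h.1 x hx).1, h.2⟩⟩
  obtain ⟨z, hz⟩ := I.exists_nrm_eq hx
  refine ⟨(m : ℤ) * z, ?_⟩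
  have h2 : 𝒪.nrm δ = (m : ℚ) * q * (J.ν / I.ν) := h.2
  rw [𝒪.nrm_mul, h2, hz]
  push_cast
  field_simp [I.ν_pos.ne']

/-- **The Brandt data of a class system.** -/
def brandtTheta : BrandtTheta N C where
  form := D.form
  disc_eq c c' y := (D.form_spec c y).1.trans (D.form_spec c' y).1.symm
  sameMod c c' y p _ hp _ := by
    obtain ⟨u, e, he⟩ := (D.form_spec c y).2.1 p hp
    obtain ⟨u', e', he'⟩ := (D.form_spec c' y).2.1 p hp
    refine ⟨u' * u⁻¹, e.symm.trans e', fun r => ?_⟩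
    have := he (e.symm r)
    rw [Equiv.apply_symm_apply] at this
    rw [Equiv.trans_apply, he', this]
    simp [mul_assoc]
  rep_one_self y := by rw [D.rep_one_self]; norm_num
  rep_one_ne := D.rep_one_ne
  nb := D.nb
  good := D.good
  not_dvd_of_good := D.not_dvd_of_good
  nb_symm _ hℓ hg := D.nb_symm hℓ hg
  rec_nb _ hℓ hg := D.rec_nb hℓ hg
  trans := D.trans
  shift := D.shift
  dvd_of_trans := D.dvd_of_trans
  rec_shift _ hq ht := D.rec_shift hq ht

end ClassData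

end NormOrder

end Fermat.Agent.LT.Theta
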