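import Mathlib.Tactic

/-!
# Counting homomorphisms between lattices of a normed algebra

`homSet n I J r` is the set of `δ` with `δ I ⊆ J` and `n δ = r`.  Left translation of the target
gives equicardinal sets, and the sum over the neighbours of the target satisfies the Brandt
recursion as soon as the number of neighbours containing a given image is known.
-/

noncomputable section

namespace Fermat.Agent.LT.Theta

open scoped Classical

variable {H : Type*} [Ring H]

/-- Elements of norm `r` mapping `I` into `J`. -/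
def homSet (n : H →* ℚ) (I J : Set H) (r : ℚ) : Set H := {δ | (∀ x ∈ I, δ * x ∈ J) ∧ n δ = r}

/-- Left translation of the target. -/
lemma card_homSet_smul_right (n : H →* ℚ) (I J : Set H) (g : Hˣ) (r : ℚ) :
    Nat.card (homSet n I ((fun x => (g : H) * x) '' J) (n g * r))
      = Nat.card (homSet n I J r) := by
  have hn : n ((g⁻¹ : Hˣ) : H) * n (g : H) = 1 := by
    rw [← map_mul, Units.inv_mul, map_one]
  refine (Nat.card_congr ?_).symm
  refine
    { toFun := fun δ => ⟨(g : H) * δ.1, fun x hx => ⟨δ.1 * x, δ.2.1 x hx, (mul_assoc _ _ _).symm⟩,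
        by rw [map_mul, δ.2.2]⟩
      invFun := fun δ => ⟨((g⁻¹ : Hˣ) : H) * δ.1, fun x hx => by
          obtain ⟨z, hz, he⟩ := δ.2.1 x hx
          have he' : (g : H) * z = δ.1 * x := he
          rwa [mul_assoc, ← he', ← mul_assoc, Units.inv_mul, one_mul], by
        rw [map_mul, δ.2.2, ← mul_assoc, hn, one_mul]⟩
      left_inv := ?_
      right_inv := ?_ }
  · intro δ
    refine Subtype.ext ?_
    show ((g⁻¹ : Hˣ) : H) * ((g : H) * δ.1) = δ.1
    rw [← mul_assoc, Units.inv_mul, one_mul]
  · intro δ
    refine Subtype.ext ?_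
    show (g : H) * (((g⁻¹ : Hˣ) : H) * δ.1) = δ.1
    rw [← mul_assoc, Units.mul_inv, one_mul]

/-- A finite double count. -/
lemma sum_card_filter {α ι : Type*} (R : Finset α) (S : Finset ι) (P : ι → α → Prop) :
    ∑ i ∈ S, (R.filter (P i)).card = ∑ a ∈ R, (S.filter fun i => P i a).card := by
  simp only [Finset.card_filter]
  exact Finset.sum_comm

/-- **The recursion of neighbour sums.**  `S` indexes the neighbours `K i ⊆ J`; every image of `I`
of norm `r` lies in `l + 1` of them if it lies in `l J`, and in exactly one otherwise. -/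
theorem sum_card_homSet {ι : Type*} (n : H →* ℚ) (I J J' : Set H) (r : ℚ) (S : Finset ι)
    (K : ι → Set H) (l : ℕ) (hfin : (homSet n I J r).Finite) (hsub : ∀ i ∈ S, K i ⊆ J)
    (hJ' : J' ⊆ J)
    (hcount : ∀ δ ∈ homSet n I J r, (S.filter fun i => ∀ x ∈ I, δ * x ∈ K i).card
      = if (∀ x ∈ I, δ * x ∈ J') then l + 1 else 1) :
    ∑ i ∈ S, Nat.card (homSet n I (K i) r)
      = Nat.card (homSet n I J r) + l * Nat.card (homSet n I J' r) := by
  have hcard : ∀ K' : Set H, K' ⊆ J → Nat.card (homSet n I K' r)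
      = (hfin.toFinset.filter fun δ => ∀ x ∈ I, δ * x ∈ K').card := by
    intro K' hK'
    have hset : homSet n I K' r
        = ↑(hfin.toFinset.filter fun δ => ∀ x ∈ I, δ * x ∈ K') := by
      ext δ
      simp only [Finset.coe_filter, Set.Finite.mem_toFinset]
      exact ⟨fun h => ⟨⟨fun x hx => hK' (h.1 x hx), h.2⟩, h.1⟩, fun h => ⟨h.2, h.1.2⟩⟩
    rw [hset, Nat.card_coe_set_eq, Set.ncard_coe_finset]
  rw [Finset.sum_congr rfl fun i hi => hcard (K i) (hsub i hi), sum_card_filter,
    Finset.sum_congr rfl fun δ hδ => hcount δ (hfin.mem_toFinset.mp hδ), hcard J' hJ',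
    Nat.card_coe_set_eq, Set.ncard_eq_toFinset_card _ hfin, Finset.card_filter, Finset.mul_sum,
    Finset.card_eq_sum_ones, ← Finset.sum_add_distrib]
  refine Finset.sum_congr rfl fun δ _ => ?_
  split_ifs <;> omega

section TwoByTwo

open Matrix

variable {F : Type*} [Field F]

/-- A set of `2 × 2` matrices stable under sums and right multiplications, without invertible
elements, has all columns on one line. -/
theorem exists_line_of_right_ideal (S : Set (Matrix (Fin 2) (Fin 2) F))
    (hadd : ∀ A ∈ S, ∀ B ∈ S, A + B ∈ S) (hmul : ∀ A ∈ S, ∀ B, A * B ∈ S)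
    (hsing : ∀ A ∈ S, A.det = 0) {A : Matrix (Fin 2) (Fin 2) F} (hA : A ∈ S) {k : Fin 2}
    {v : Fin 2 → F} (hv : ∀ i, A i k = v i) (hv0 : v ≠ 0) :
    ∀ B ∈ S, ∀ j, ∃ t : F, ∀ i, B i j = t * v i := by
  intro B hB j
  have hE1 : A * (Matrix.of fun a b => if a = k ∧ b = 0 then 1 else 0)
      = Matrix.of fun i b => if b = 0 then v i else 0 := by
    ext i b
    fin_cases k <;> fin_cases b <;> simp [Matrix.mul_apply, ← hv]
  have hE2 : B * (Matrix.of fun a b => if a = j ∧ b = 1 then 1 else 0)
      = Matrix.of fun i b => if b = 1 then B i j else 0 := by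
    ext i b
    fin_cases j <;> fin_cases b <;> simp [Matrix.mul_apply]
  have hdet := hsing _ (hadd _ (hmul A hA (Matrix.of fun a b => if a = k ∧ b = 0 then 1 else 0))
    _ (hmul B hB (Matrix.of fun a b => if a = j ∧ b = 1 then 1 else 0)))
  rw [hE1, hE2, Matrix.det_fin_two] at hdet
  simp at hdet
  by_cases h0 : v 0 = 0
  · have h1 : v 1 ≠ 0 := fun h1 => hv0 (funext fun i => by fin_cases i <;> simp [h0, h1])
    refine ⟨B 1 j / v 1, fun i => ?_⟩
    fin_cases i <;> simp only [h0, zero_mul, zero_sub, neg_eq_zero, mul_eq_zero, Fin.zero_eta,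
      mul_zero, Fin.mk_one] at hdet ⊢
    · exact hdet.resolve_right h1
    · field_simp
  · refine ⟨B 0 j / v 0, fun i => ?_⟩
    fin_cases i <;> simp
    · field_simp
    · field_simp
      linear_combination hdet

end TwoByTwo

end Fermat.Agent.LT.Theta
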