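import Fermat.Agent.LT.Theta.Invariance

/-!
# Constant terms of theta series at the cusps; cuspidal combinations

For square free `N` every cusp of `Γ₀(N)` is represented by some `(1 0; g 1)` with `g ∣ N`, where
the constant term is a Gauss sum modulo `g`.  Forms of one discriminant isometric up to a unit
modulo every prime divisor of `N` therefore have equal constant terms everywhere.
-/

noncomputable section

namespace Fermat.Agent.LT.Theta

open Matrix Complex Filter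
open UpperHalfPlane hiding I
open scoped MatrixGroups ModularForm Manifold Topology

/-- Decomposition of a matrix of `SL₂(ℤ)` by its cusp, for square free level. -/
lemma exists_cusp_decomp {N : ℕ} (hN : Squarefree N) (γ : SL(2, ℤ)) {c : ℕ}
    (hc : γ 1 0 = (c : ℤ)) : ∃ γ₀ ∈ CongruenceSubgroup.Gamma0 N, ∃ k : ℤ,
      γ = γ₀ * (ModularGroup.S * ModularGroup.T ^ (-((Nat.gcd c N : ℕ) : ℤ)) * ModularGroup.S⁻¹)
        * ModularGroup.T ^ k := by
  set g := Nat.gcd c N with hgdef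
  have hN0 : N ≠ 0 := hN.ne_zero
  have hg : 0 < g := Nat.gcd_pos_of_pos_right _ (Nat.pos_of_ne_zero hN0)
  obtain ⟨M, hM⟩ : g ∣ N := Nat.gcd_dvd_right _ _
  obtain ⟨c', hc'⟩ : g ∣ c := Nat.gcd_dvd_left _ _
  have : NeZero M := ⟨fun h => hN0 (by rw [hM, h, mul_zero])⟩
  have hcop1 : Nat.Coprime g M := by
    rw [hM] at hN
    exact Nat.coprime_of_squarefree_mul hN
  have hcop2 : Nat.Coprime c' M := by
    have h : Nat.gcd (g * c') (g * M) = g * 1 := by rw [← hc', ← hM, mul_one]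
    rw [Nat.gcd_mul_left] at h
    exact Nat.eq_of_mul_eq_mul_left hg h
  have hcop : Nat.Coprime (g * c') M := Nat.Coprime.mul_left hcop1 hcop2
  set d := γ 1 1 with hd
  -- `k` is chosen modulo `M = N / g` so that `γ T⁻ᵏ (1 0; g 1)⁻¹` is in `Γ₀(N)`
  set kM : ZMod M := ((d : ZMod M) - (c' : ZMod M)) * ((g * c' : ℕ) : ZMod M)⁻¹ with hkM
  set k : ℤ := (kM.val : ℤ)
  set U := ModularGroup.S * ModularGroup.T ^ (-(g : ℤ)) * ModularGroup.S⁻¹ with hU
  refine ⟨γ * (ModularGroup.T ^ k)⁻¹ * U⁻¹, ?_, k, by group⟩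
  rw [CongruenceSubgroup.Gamma0_mem]
  have he : (U : Matrix (Fin 2) (Fin 2) ℤ) = !![1, 0; (g : ℤ), 1] := QForm.lower_entries (g : ℤ)
  have h10 : (γ * (ModularGroup.T ^ k)⁻¹ * U⁻¹) 1 0 = γ 1 0 + (d - k * γ 1 0) * -(g : ℤ) := by
    rw [← _root_.zpow_neg]
    simp only [Matrix.SpecialLinearGroup.coe_mul, Matrix.SpecialLinearGroup.coe_inv,
      ModularGroup.coe_T_zpow, he]
    simp [Matrix.adjugate_fin_two, Matrix.mul_apply, Fin.sum_univ_two, hd]
    ring_nf
    simp
  have hkey : ((g * c' : ℕ) : ZMod M) * kM = (d : ZMod M) - (c' : ZMod M) := by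
    rw [hkM, mul_left_comm, ZMod.coe_mul_inv_eq_one _ hcop, mul_one]
  have hdvd : (M : ℤ) ∣ (c' : ℤ) - d + k * (g * c' : ℕ) := by
    rw [← ZMod.intCast_zmod_eq_zero_iff_dvd]
    push_cast [k, ZMod.natCast_zmod_val]
    push_cast at hkey
    linear_combination hkey
  rw [h10, ZMod.intCast_zmod_eq_zero_iff_dvd, hc, hc', hM]
  obtain ⟨t, ht⟩ := hdvd
  exact ⟨t, by push_cast at ht ⊢; linear_combination (g : ℤ) * ht⟩

namespace QForm

variable {N : ℕ} [NeZero N]

omit [NeZero N] in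
/-- `P` and `P'` are isometric up to a unit modulo `c`. -/
def SameMod (P P' : QForm N) (c : ℕ) [NeZero c] : Prop :=
  ∃ u : (ZMod c)ˣ, ∃ e : (Fin 4 → ZMod c) ≃ (Fin 4 → ZMod c),
    ∀ r, P'.evalMod c (e r) = u * P.evalMod c r

variable (P : QForm N)

/-- The limit at infinity of the theta series slashed by `(1 0; g 1)`. -/
lemma tendsto_theta_slash_sq (hN : Squarefree N) (γ : SL(2, ℤ)) {c : ℕ}
    (hc : γ 1 0 = (c : ℤ)) [NeZero (Nat.gcd c N)] :
    Tendsto (theta P ∣[(2 : ℤ)] γ) atImInfty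
      (𝓝 (-(((Nat.gcd c N : ℕ) : ℂ) ^ 2 * P.disc)⁻¹ * P.gauss (Nat.gcd c N) 1)) := by
  obtain ⟨γ₀, h0, k, hk⟩ := exists_cusp_decomp hN γ hc
  set g := Nat.gcd c N
  set U := ModularGroup.S * ModularGroup.T ^ (-(g : ℤ)) * ModularGroup.S⁻¹ with hU
  have he : (U : Matrix (Fin 2) (Fin 2) ℤ) = !![1, 0; (g : ℤ), 1] := lower_entries (g : ℤ)
  have h10 : U 1 0 = (g : ℤ) := by rw [he]; rfl
  have h00 : U 0 0 = 1 := by rw [he]; rfl
  have h := tendsto_theta_slash P U g h10
  rw [h00] at h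
  rw [hk, SlashAction.slash_mul, SlashAction.slash_mul, theta_slash_Gamma0 P γ₀ h0]
  have hv : Tendsto (fun τ : ℍ => ((k : ℝ) +ᵥ τ)) atImInfty atImInfty :=
    tendsto_comap_iff.mpr ((tendsto_comap : Tendsto (fun τ : ℍ => τ.im) atImInfty atTop).congr
      fun τ => (UpperHalfPlane.vadd_im (k : ℝ) τ).symm)
  exact (h.comp hv).congr fun τ => (slash_T_zpow _ 2 k τ).symm

/-- At a divisor of a square free level the Gauss sum does not depend on the numerator. -/
lemma gauss_eq_of_dvd_level (hN : Squarefree N) (g : ℕ) [NeZero g] (hg : g ∣ N) (a : ℤ)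
    (ha : IsUnit (a : ZMod g)) : P.gauss g a = P.gauss g 1 := by
  obtain ⟨u, hu⟩ := ha
  set d : ℤ := (((↑u⁻¹ : ZMod g)).val : ℤ) with hd
  obtain ⟨b, hb⟩ : (g : ℤ) ∣ a * d - 1 := by
    rw [← ZMod.intCast_zmod_eq_zero_iff_dvd]
    push_cast [hd, ZMod.natCast_zmod_val]
    rw [← hu]
    simp
  -- two expressions for the limit at the cusp of `(a b; g d)`
  let γ : SL(2, ℤ) := ⟨!![a, b; (g : ℤ), d], by rw [Matrix.det_fin_two_of]; linarith⟩
  have h10 : γ 1 0 = (g : ℤ) := rfl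
  have hgN : Nat.gcd g N = g := Nat.gcd_eq_left hg
  have h1 := tendsto_theta_slash P γ g h10
  have : NeZero (Nat.gcd g N) := ⟨by rw [hgN]; exact NeZero.ne g⟩
  have h2 := tendsto_theta_slash_sq P hN γ h10
  have h3 := tendsto_nhds_unique h1 h2
  have h4 : ∀ (g' : ℕ) [NeZero g'], g' = g →
      -((g' : ℂ) ^ 2 * P.disc)⁻¹ * P.gauss g' 1 = -((g : ℂ) ^ 2 * P.disc)⁻¹ * P.gauss g 1 := by
    intro g' _ e
    subst e
    rfl
  rw [h4 _ hgN] at h3
  refine mul_left_cancel₀ ?_ h3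
  simp [NeZero.ne g, P.disc_pos.ne']

lemma gauss_eq_of_sameMod (hN : Squarefree N) {P P' : QForm N} {g : ℕ} [NeZero g] (hg : g ∣ N)
    (h : SameMod P P' g) : P'.gauss g 1 = P.gauss g 1 := by
  obtain ⟨u, e, he⟩ := h
  rw [← gauss_eq_of_dvd_level P hN g hg (((u : ZMod g)).val : ℤ) (by simp)]
  simp only [gauss]
  rw [← e.sum_comp]
  refine Finset.sum_congr rfl fun r _ => ?_
  rw [he]
  simp

section CRT

variable {m n : ℕ} [NeZero m] [NeZero n]

omit [NeZero N] in
lemma evalMod_cast {c c' : ℕ} [NeZero c] [NeZero c'] (h : c' ∣ c) (r : Fin 4 → ZMod c) :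
    ZMod.castHom h (ZMod c') (P.evalMod c r)
      = P.evalMod c' (fun i => ZMod.castHom h (ZMod c') (r i)) := by
  have e : reduce c' (lift c r) = fun i => ZMod.castHom h (ZMod c') (r i) := funext fun i => by
    simp only [reduce, lift, Int.cast_natCast]
    rw [← map_natCast (ZMod.castHom h (ZMod c')), ZMod.natCast_zmod_val]
  rw [← e, P.evalMod_reduce]
  simp [evalMod]

omit [NeZero N] in
lemma sameMod_mul {P P' : QForm N} (hmn : m.Coprime n) (hm : SameMod P P' m)
    (hn : SameMod P P' n) : SameMod P P' (m * n) := by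
  obtain ⟨u, e, he⟩ := hm
  obtain ⟨v, f, hf⟩ := hn
  set χ := ZMod.chineseRemainder hmn
  let split : (Fin 4 → ZMod (m * n)) ≃ (Fin 4 → ZMod m) × (Fin 4 → ZMod n) :=
    (Equiv.piCongrRight fun _ => χ.toEquiv).trans
      (Equiv.arrowProdEquivProdArrow _ (fun _ => ZMod m) (fun _ => ZMod n))
  have hfst : ∀ z, (χ z).1 = ZMod.castHom (dvd_mul_right m n) (ZMod m) z := fun z =>
    RingHom.congr_fun (RingHom.ext_zmod ((RingHom.fst _ _).comp χ.toRingHom) _) z
  have hsnd : ∀ z, (χ z).2 = ZMod.castHom (dvd_mul_left n m) (ZMod n) z := fun z =>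
    RingHom.congr_fun (RingHom.ext_zmod ((RingHom.snd _ _).comp χ.toRingHom) _) z
  have key : ∀ (Q : QForm N) r, χ (Q.evalMod (m * n) r)
      = (Q.evalMod m (split r).1, Q.evalMod n (split r).2) := by
    intro Q r
    refine Prod.ext ?_ ?_
    · rw [hfst, evalMod_cast]
      exact congrArg _ (funext fun i => (hfst (r i)).symm)
    · rw [hsnd, evalMod_cast]
      exact congrArg _ (funext fun i => (hsnd (r i)).symm)
  refine ⟨(Units.mapEquiv χ.toMulEquiv).symm (MulEquiv.prodUnits.symm (u, v)),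
    split.trans ((e.prodCongr f).trans split.symm), fun r => χ.injective ?_⟩
  rw [key, map_mul, key]
  simp only [Equiv.trans_apply, Equiv.apply_symm_apply, Equiv.prodCongr_apply, Prod.map, he, hf]
  have hu : χ (((Units.mapEquiv χ.toMulEquiv).symm (MulEquiv.prodUnits.symm (u, v)) :
      (ZMod (m * n))ˣ) : ZMod (m * n)) = ((u : ZMod m), (v : ZMod n)) := by
    have h := (Units.mapEquiv χ.toMulEquiv).apply_symm_apply (MulEquiv.prodUnits.symm (u, v))
    have h2 := congrArg Units.val h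
    exact h2.trans rfl
  rw [hu]
  rfl

omit [NeZero N] in
lemma sameMod_one (P P' : QForm N) : SameMod P P' 1 :=
  ⟨1, Equiv.refl _, fun _ => Subsingleton.elim _ _⟩

omit [NeZero N] in
/-- Isometry modulo every prime divisor gives isometry modulo every divisor. -/
lemma sameMod_of_primes (hN : Squarefree N) {P P' : QForm N}
    (h : ∀ (p : ℕ) [NeZero p], p.Prime → p ∣ N → SameMod P P' p) :
    ∀ (g : ℕ) [NeZero g], g ∣ N → SameMod P P' g := by
  intro g
  induction g using Nat.strong_induction_on with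
  | _ g ih =>
    intro hg0 hg
    rcases eq_or_ne g 1 with rfl | hg1
    · exact sameMod_one P P'
    obtain ⟨p, hp, hpg⟩ := Nat.exists_prime_and_dvd hg1
    obtain ⟨g', rfl⟩ := hpg
    have hg'0 : g' ≠ 0 := fun h0 => hg0.out (by rw [h0, mul_zero])
    have : NeZero g' := ⟨hg'0⟩
    have : NeZero p := ⟨hp.ne_zero⟩
    have hsq : Squarefree (p * g') := hN.squarefree_of_dvd hg
    have hlt : g' < p * g' := lt_mul_left (Nat.pos_of_ne_zero hg'0) hp.one_lt
    exact sameMod_mul (Nat.coprime_of_squarefree_mul hsq)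
      (h p hp ((dvd_mul_right p g').trans hg))
      (ih g' hlt ((dvd_mul_left g' p).trans hg))

end CRT

end QForm

open QForm

variable {N : ℕ} [NeZero N] {X : Type*} [Fintype X]

/-- A linear combination of theta series. -/
def thetaSum (P : X → QForm N) (f : X → ℂ) : ℍ → ℂ := ∑ x, f x • theta (P x)

omit [NeZero N] in
lemma thetaSum_slash (P : X → QForm N) (f : X → ℂ) (γ : SL(2, ℤ)) :
    thetaSum P f ∣[(2 : ℤ)] γ = ∑ x, f x • (theta (P x) ∣[(2 : ℤ)] γ) := by
  simp [thetaSum, SlashAction.sum_slash, ModularForm.SL_smul_slash]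

/-- Combinations orthogonal to constants of forms in one genus vanish at every cusp. -/
lemma isZeroAtImInfty_thetaSum (hN : Squarefree N) (P : X → QForm N)
    (hdisc : ∀ x y, (P x).disc = (P y).disc)
    (hloc : ∀ x y (p : ℕ) [NeZero p], p.Prime → p ∣ N → SameMod (P x) (P y) p)
    (f : X → ℂ) (hf : ∑ x, f x = 0) (γ : SL(2, ℤ)) :
    IsZeroAtImInfty (thetaSum P f ∣[(2 : ℤ)] γ) := by
  rcases isEmpty_or_nonempty X with hX | ⟨⟨x0⟩⟩
  · rw [thetaSum_slash, Finset.univ_eq_empty, Finset.sum_empty]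
    exact tendsto_const_nhds
  suffices ∀ γ : SL(2, ℤ), ∃ L : ℂ, ∀ x, Tendsto (theta (P x) ∣[(2 : ℤ)] γ) atImInfty (𝓝 L) by
    obtain ⟨L, hL⟩ := this γ
    rw [thetaSum_slash]
    have h := tendsto_finsetSum Finset.univ fun x (_ : x ∈ Finset.univ) => (hL x).const_mul (f x)
    rw [← Finset.sum_mul, hf, zero_mul] at h
    refine Tendsto.congr (fun τ => ?_) h
    simp [Finset.sum_apply]
  have hpos : ∀ (γ : SL(2, ℤ)) (c : ℕ) [NeZero c], γ 1 0 = (c : ℤ) →
      ∃ L : ℂ, ∀ x, Tendsto (theta (P x) ∣[(2 : ℤ)] γ) atImInfty (𝓝 L) := by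
    intro γ c _ hc
    have : NeZero (Nat.gcd c N) :=
      ⟨(Nat.gcd_pos_of_pos_right _ (Nat.pos_of_ne_zero (NeZero.ne N))).ne'⟩
    refine ⟨-(((Nat.gcd c N : ℕ) : ℂ) ^ 2 * (P x0).disc)⁻¹ * (P x0).gauss (Nat.gcd c N) 1,
      fun x => ?_⟩
    have h := tendsto_theta_slash_sq (P x) hN γ hc
    rw [hdisc x x0, gauss_eq_of_sameMod hN (Nat.gcd_dvd_right c N)
      (sameMod_of_primes hN (fun p _ hp hpN => hloc x0 x p hp hpN) _ (Nat.gcd_dvd_right c N))] at h
    exact h
  intro γ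
  rcases eq_or_ne (γ 1 0) 0 with h0 | h0
  · exact ⟨1, fun x => by rw [slash_of_zero (P x) γ h0]; exact tendsto_theta (P x)⟩
  have : NeZero (γ 1 0).natAbs := ⟨by simpa using h0⟩
  rcases Int.natAbs_eq (γ 1 0) with h | h
  · exact hpos γ _ h
  · obtain ⟨L, hL⟩ := hpos (-γ) (γ 1 0).natAbs (by
      simp only [Matrix.SpecialLinearGroup.coe_neg, Matrix.neg_apply]
      omega)
    exact ⟨L, fun x => slash_neg_SL (theta (P x)) γ ▸ hL x⟩

/-- **The cusp form** `∑ f(x) θ_x` of weight two on `Γ₀(N)`. -/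
def thetaComb (hN : Squarefree N) (P : X → QForm N)
    (hdisc : ∀ x y, (P x).disc = (P y).disc)
    (hloc : ∀ x y (p : ℕ) [NeZero p], p.Prime → p ∣ N → SameMod (P x) (P y) p)
    (f : X → ℂ) (hf : ∑ x, f x = 0) : CuspForm (CongruenceSubgroup.Gamma0 N) 2 where
  toFun := thetaSum P f
  slash_action_eq' := by
    rintro _ ⟨γ, hγ, rfl⟩
    show thetaSum P f ∣[(2 : ℤ)] γ = thetaSum P f
    rw [thetaSum_slash]
    exact Finset.sum_congr rfl fun x _ => by rw [theta_slash_Gamma0 (P x) γ hγ]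
  holo' := by
    have h : MDiff (∑ x, f x • theta (P x) : ℍ → ℂ) := by
      refine Finset.sum_induction _ (fun g : ℍ → ℂ => MDiff g) (fun a b ha hb => ha.add hb)
        mdifferentiable_const fun x _ => (mdifferentiable_theta (P x)).const_smul _
    exact h
  zero_at_cusps' := by
    intro c hc
    rw [OnePoint.isZeroAt_iff_forall_SL2Z
      (Subgroup.IsArithmetic.isCusp_iff_isCusp_SL2Z _ |>.1 hc)]
    exact fun γ _ => isZeroAtImInfty_thetaSum hN P hdisc hloc f hf γ

@[simp] lemma coe_thetaComb (hN : Squarefree N) (P : X → QForm N)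
    (hdisc : ∀ x y, (P x).disc = (P y).disc)
    (hloc : ∀ x y (p : ℕ) [NeZero p], p.Prime → p ∣ N → SameMod (P x) (P y) p)
    (f : X → ℂ) (hf : ∑ x, f x = 0) : ⇑(thetaComb hN P hdisc hloc f hf) = thetaSum P f := rfl

theorem qExpansion_coeff_thetaComb (hN : Squarefree N) (P : X → QForm N)
    (hdisc : ∀ x y, (P x).disc = (P y).disc)
    (hloc : ∀ x y (p : ℕ) [NeZero p], p.Prime → p ∣ N → SameMod (P x) (P y) p)
    (f : X → ℂ) (hf : ∑ x, f x = 0) (m : ℕ) :
    (UpperHalfPlane.qExpansion 1 (thetaComb hN P hdisc hloc f hf)).coeff m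
      = ∑ x, f x * (rep (P x) m : ℂ) := by
  refine (ModularFormClass.qExpansion_coeff_unique
    (Γ := ((CongruenceSubgroup.Gamma0 N : Subgroup SL(2, ℤ)) : Subgroup (GL (Fin 2) ℝ))) (k := 2)
    (f := thetaComb hN P hdisc hloc f hf) (c := fun j : ℕ => ∑ x, f x * (rep (P x) j : ℂ))
    one_pos (by simp) (fun τ => ?_) m).symm
  have h := hasSum_sum fun x (_ : x ∈ (Finset.univ : Finset X)) =>
    (hasSum_rep (P x) τ).mul_left (f x)
  rw [coe_thetaComb, thetaSum, Finset.sum_apply]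
  refine h.congr_fun fun j => ?_
  simp only [smul_eq_mul, Finset.sum_mul]
  exact Finset.sum_congr rfl fun x _ => mul_assoc _ _ _

end Fermat.Agent.LT.Theta
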