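import Fermat.Agent.LT.Theta.Cusp
import Fermat.Agent.Newforms.Eigen

/-!
# Eigenforms from combinations of theta series
-/

noncomputable section

namespace Fermat.Agent.LT.Theta

open ModularFormClass QForm

variable {N : ℕ} [NeZero N] {X : Type*} [Fintype X]

/-- The `m`-th coefficient of `∑ f(x) θ_x`. -/
def thetaCoeff (P : X → QForm N) (f : X → ℂ) (m : ℕ) : ℂ := ∑ x, f x * (rep (P x) m : ℂ)

/-- If the coefficients of a cuspidal combination of theta series satisfy the Hecke recursions at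
the primes in `S` and the first one is nonzero, there is a normalised eigenform with these
eigenvalues. -/
theorem exists_eigenform_thetaSum (hN : Squarefree N) (P : X → QForm N)
    (hdisc : ∀ x y, (P x).disc = (P y).disc)
    (hloc : ∀ x y (p : ℕ) [NeZero p], p.Prime → p ∣ N → SameMod (P x) (P y) p)
    (f : X → ℂ) (hf : ∑ x, f x = 0) (h1 : thetaCoeff P f 1 ≠ 0) (S : ℕ → Prop) (lam : ℕ → ℂ)
    (hrec : ∀ ℓ : ℕ, ℓ.Prime → S ℓ → ∀ m : ℕ, thetaCoeff P f (m * ℓ) +
      (if ℓ ∣ m then HeckeDuality.eulerWeight N ℓ * thetaCoeff P f (m / ℓ) else 0)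
        = lam ℓ * thetaCoeff P f m) :
    ∃ g : CuspForm (CongruenceSubgroup.Gamma0 N) 2, g.IsNormalizedEigenform ∧
      ∀ ℓ, ℓ.Prime → S ℓ → qCoeff g ℓ = lam ℓ := by
  set F := thetaComb hN P hdisc hloc f hf
  have hc : ∀ m, qCoeff F m = thetaCoeff P f m := fun m =>
    qExpansion_coeff_thetaComb hN P hdisc hloc f hf m
  have hF : F ≠ 0 := fun h => h1 <| by
    rw [← hc, h]
    exact (Newforms.coeffLin (N := N) (k := 2) 1).map_zero
  refine Newforms.exists_eigenform_of_eigen hF S lam fun ℓ hℓ hS => ?_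
  rw [Newforms.hOp_eq_smul_iff]
  intro m
  simp only [hc]
  exact hrec ℓ hℓ hS m

end Fermat.Agent.LT.Theta
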