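import Mathlib

/-!
# Exponential series on the upper half plane

`seriesFun a e τ = ∑ a i · exp (2πi e(i) τ)` for bounded coefficients and exponents `e ≥ 0` with
`∑ exp (-t e(i))` finite for all `t > 0`: holomorphy, limit at infinity, `q`-expansion coefficients.
-/

noncomputable section

namespace Fermat.Agent.LT.Theta

open Complex Filter
open UpperHalfPlane hiding I
open scoped Real Topology Manifold

/-- The exponential series. -/
def seriesFun {ι : Type*} (a : ι → ℂ) (e : ι → ℝ) (τ : ℍ) : ℂ :=
  ∑' i, a i * cexp (2 * π * I * (e i : ℂ) * (τ : ℂ))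

lemma norm_series_term {ι : Type*} (a : ι → ℂ) (e : ι → ℝ) (i : ι) (z : ℂ) :
    ‖a i * cexp (2 * π * I * (e i : ℂ) * z)‖
      = ‖a i‖ * Real.exp (-(2 * π * z.im) * e i) := by
  rw [norm_mul, Complex.norm_exp]
  congr 2
  simp [Complex.mul_re, Complex.mul_im]
  ring

/-- Exponents of a series: nonnegative with every `exp (-t e)` summable. -/
structure GoodExp {ι : Type*} (e : ι → ℝ) : Prop where
  nonneg : ∀ i, 0 ≤ e i
  summable : ∀ t : ℝ, 0 < t → Summable fun i => Real.exp (-t * e i)

variable {ι : Type*} {a : ι → ℂ} {e : ι → ℝ} {C : ℝ}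

lemma series_term_le (he : GoodExp e) (ha : ∀ i, ‖a i‖ ≤ C) {t : ℝ} {z : ℂ} (hz : t ≤ z.im)
    (i : ι) : ‖a i * cexp (2 * π * I * (e i : ℂ) * z)‖ ≤ C * Real.exp (-(2 * π * t) * e i) := by
  rw [norm_series_term]
  refine mul_le_mul (ha i) (Real.exp_le_exp.mpr ?_) (Real.exp_pos _).le
    ((norm_nonneg _).trans (ha i))
  have := he.nonneg i
  have : t * e i ≤ z.im * e i := by gcongr
  nlinarith [Real.pi_pos]

lemma summable_series (he : GoodExp e) (ha : ∀ i, ‖a i‖ ≤ C) (τ : ℍ) :
    Summable fun i => a i * cexp (2 * π * I * (e i : ℂ) * (τ : ℂ)) := by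
  refine Summable.of_norm_bounded
    ((he.summable _ (mul_pos Real.two_pi_pos τ.im_pos)).mul_left C) fun i => ?_
  exact series_term_le he ha (le_refl _) i

lemma mdifferentiable_seriesFun (he : GoodExp e) (ha : ∀ i, ‖a i‖ ≤ C) :
    MDiff (seriesFun a e) := by
  rw [UpperHalfPlane.mdifferentiable_iff]
  intro z hz
  set U : Set ℂ := {w : ℂ | z.im / 2 < w.im} with hU
  have hUo : IsOpen U := isOpen_lt continuous_const Complex.continuous_im
  have hz' : 0 < z.im := hz
  have hd : DifferentiableOn ℂ
      (fun w : ℂ => ∑' i, a i * cexp (2 * π * I * (e i : ℂ) * w)) U := by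
    refine differentiableOn_tsum_of_summable_norm
      ((he.summable _ (mul_pos Real.two_pi_pos (half_pos hz'))).mul_left C)
      (fun i => by fun_prop) hUo fun i w hw => ?_
    exact series_term_le he ha (le_of_lt hw) i
  have hzU : z ∈ U := by simp [hU]; linarith
  refine ((hd.differentiableAt (hUo.mem_nhds hzU)).congr_of_eventuallyEq ?_).differentiableWithinAt
  filter_upwards [isOpen_upperHalfPlaneSet.mem_nhds hz] with w hw
  simp [seriesFun, ofComplex_apply_of_im_pos hw]

lemma tendsto_seriesFun (he : GoodExp e) (ha : ∀ i, ‖a i‖ ≤ C) {i₀ : ι}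
    (h0 : ∀ i, e i = 0 ↔ i = i₀) : Tendsto (seriesFun a e) atImInfty (𝓝 (a i₀)) := by
  classical
  have hlim : ∀ i, Tendsto (fun τ : ℍ => a i * cexp (2 * π * I * (e i : ℂ) * (τ : ℂ))) atImInfty
      (𝓝 (if i = i₀ then a i₀ else 0)) := by
    intro i
    split_ifs with hi
    · subst hi
      simp [(h0 i).mpr rfl]
    · have hpos : 0 < e i := lt_of_le_of_ne (he.nonneg i) fun h => hi ((h0 i).mp h.symm)
      rw [tendsto_zero_iff_norm_tendsto_zero]
      simp only [norm_series_term]
      have him : Tendsto (fun τ : ℍ => τ.im) atImInfty atTop := tendsto_comap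
      have : Tendsto (fun τ : ℍ => -(2 * π * τ.im) * e i) atImInfty atBot := by
        have h1 := (him.const_mul_atTop (mul_pos Real.two_pi_pos hpos))
        refine (tendsto_neg_atTop_atBot.comp h1).congr fun τ => ?_
        simp only [Function.comp_apply]
        ring
      simpa using (Real.tendsto_exp_atBot.comp this).const_mul ‖a i‖
  have := tendsto_tsum_of_dominated_convergence (𝓕 := atImInfty)
    ((he.summable _ (mul_pos Real.two_pi_pos one_pos)).mul_left C) hlim (by
      have h1 : ∀ᶠ τ : ℍ in atImInfty, 1 ≤ τ.im :=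
        (tendsto_comap : Tendsto (fun τ : ℍ => τ.im) atImInfty atTop).eventually_ge_atTop 1
      filter_upwards [h1] with τ hτ i
      exact series_term_le he ha hτ i)
  simp only [tsum_ite_eq] at this
  exact this

/-- Grouping a series with natural exponents by the exponent. -/
lemma hasSum_seriesFun_nat {k : ι → ℕ} (he : GoodExp fun i => (k i : ℝ))
    (hfin : ∀ m, Finite {i // k i = m}) (τ : ℍ) :
    HasSum (fun m : ℕ => (Nat.card {i // k i = m} : ℂ) • (Function.Periodic.qParam 1 (τ : ℂ)) ^ m)
      (seriesFun (fun _ => 1) (fun i => (k i : ℝ)) τ) := by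
  have hs := summable_series (a := fun _ => 1) (C := 1) he (fun _ => by simp) τ
  have h1 := ((Equiv.sigmaFiberEquiv k).hasSum_iff).mpr hs.hasSum
  refine h1.sigma fun m => ?_
  have := hfin m
  have := Fintype.ofFinite {i // k i = m}
  have h2 : ∀ i : {i // k i = m},
      (1 : ℂ) * cexp (2 * π * I * ((k i.1 : ℝ) : ℂ) * (τ : ℂ))
        = (Function.Periodic.qParam 1 (τ : ℂ)) ^ m := by
    intro i
    rw [Function.Periodic.qParam, ← Complex.exp_nat_mul, i.2, one_mul]
    congr 1
    push_cast
    ring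
  have := hasSum_fintype (fun i : {i // k i = m} =>
    (1 : ℂ) * cexp (2 * π * I * ((k i.1 : ℝ) : ℂ) * (τ : ℂ)))
  simp only [h2, Finset.sum_const, Finset.card_univ] at this
  rw [smul_eq_mul, Nat.card_eq_fintype_card, ← nsmul_eq_mul]
  refine this.congr_fun fun i => ?_
  exact h2 i

end Fermat.Agent.LT.Theta
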