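import Fermat.Agent.LT.Theta.Poisson
import Fermat.Agent.LT.Theta.Series

/-!
# Positive definite even quaternary forms of level `N` and square discriminant

`QForm N` bundles an even symmetric positive definite integral `4 × 4` matrix of square determinant
with a certificate that `N` times its inverse is even.  This file contains the algebra: values,
values modulo `c`, Gauss sums and the behaviour of Gauss sums under translation.
-/

noncomputable section

namespace Fermat.Agent.LT.Theta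

open Matrix

lemma two_dvd_quad {M : Matrix (Fin 4) (Fin 4) ℤ} (hs : M.IsSymm) (he : ∀ i, 2 ∣ M i i)
    (x : Fin 4 → ℤ) : 2 ∣ x ⬝ᵥ (M *ᵥ x) := by
  obtain ⟨a, ha⟩ := he 0
  obtain ⟨b, hb⟩ := he 1
  obtain ⟨c, hc⟩ := he 2
  obtain ⟨d, hd⟩ := he 3
  refine ⟨a * x 0 ^ 2 + b * x 1 ^ 2 + c * x 2 ^ 2 + d * x 3 ^ 2 + M 0 1 * x 0 * x 1
    + M 0 2 * x 0 * x 2 + M 0 3 * x 0 * x 3 + M 1 2 * x 1 * x 2 + M 1 3 * x 1 * x 3
    + M 2 3 * x 2 * x 3, ?_⟩
  simp only [dotProduct, Matrix.mulVec, Fin.sum_univ_four, hs.apply 0 1, hs.apply 0 2,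
    hs.apply 0 3, hs.apply 1 2, hs.apply 1 3, hs.apply 2 3, ha, hb, hc, hd]
  ring

lemma dot_symm {n : Type*} [Fintype n] {R : Type*} [CommRing R] {M : Matrix n n R}
    (hs : M.IsSymm) (x y : n → R) : y ⬝ᵥ (M *ᵥ x) = x ⬝ᵥ (M *ᵥ y) := by
  rw [Matrix.dotProduct_mulVec, ← Matrix.mulVec_transpose, hs.eq, dotProduct_comm]

/-- A positive definite even integral quaternary form of square determinant and level dividing
`N`, given by its matrix and `N` times the inverse matrix. -/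
structure QForm (N : ℕ) where
  mat : Matrix (Fin 4) (Fin 4) ℤ
  symm : mat.IsSymm
  even : ∀ i, 2 ∣ mat i i
  pos : (mat.map ((↑) : ℤ → ℝ)).PosDef
  disc : ℕ
  det_eq : mat.det = (disc : ℤ) ^ 2
  dual : Matrix (Fin 4) (Fin 4) ℤ
  mul_dual : mat * dual = (N : ℤ) • 1
  dual_even : ∀ i, 2 ∣ dual i i

namespace QForm

variable {N : ℕ} (P : QForm N)

/-- The value `xᵀAx / 2`. -/
def eval (x : Fin 4 → ℤ) : ℤ := (x ⬝ᵥ (P.mat *ᵥ x)) / 2

/-- The value `yᵀ(N A⁻¹)y / 2`. -/
def dualEval (y : Fin 4 → ℤ) : ℤ := (y ⬝ᵥ (P.dual *ᵥ y)) / 2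

/-- Twice the form is the quadratic form of its matrix. -/
lemma two_mul_eval (x : Fin 4 → ℤ) : 2 * P.eval x = x ⬝ᵥ (P.mat *ᵥ x) :=
  Int.mul_ediv_cancel' (two_dvd_quad P.symm P.even x)

lemma det_ne_zero : P.mat.det ≠ 0 := by
  intro h
  have h1 := P.pos.det_pos
  have h2 : (P.mat.map ((↑) : ℤ → ℝ)).det = ((P.mat.det : ℤ) : ℝ) :=
    ((Int.castRingHom ℝ).map_det P.mat).symm
  rw [h2, h] at h1
  simp at h1

lemma disc_pos : 0 < P.disc := by
  rcases Nat.eq_zero_or_pos P.disc with h | h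
  · exact absurd P.det_eq (by simp [h, P.det_ne_zero])
  · exact h

lemma dual_eq : P.mat.det • P.dual = (N : ℤ) • P.mat.adjugate := by
  have := congrArg (fun M => P.mat.adjugate * M) P.mul_dual
  simp only [← Matrix.mul_assoc, Matrix.adjugate_mul, Matrix.smul_mul, Matrix.one_mul,
    Matrix.mul_smul, Matrix.mul_one] at this
  exact this

lemma dual_symm : P.dual.IsSymm := by
  have h1 := congrArg Matrix.transpose P.dual_eq
  rw [Matrix.transpose_smul, Matrix.transpose_smul, Matrix.adjugate_transpose, P.symm.eq,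
    ← P.dual_eq] at h1
  exact smul_right_injective _ P.det_ne_zero h1

lemma two_mul_dualEval (y : Fin 4 → ℤ) : 2 * P.dualEval y = y ⬝ᵥ (P.dual *ᵥ y) :=
  Int.mul_ediv_cancel' (two_dvd_quad P.dual_symm P.dual_even y)

lemma dual_mul : P.dual * P.mat = (N : ℤ) • 1 := by
  have := congrArg Matrix.transpose P.mul_dual
  rwa [Matrix.transpose_mul, P.symm.eq, P.dual_symm.eq, Matrix.transpose_smul,
    Matrix.transpose_one] at this

lemma mat_dual_mulVec (v : Fin 4 → ℤ) : P.mat *ᵥ (P.dual *ᵥ v) = (N : ℤ) • v := by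
  rw [Matrix.mulVec_mulVec, P.mul_dual, Matrix.smul_mulVec, Matrix.one_mulVec]

lemma dual_mat_mulVec (v : Fin 4 → ℤ) : P.dual *ᵥ (P.mat *ᵥ v) = (N : ℤ) • v := by
  rw [Matrix.mulVec_mulVec, P.dual_mul, Matrix.smul_mulVec, Matrix.one_mulVec]

lemma dualEval_mat (s : Fin 4 → ℤ) : P.dualEval (P.mat *ᵥ s) = N * P.eval s := by
  have h := P.two_mul_dualEval (P.mat *ᵥ s)
  rw [P.dual_mat_mulVec, dotProduct_smul, dotProduct_comm, ← P.two_mul_eval, smul_eq_mul] at h
  linarith

lemma eval_dual (v : Fin 4 → ℤ) : P.eval (P.dual *ᵥ v) = N * P.dualEval v := by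
  have h := P.two_mul_eval (P.dual *ᵥ v)
  rw [P.mat_dual_mulVec, dotProduct_smul, dotProduct_comm, ← P.two_mul_dualEval, smul_eq_mul] at h
  linarith

lemma eval_add (x y : Fin 4 → ℤ) :
    P.eval (x + y) = P.eval x + x ⬝ᵥ (P.mat *ᵥ y) + P.eval y := by
  have h := P.two_mul_eval (x + y)
  rw [Matrix.mulVec_add, dotProduct_add, add_dotProduct, add_dotProduct, dot_symm P.symm x y,
    ← P.two_mul_eval, ← P.two_mul_eval] at h
  linarith

lemma eval_smul (c : ℤ) (x : Fin 4 → ℤ) : P.eval (c • x) = c ^ 2 * P.eval x := by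
  have h := P.two_mul_eval (c • x)
  rw [Matrix.mulVec_smul, dotProduct_smul, smul_dotProduct, ← P.two_mul_eval, smul_eq_mul,
    smul_eq_mul] at h
  linarith

lemma qval_real (x : Fin 4 → ℤ) :
    qval (P.mat.map ((↑) : ℤ → ℝ)) (rvec x) = 2 * (P.eval x : ℝ) := by
  have h := congrArg ((↑) : ℤ → ℝ) (P.two_mul_eval x)
  push_cast at h
  rw [h]
  simp [qval, rvec, dotProduct, Matrix.mulVec]

/-- The form is positive semidefinite. -/
lemma eval_nonneg (x : Fin 4 → ℤ) : 0 ≤ P.eval x := by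
  have h := P.qval_real x
  have := P.pos.posSemidef.dotProduct_mulVec_nonneg (rvec x)
  simp only [star_trivial] at this
  rw [← qval, h] at this
  exact_mod_cast (by linarith : (0 : ℝ) ≤ (P.eval x : ℝ))

lemma eval_eq_zero_iff (x : Fin 4 → ℤ) : P.eval x = 0 ↔ x = 0 := by
  refine ⟨fun h => ?_, fun h => by simp [h, eval]⟩
  by_contra hx
  have hne : rvec x ≠ 0 := fun h0 => hx (funext fun i => by
    simpa [rvec] using congr_fun h0 i)
  have := P.pos.dotProduct_mulVec_pos hne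
  simp only [star_trivial] at this
  rw [← qval, P.qval_real, h] at this
  simp at this

section Mod

variable (c : ℕ) [NeZero c]

/-- The standard lift of a residue vector. -/
def lift (r : Fin 4 → ZMod c) : Fin 4 → ℤ := fun i => ((r i).val : ℤ)

/-- The reduction of a vector. -/
def reduce (x : Fin 4 → ℤ) : Fin 4 → ZMod c := fun i => (x i : ZMod c)

/-- The form modulo `c`. -/
def evalMod (r : Fin 4 → ZMod c) : ZMod c := (P.eval (lift c r) : ZMod c)

variable {c}

lemma reduce_lift (r : Fin 4 → ZMod c) : reduce c (lift c r) = r :=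
  funext fun i => by simp [reduce, lift]

omit [NeZero c] in
lemma eval_cast_congr {x y : Fin 4 → ℤ} (h : reduce c x = reduce c y) :
    (P.eval x : ZMod c) = (P.eval y : ZMod c) := by
  have : ∀ i, (c : ℤ) ∣ x i - y i := fun i => by
    rw [← ZMod.intCast_zmod_eq_zero_iff_dvd, Int.cast_sub, sub_eq_zero]
    exact congr_fun h i
  choose k hk using this
  have hx : x = y + (c : ℤ) • k := funext fun i => by
    have := hk i; simp; linarith
  rw [hx, P.eval_add, P.eval_smul, Matrix.mulVec_smul, dotProduct_smul, smul_eq_mul]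
  push_cast
  simp

/-- The value modulo `c` depends only on the vector modulo `c`. -/
lemma evalMod_reduce (x : Fin 4 → ℤ) : P.evalMod c (reduce c x) = (P.eval x : ZMod c) :=
  P.eval_cast_congr (reduce_lift _)

variable (c)

/-- The twisted Gauss sum `∑ ψ(a Q(r) - r·y)` modulo `c`. -/
def phi (a : ℤ) (y : Fin 4 → ℤ) : ℂ :=
  ∑ r : Fin 4 → ZMod c, ZMod.stdAddChar ((a : ZMod c) * P.evalMod c r - r ⬝ᵥ reduce c y)

/-- The Gauss sum `∑ ψ(a Q(r))` modulo `c`. -/
def gauss (a : ℤ) : ℂ := ∑ r : Fin 4 → ZMod c, ZMod.stdAddChar ((a : ZMod c) * P.evalMod c r)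

variable {c}

lemma phi_zero (a : ℤ) : P.phi c a 0 = P.gauss c a := by
  simp [phi, gauss, reduce, dotProduct]

lemma norm_phi_le (a : ℤ) (y : Fin 4 → ℤ) : ‖P.phi c a y‖ ≤ (c : ℝ) ^ 4 := by
  refine (norm_sum_le _ _).trans ?_
  simp only [AddChar.norm_apply, Finset.sum_const, Finset.card_univ, Fintype.card_fun,
    ZMod.card, Fintype.card_fin, nsmul_eq_mul, mul_one]
  push_cast
  exact le_rfl

omit [NeZero c] in
lemma reduce_add (x y : Fin 4 → ℤ) : reduce c (x + y) = reduce c x + reduce c y :=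
  funext fun i => by simp [reduce]

omit [NeZero c] in
lemma cast_dot (x y : Fin 4 → ℤ) :
    ((x ⬝ᵥ y : ℤ) : ZMod c) = reduce c x ⬝ᵥ reduce c y := by
  simp [dotProduct, reduce]

lemma dot_reduce (r : Fin 4 → ZMod c) (y : Fin 4 → ℤ) :
    r ⬝ᵥ reduce c y = ((lift c r ⬝ᵥ y : ℤ) : ZMod c) := by
  rw [cast_dot, reduce_lift]

/-- Translation of the summation variable. -/
lemma phi_translate (a : ℤ) (y w : Fin 4 → ℤ) :
    P.phi c a y = ∑ r : Fin 4 → ZMod c, ZMod.stdAddChar
      (((a * (P.eval (lift c r) + lift c r ⬝ᵥ (P.mat *ᵥ w) + P.eval w)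
        - (lift c r + w) ⬝ᵥ y : ℤ)) : ZMod c) := by
  rw [phi]
  refine (Fintype.sum_equiv (Equiv.addRight (reduce c w)) _ _ fun r => ?_).symm
  congr 1
  have : r + reduce c w = reduce c (lift c r + w) := by rw [reduce_add, reduce_lift]
  simp only [Equiv.coe_addRight]
  rw [this, P.evalMod_reduce, ← cast_dot, P.eval_add]
  push_cast
  rfl

/-- For `N ∣ c`, the twisted Gauss sum is supported on the image of the matrix. -/
lemma exists_mat_of_phi_ne_zero (hN : N ∣ c) (hN0 : N ≠ 0) {a : ℤ} {y : Fin 4 → ℤ}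
    (hy : P.phi c a y ≠ 0) : ∃ s, P.mat *ᵥ s = y := by
  obtain ⟨m, hm⟩ := hN
  -- translating by `(c / N) · dual v` multiplies the sum by a root of unity, hence by `1`
  have key : ∀ v : Fin 4 → ℤ, (N : ℤ) ∣ (P.dual *ᵥ v) ⬝ᵥ y := by
    intro v
    have h2 : P.phi c a y =
        ZMod.stdAddChar ((-((m : ℤ) * ((P.dual *ᵥ v) ⬝ᵥ y)) : ℤ) : ZMod c) * P.phi c a y := by
      conv_lhs => rw [P.phi_translate a y ((m : ℤ) • (P.dual *ᵥ v))]
      rw [phi, Finset.mul_sum]
      refine Finset.sum_congr rfl fun r _ => ?_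
      rw [← AddChar.map_add_eq_mul]
      congr 1
      simp only [evalMod, dot_reduce]
      have e : (((N : ℤ) * m : ℤ) : ZMod c) = 0 := by
        rw [← Nat.cast_mul, ← hm]; simp
      rw [P.eval_smul, P.eval_dual, Matrix.mulVec_smul, P.mat_dual_mulVec, dotProduct_smul,
        dotProduct_smul, add_dotProduct, smul_dotProduct]
      push_cast [smul_eq_mul] at e ⊢
      linear_combination ((a : ZMod c) * ((lift c r ⬝ᵥ v : ℤ) : ZMod c)
        + (a : ZMod c) * (m : ZMod c) * (P.dualEval v : ZMod c)) * e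
    have h3 : ZMod.stdAddChar ((-((m : ℤ) * ((P.dual *ᵥ v) ⬝ᵥ y)) : ℤ) : ZMod c) = 1 :=
      mul_right_cancel₀ hy (by rw [← h2, one_mul])
    rw [← (ZMod.stdAddChar (N := c)).map_zero_eq_one] at h3
    have h4 := ZMod.injective_stdAddChar h3
    rw [ZMod.intCast_zmod_eq_zero_iff_dvd, dvd_neg, hm] at h4
    have hm0 : (m : ℤ) ≠ 0 := fun h => NeZero.ne c (by rw [hm, Nat.cast_eq_zero.mp h, mul_zero])
    push_cast at h4
    rw [mul_comm (N : ℤ)] at h4
    exact Int.dvd_of_mul_dvd_mul_left hm0 h4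
  have hdvd : ∀ j, (N : ℤ) ∣ (P.dual *ᵥ y) j := by
    intro j
    have := key (Pi.single j 1)
    rwa [dotProduct_comm, dot_symm P.dual_symm, single_dotProduct, one_mul] at this
  choose s hs using hdvd
  refine ⟨s, ?_⟩
  have h5 : P.dual *ᵥ y = (N : ℤ) • s := funext hs
  have h6 := P.mat_dual_mulVec y
  rw [h5, Matrix.mulVec_smul] at h6
  exact smul_right_injective _ (by exact_mod_cast hN0) h6

/-- The twisted Gauss sum on the image of the matrix. -/
lemma phi_mat {a d : ℤ} (had : ((a * d : ℤ) : ZMod c) = 1) (s : Fin 4 → ℤ) :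
    P.phi c a (P.mat *ᵥ s) = ZMod.stdAddChar ((-(d * P.eval s) : ℤ) : ZMod c) * P.gauss c a := by
  rw [P.phi_translate a _ (d • s), gauss, Finset.mul_sum]
  refine Finset.sum_congr rfl fun r _ => ?_
  rw [← AddChar.map_add_eq_mul]
  congr 1
  simp only [evalMod]
  rw [P.eval_smul, Matrix.mulVec_smul, dotProduct_smul, add_dotProduct, smul_dotProduct,
    ← P.two_mul_eval]
  push_cast [smul_eq_mul] at had ⊢
  linear_combination (((lift c r ⬝ᵥ (P.mat *ᵥ s) : ℤ) : ZMod c)
    + (d : ZMod c) * (P.eval s : ZMod c)) * had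

end Mod

end QForm

end Fermat.Agent.LT.Theta
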