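import Fermat.Agent.LT.Theta.Lattice
import Fermat.Agent.LT.Theta.Count

/-!
# Homomorphism lattices between locally principal right ideals as forms

An order with its norm form and right ideals with a generator up to index prime to `p` at every
prime: the lattices `{δ | δ I ⊆ J}` scaled by `ν(J)/ν(I)` are forms of level `N` locally similar to
the norm form of the order.
-/

noncomputable section

namespace Fermat.Agent.LT.Theta

open Matrix

/-- An order in a definite quaternion algebra, through what the theta series use. -/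
structure NormOrder (N : ℕ) (H : Type*) [Ring H] [Algebra ℚ H] where
  nrm : QuadraticForm ℚ H
  pos : ∀ x, x ≠ 0 → 0 < nrm x
  nrm_mul : ∀ x y, nrm (x * y) = nrm x * nrm y
  nrm_one : nrm 1 = 1
  adj : H → H
  mul_adj : ∀ x, x * adj x = nrm x • (1 : H)
  adj_mul : ∀ x, adj x * x = nrm x • (1 : H)
  basis : Fin 4 → H
  indep : LinearIndependent ℚ basis
  form : QForm N
  value : ∀ x, nrm (latVec basis x) = (form.eval x : ℚ)
  mul_mem : ∀ x y, ∃ z, latVec basis x * latVec basis y = latVec basis z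
  one_mem : ∃ z, latVec basis z = 1
  adj_mem : ∀ x, ∃ z, adj (latVec basis x) = latVec basis z

namespace NormOrder

variable {N : ℕ} {H : Type*} [Ring H] [Algebra ℚ H] (𝒪 : NormOrder N H)

/-- The elements of the order. -/
def carrier : Set H := Set.range (latVec 𝒪.basis)

/-- The norm as a monoid homomorphism. -/
def nrmHom : H →* ℚ where
  toFun := 𝒪.nrm
  map_one' := 𝒪.nrm_one
  map_mul' := 𝒪.nrm_mul

/-- A right ideal of the order with a scale and local generators. -/
structure Idl where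
  lat : AddSubgroup H
  ν : ℚ
  ν_pos : 0 < ν
  mul_mem : ∀ x ∈ lat, ∀ o ∈ 𝒪.carrier, x * o ∈ lat
  gen : ∀ p : ℕ, p.Prime → ∃ (α : H) (k u : ℤ), α ∈ lat ∧ ¬ (p : ℤ) ∣ k ∧ ¬ (p : ℤ) ∣ u ∧
    𝒪.nrm α = ν * u ∧ ∀ x ∈ lat, ∃ o ∈ 𝒪.carrier, (k : ℚ) • x = α * o

lemma zsmul_eq (k : ℤ) (x : H) : (k : ℚ) • x = k • x := Int.cast_smul_eq_zsmul ℚ k x

variable {𝒪}

/-- A lattice ideal is stable under integer multiples. -/
lemma Idl.smul_mem (I : 𝒪.Idl) {x : H} (hx : x ∈ I.lat) (k : ℤ) : (k : ℚ) • x ∈ I.lat := by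
  rw [zsmul_eq]; exact I.lat.zsmul_mem hx k

/-- The lattice `{δ | δ I ⊆ J}`. -/
def homLat (I J : 𝒪.Idl) : AddSubgroup H where
  carrier := {δ | ∀ x ∈ I.lat, δ * x ∈ J.lat}
  add_mem' := fun ha hb x hx => by rw [add_mul]; exact J.lat.add_mem (ha x hx) (hb x hx)
  zero_mem' := fun x _ => by rw [zero_mul]; exact J.lat.zero_mem
  neg_mem' := fun ha x hx => by rw [neg_mul]; exact J.lat.neg_mem (ha x hx)

lemma smul_mem_homLat {I J : 𝒪.Idl} {δ : H} (h : δ ∈ homLat I J) (k : ℤ) :
    (k : ℚ) • δ ∈ homLat I J := by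
  rw [zsmul_eq]; exact (homLat I J).zsmul_mem h k

/-- The two maps comparing `homLat I J` with the order at `p`. -/
theorem exists_compare (I J : 𝒪.Idl) {p : ℕ} (hp : p.Prime) :
    ∃ (A B : H →ₗ[ℚ] H) (u c : ℤ), ¬ (p : ℤ) ∣ u ∧ ¬ (p : ℤ) ∣ c ∧
      (∀ o ∈ 𝒪.carrier, A o ∈ homLat I J) ∧ (∀ δ ∈ homLat I J, B δ ∈ 𝒪.carrier) ∧
      (∀ x, A (B x) = (c : ℚ) • x) ∧
      ∀ o, 𝒪.nrm (A o) = J.ν / I.ν * u * 𝒪.nrm o := by
  have hP := Nat.prime_iff_prime_int.mp hp
  obtain ⟨α, k', uJ, hα, hk', huJ, hnα, hgenJ⟩ := J.gen p hp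
  obtain ⟨β, k, uI, hβ, hk, huI, hnβ, hgenI⟩ := I.gen p hp
  have huJ0 : (uJ : ℚ) ≠ 0 := Int.cast_ne_zero.mpr fun h => huJ (h ▸ dvd_zero _)
  have huI0 : (uI : ℚ) ≠ 0 := Int.cast_ne_zero.mpr fun h => huI (h ▸ dvd_zero _)
  have hI0 := I.ν_pos.ne'
  have hJ0 := J.ν_pos.ne'
  -- the inverses of the generators `α` of `J` and `β` of `I`
  set α' : H := (J.ν * uJ)⁻¹ • 𝒪.adj α with hα'
  set β' : H := (I.ν * uI)⁻¹ • 𝒪.adj β with hβ'
  have hα1 : α' * α = 1 := by
    rw [hα', smul_mul_assoc, 𝒪.adj_mul, hnα, inv_smul_smul₀ (mul_ne_zero hJ0 huJ0)]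
  have hα2 : α * α' = 1 := by
    rw [hα', mul_smul_comm, 𝒪.mul_adj, hnα, inv_smul_smul₀ (mul_ne_zero hJ0 huJ0)]
  have hβ1 : β' * β = 1 := by
    rw [hβ', smul_mul_assoc, 𝒪.adj_mul, hnβ, inv_smul_smul₀ (mul_ne_zero hI0 huI0)]
  have hβ2 : β * β' = 1 := by
    rw [hβ', mul_smul_comm, 𝒪.mul_adj, hnβ, inv_smul_smul₀ (mul_ne_zero hI0 huI0)]
  have hnβ' : 𝒪.nrm β' = (I.ν * uI)⁻¹ := by
    have := congrArg 𝒪.nrm hβ1
    rw [𝒪.nrm_mul, 𝒪.nrm_one, hnβ] at this
    exact eq_inv_of_mul_eq_one_left this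
  -- `A o = k uI α o β⁻¹` and `B δ = k' α⁻¹ δ β`: the factors prime to `p` clear the denominators
  let A : H →ₗ[ℚ] H := ((k * uI : ℤ) : ℚ) •
    ((LinearMap.mulLeft ℚ α).comp (LinearMap.mulRight ℚ β'))
  let B : H →ₗ[ℚ] H := (k' : ℚ) • ((LinearMap.mulLeft ℚ α').comp (LinearMap.mulRight ℚ β))
  refine ⟨A, B, k ^ 2 * uI * uJ, k * uI * k', ?_, ?_, ?_, ?_, ?_, ?_⟩
  · intro h
    rcases hP.dvd_or_dvd h with h | h
    · rcases hP.dvd_or_dvd h with h | h
      · exact hk (hP.dvd_of_dvd_pow h)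
      · exact huI h
    · exact huJ h
  · intro h
    rcases hP.dvd_or_dvd h with h | h
    · exact (hP.dvd_or_dvd h).elim hk huI
    · exact hk' h
  · intro o ho x hx
    -- `k x = β o'` with `o'` in the order, so `A o x = uI α (o o')` lies in `J`
    obtain ⟨o', ho', hxo⟩ := hgenI x hx
    obtain ⟨z, rfl⟩ := ho
    obtain ⟨z', rfl⟩ := ho'
    obtain ⟨z'', hz⟩ := 𝒪.mul_mem z z'
    have : A (latVec 𝒪.basis z) * x = (uI : ℚ) • (α * latVec 𝒪.basis z'') := by
      calc A (latVec 𝒪.basis z) * x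
          = (uI : ℚ) • (α * (latVec 𝒪.basis z * (β' * ((k : ℚ) • x)))) := by
            simp only [A, LinearMap.smul_apply, LinearMap.comp_apply, LinearMap.mulLeft_apply,
              LinearMap.mulRight_apply, smul_mul_assoc, mul_smul_comm, smul_smul, mul_assoc]
            congr 1
            push_cast
            ring
        _ = _ := by rw [hxo, ← mul_assoc β', hβ1, one_mul, hz]
    rw [this]
    exact J.smul_mem (J.mul_mem α hα _ ⟨z'', rfl⟩) uI
  · intro δ hδ
    -- `δ β` lies in `J`, so `k' δ β = α o` with `o` in the order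
    obtain ⟨o, ho, hxo⟩ := hgenJ _ (hδ β hβ)
    have : B δ = o := by
      calc B δ = α' * ((k' : ℚ) • (δ * β)) := by
            simp only [B, LinearMap.smul_apply, LinearMap.comp_apply, LinearMap.mulLeft_apply,
              LinearMap.mulRight_apply, mul_smul_comm]
        _ = o := by rw [hxo, ← mul_assoc, hα1, one_mul]
    rw [this]; exact ho
  -- the composite is the scalar `k uI k'`
  · intro x
    simp only [A, B, LinearMap.smul_apply, LinearMap.comp_apply, LinearMap.mulLeft_apply,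
      LinearMap.mulRight_apply, map_smul, smul_smul]
    rw [mul_assoc α', mul_assoc x, hβ2, mul_one, ← mul_assoc, hα2, one_mul]
    push_cast
    ring_nf
  -- the norm is multiplicative
  · intro o
    simp only [A, LinearMap.smul_apply, LinearMap.comp_apply, LinearMap.mulLeft_apply,
      LinearMap.mulRight_apply, QuadraticMap.map_smul, 𝒪.nrm_mul, hnα, hnβ', smul_eq_mul]
    push_cast
    field_simp

/-- A subgroup of `ℤᵐ` containing a nonzero multiple of `ℤᵐ` has rank `m`. -/
private lemma finrank_eq_of_smul_mem {m : ℕ} {M : Submodule ℤ (Fin m → ℤ)} {c : ℤ} (hc : c ≠ 0)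
    (hcM : ∀ x : Fin m → ℤ, c • x ∈ M) : Module.finrank ℤ M = m := by
  let f : (Fin m → ℤ) →ₗ[ℤ] M :=
    LinearMap.codRestrict M (c • LinearMap.id) fun x => by simpa using hcM x
  have hf : Function.Injective f := fun x y h => by
    have h' := congrArg Subtype.val h
    simp only [f, LinearMap.codRestrict_apply, LinearMap.smul_apply, LinearMap.id_apply] at h'
    exact smul_right_injective _ hc h'
  have hle := Submodule.finrank_le M
  have hge := LinearMap.finrank_le_finrank_of_injective hf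
  simp only [Module.finrank_fin_fun] at hle hge
  omega

lemma exists_zbasis (I J : 𝒪.Idl) : ∃ b : Fin 4 → H, LinearIndependent ℚ b ∧
    ∀ δ, δ ∈ homLat I J ↔ ∃ x, latVec b x = δ := by
  classical
  obtain ⟨A, B, u, c, -, hc, hA, hB, hAB, hnA⟩ := exists_compare I J Nat.prime_two
  have hc0 : (c : ℚ) ≠ 0 := Int.cast_ne_zero.mpr fun h => hc (h ▸ dvd_zero _)
  -- `B` identifies the lattice with a sublattice of the order containing `c 𝒪`
  let M : Submodule ℤ (Fin 4 → ℤ) :=
    { carrier := {x | ((c : ℚ))⁻¹ • A (latVec 𝒪.basis x) ∈ homLat I J}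
      add_mem' := fun {x y} hx hy => by
        simp only [Set.mem_ofPred_eq, latVec_add, map_add, smul_add]
        exact (homLat I J).add_mem hx hy
      zero_mem' := by simp [latVec, (homLat I J).zero_mem]
      smul_mem' := fun k x hx => by
        simp only [Set.mem_ofPred_eq, latVec_smul, map_smul]
        rw [smul_comm]
        exact smul_mem_homLat hx k }
  obtain ⟨n, bM⟩ := Submodule.basisOfPid (Pi.basisFun ℤ (Fin 4)) M
  -- `M` has rank `4`, as it contains `c ℤ⁴`
  have hcM : ∀ x : Fin 4 → ℤ, c • x ∈ M := fun x => by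
    show ((c : ℚ))⁻¹ • A (latVec 𝒪.basis (c • x)) ∈ homLat I J
    rw [latVec_smul, map_smul, inv_smul_smul₀ hc0]
    exact hA _ ⟨x, rfl⟩
  have hn : n = 4 := by
    rw [← Fintype.card_fin n, ← Module.finrank_eq_card_basis bM]
    exact finrank_eq_of_smul_mem (fun h => hc0 (by rw [h, Int.cast_zero])) hcM
  subst hn
  -- the images of a basis of `M`
  have hlin : ∀ x : Fin 4 → ℤ, latVec (fun i => (c : ℚ)⁻¹ • A (latVec 𝒪.basis
      (bM i : Fin 4 → ℤ))) x = (c : ℚ)⁻¹ •
          A (latVec 𝒪.basis (∑ i, x i • (bM i : Fin 4 → ℤ))) := by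
    intro x
    have hsum : latVec 𝒪.basis (∑ i, x i • (bM i : Fin 4 → ℤ))
        = ∑ i, (x i : ℚ) • latVec 𝒪.basis (bM i : Fin 4 → ℤ) := by
      simp only [← latVec_smul]
      exact map_sum (AddMonoidHom.mk' (latVec 𝒪.basis) (latVec_add _)) _ _
    rw [hsum, map_sum, Finset.smul_sum]
    refine Finset.sum_congr rfl fun i _ => ?_
    rw [map_smul, smul_comm]
  refine ⟨fun i => (c : ℚ)⁻¹ • A (latVec 𝒪.basis (bM i : Fin 4 → ℤ)), ?_, fun δ => ?_⟩
  · -- independence: `A` is injective, as `A B = c` and the norm is definite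
    have hz : LinearIndependent ℤ
        fun i => (c : ℚ)⁻¹ • A (latVec 𝒪.basis (bM i : Fin 4 → ℤ)) := by
      rw [Fintype.linearIndependent_iff]
      intro g hg
      have h0 : latVec (fun i => (c : ℚ)⁻¹ • A (latVec 𝒪.basis (bM i : Fin 4 → ℤ))) g = 0 := by
        rw [← hg]
        exact Finset.sum_congr rfl fun i _ => Int.cast_smul_eq_zsmul ℚ _ _
      rw [hlin] at h0
      -- a relation gives a vector `v` with `A v = 0`; its norm vanishes, as `u ≠ 0`
      have hAz : A (latVec 𝒪.basis (∑ i, g i • (bM i : Fin 4 → ℤ))) = 0 :=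
        (smul_eq_zero.mp h0).resolve_left (inv_ne_zero hc0)
      have hnz : 𝒪.nrm (latVec 𝒪.basis (∑ i, g i • (bM i : Fin 4 → ℤ))) = 0 := by
        have := hnA (latVec 𝒪.basis (∑ i, g i • (bM i : Fin 4 → ℤ)))
        rw [hAz, map_zero] at this
        have hu : (u : ℚ) ≠ 0 := by
          intro hu
          have h1 := hnA 1
          rw [hu, mul_zero, zero_mul] at h1
          have hA1 : A 1 ≠ 0 := fun hA1 => by
            have := hAB 1
            have hB1 := hnA (B 1)
            rw [this, hu, mul_zero, zero_mul, QuadraticMap.map_smul, 𝒪.nrm_one, smul_eq_mul,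
              mul_one] at hB1
            exact hc0 (mul_self_eq_zero.mp hB1)
          exact (𝒪.pos _ hA1).ne' h1
        simpa [hu, I.ν_pos.ne', J.ν_pos.ne'] using this.symm
      -- so `v = 0`, and the relation is one between the basis vectors of `M`
      have hvz : latVec 𝒪.basis (∑ i, g i • (bM i : Fin 4 → ℤ)) = 0 := by
        by_contra h
        exact (𝒪.pos _ h).ne' hnz
      have hgz : ∑ i, g i • (bM i : Fin 4 → ℤ) = 0 := funext fun j => by
        exact_mod_cast Fintype.linearIndependent_iff.mp 𝒪.indep _ hvz j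
      exact Fintype.linearIndependent_iff.mp bM.linearIndependent g
        (Subtype.ext (by simpa using hgz))
    exact LinearIndependent.iff_fractionRing (R := ℤ) (K := ℚ) |>.mp hz
  · constructor
    -- `B δ` has coordinates in `M`, and `c⁻¹ A (B δ) = δ`
    · intro hδ
      obtain ⟨z, hz⟩ := hB δ hδ
      have hzM : z ∈ M := by
        show (c : ℚ)⁻¹ • A (latVec 𝒪.basis z) ∈ homLat I J
        rw [hz, hAB, inv_smul_smul₀ hc0]
        exact hδ
      refine ⟨fun i => bM.repr ⟨z, hzM⟩ i, ?_⟩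
      have h1 : (∑ i, bM.repr ⟨z, hzM⟩ i • (bM i : Fin 4 → ℤ)) = z := by
        have h := congrArg M.subtype (bM.sum_repr ⟨z, hzM⟩)
        simpa only [map_sum, map_smul, Submodule.subtype_apply] using h
      rw [hlin, h1, hz, hAB, inv_smul_smul₀ hc0]
    -- conversely each basis vector is in the lattice, by the definition of `M`
    · rintro ⟨x, rfl⟩
      refine (homLat I J).sum_mem fun i _ => ?_
      exact smul_mem_homLat (bM i).2 _

/-- **The form of `homLat I J`.** -/
theorem exists_homForm [NeZero N] (I J : 𝒪.Idl) :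
    ∃ P : QForm N, P.disc = 𝒪.form.disc ∧
      (∀ (p : ℕ) [NeZero p], p.Prime → QForm.SameMod 𝒪.form P p) ∧
      (∀ δ ∈ homLat I J, ∃ z : ℤ, 𝒪.nrm δ = (z : ℚ) * (J.ν / I.ν)) ∧
      ∀ m : ℕ, (homSet 𝒪.nrmHom (I.lat : Set H) (J.lat : Set H) ((m : ℚ) * (J.ν / I.ν))).Finite ∧
        QForm.rep P m
        = Nat.card (homSet 𝒪.nrmHom (I.lat : Set H) (J.lat : Set H) ((m : ℚ) * (J.ν / I.ν))) := by
  obtain ⟨b, hb, hmem⟩ := exists_zbasis I J
  -- at `p` the matrices of `A` and `B` give the local similarity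
  obtain ⟨P, hd, hs, hval, hrep⟩ := exists_qform_of_lattice 𝒪.form 𝒪.nrm 𝒪.pos b hb
    (ν := J.ν / I.ν) (div_pos J.ν_pos I.ν_pos) fun p hp => by
      obtain ⟨A, B, u, c, hu, hc, hA, hB, hAB, hnA⟩ := exists_compare I J hp
      have hE : ∀ j, ∃ x, latVec b x = A (𝒪.basis j) := fun j =>
        (hmem _).mp (hA _ ⟨Pi.single j 1, latVec_single _ _⟩)
      have hF : ∀ j, ∃ x, latVec 𝒪.basis x = B (b j) := fun j =>
        hB _ ((hmem _).mpr ⟨Pi.single j 1, latVec_single _ _⟩)
      choose eA heA using hE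
      choose fB hfB using hF
      have hcomb : ∀ (b' : Fin 4 → H) (f : Fin 4 → Fin 4 → ℤ) (x : Fin 4 → ℤ),
          latVec b' ((Matrix.of fun i j => f j i) *ᵥ x) = ∑ j, (x j : ℚ) • latVec b' (f j) := by
        intro b' f x
        simp only [latVec, Matrix.mulVec, dotProduct, Matrix.of_apply, Int.cast_sum,
          Finset.sum_smul, Finset.smul_sum, Int.cast_mul, smul_smul]
        rw [Finset.sum_comm]
        simp only [mul_comm]
      have hEx : ∀ x, latVec b ((Matrix.of fun i j => eA j i) *ᵥ x)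
          = A (latVec 𝒪.basis x) := fun x => by
        rw [hcomb]
        simp only [heA]
        simp only [latVec, map_sum, map_smul]
      have hFx : ∀ x, latVec 𝒪.basis ((Matrix.of fun i j => fB j i) *ᵥ x)
          = B (latVec b x) := fun x => by
        rw [hcomb]
        simp only [hfB]
        simp only [latVec, map_sum, map_smul]
      refine ⟨Matrix.of fun i j => eA j i, Matrix.of fun i j => fB j i, u, c, hu, hc, ?_,
        fun x => ?_⟩
      · refine Matrix.ext_iff_mulVec.mpr fun x => ?_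
        have h1 : latVec b ((Matrix.of fun i j => eA j i) *ᵥ
            ((Matrix.of fun i j => fB j i) *ᵥ x)) = latVec b (c • x) := by
          rw [hEx, hFx, hAB, latVec_smul]
        rw [← Matrix.mulVec_mulVec, Matrix.smul_mulVec, Matrix.one_mulVec]
        funext i
        have h2 : ∑ j, ((((Matrix.of fun i j => eA j i) *ᵥ
            ((Matrix.of fun i j => fB j i) *ᵥ x)) j : ℚ) - ((c • x) j : ℤ)) • b j = 0 := by
          simp only [sub_smul, Finset.sum_sub_distrib]
          exact sub_eq_zero.2 h1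
        exact_mod_cast sub_eq_zero.1 (Fintype.linearIndependent_iff.1 hb _ h2 i)
      · rw [hEx, hnA, 𝒪.value]
  refine ⟨P, hd, hs, fun δ hδ => ?_, fun m => ⟨?_, ?_⟩⟩
  · obtain ⟨x, rfl⟩ := (hmem δ).mp hδ
    exact ⟨P.eval x, by rw [hval]; ring⟩
  · refine (Set.Finite.image (latVec b) (Set.finite_coe_iff.mp (QForm.finite_rep P m))).subset ?_
    intro δ hδ
    obtain ⟨x, rfl⟩ := (hmem δ).mp hδ.1
    refine ⟨x, ?_, rfl⟩
    have h2 : 𝒪.nrm (latVec b x) = (m : ℚ) * (J.ν / I.ν) := hδ.2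
    rw [hval, mul_comm (m : ℚ)] at h2
    show P.eval x = (m : ℤ)
    exact_mod_cast mul_left_cancel₀ (div_pos J.ν_pos I.ν_pos).ne' h2
  rw [hrep m]
  refine Nat.card_congr (Equiv.subtypeEquivRight fun v => ?_)
  rw [← hmem v]
  exact Iff.rfl

end NormOrder

end Fermat.Agent.LT.Theta
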