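import Fermat.Agent.LT.Theta.Modular

/-!
# Theta series of quaternary forms are invariant of weight two under `Γ₀(N)`
-/

noncomputable section

namespace Fermat.Agent.LT.Theta

open Matrix Complex Filter
open UpperHalfPlane hiding I
open scoped Real MatrixGroups ModularForm Manifold Topology

lemma slash_neg_SL (f : ℍ → ℂ) (γ : SL(2, ℤ)) :
    f ∣[(2 : ℤ)] (-γ) = f ∣[(2 : ℤ)] γ := by
  funext τ
  rw [ModularForm.SL_slash_apply, ModularForm.SL_slash_apply, ModularGroup.SL_neg_smul]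
  congr 1
  simp [denom, _root_.zpow_neg, zpow_ofNat, ← neg_add_rev]
  ring

lemma slash_T_zpow (f : ℍ → ℂ) (k : ℤ) (n : ℤ) (τ : ℍ) :
    (f ∣[k] (ModularGroup.T ^ n)) τ = f ((n : ℝ) +ᵥ τ) := by
  rw [ModularForm.SL_slash_apply, modular_T_zpow_smul, ModularGroup.denom_apply]
  simp [ModularGroup.coe_T_zpow]

lemma stdAddChar_eq_pow {c : ℕ} [NeZero c] (q : ZMod c) :
    ZMod.stdAddChar q = (ZMod.stdAddChar (1 : ZMod c)) ^ q.val := by
  rw [← AddChar.map_nsmul_eq_pow, nsmul_one, ZMod.natCast_zmod_val]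

lemma isPrimitiveRoot_stdAddChar (c : ℕ) [NeZero c] :
    IsPrimitiveRoot (ZMod.stdAddChar (1 : ZMod c)) c := by
  have h := ZMod.stdAddChar_coe (N := c) 1
  rw [Int.cast_one] at h
  rw [h]
  simpa using Complex.isPrimitiveRoot_exp c (NeZero.ne c)

/-- An integral relation between `c`-th roots of unity survives Galois conjugation. -/
lemma sum_stdAddChar_conj {ι : Type*} [Fintype ι] {c : ℕ} [NeZero c] (q : ι → ZMod c) (K : ℤ)
    (h : ∑ i, ZMod.stdAddChar (q i) = (K : ℂ)) {a : ZMod c} (ha : IsUnit a) :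
    ∑ i, ZMod.stdAddChar (a * q i) = (K : ℂ) := by
  set ζ : ℂ := ZMod.stdAddChar (1 : ZMod c)
  let p : Polynomial ℚ := (∑ i, Polynomial.X ^ (q i).val) - Polynomial.C (K : ℚ)
  have hp : ∀ z : ℂ, Polynomial.aeval z p = (∑ i, z ^ (q i).val) - (K : ℂ) := fun z => by
    simp [p]
  have h0 : Polynomial.aeval ζ p = 0 := by
    rw [hp, ← h, sub_eq_zero]
    exact Finset.sum_congr rfl fun i _ => (stdAddChar_eq_pow (q i)).symm
  have hζ := isPrimitiveRoot_stdAddChar c
  have hpos : 0 < c := Nat.pos_of_ne_zero (NeZero.ne c)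
  have hcop : a.val.Coprime c := by
    obtain ⟨u, rfl⟩ := ha
    exact ZMod.val_coe_unit_coprime u
  have hζa : IsPrimitiveRoot (ζ ^ a.val) c := hζ.pow_of_coprime _ hcop
  -- `ζ` and `ζ ^ a` have the same minimal polynomial
  have hdvd : minpoly ℚ ζ ∣ p := minpoly.dvd ℚ ζ h0
  rw [← Polynomial.cyclotomic_eq_minpoly_rat hζ hpos,
    Polynomial.cyclotomic_eq_minpoly_rat hζa hpos] at hdvd
  obtain ⟨r, hr⟩ := hdvd
  have h1 : Polynomial.aeval (ζ ^ a.val) p = 0 := by
    rw [hr, map_mul, minpoly.aeval, zero_mul]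
  rw [hp, sub_eq_zero] at h1
  rw [← h1]
  refine Finset.sum_congr rfl fun i _ => ?_
  have : a * q i = (a.val * (q i).val : ℕ) • (1 : ZMod c) := by
    simp
  rw [this, AddChar.map_nsmul_eq_pow, pow_mul]

namespace QForm

variable {N : ℕ} [NeZero N] (P : QForm N)

lemma theta_slash_S : theta P ∣[(2 : ℤ)] ModularGroup.S
    = seriesFun (fun _ => -(P.disc : ℂ)⁻¹) (dualExp P) := by
  rw [theta_slash P ModularGroup.S 1 (by simp [ModularGroup.S])]
  congr 1
  funext y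
  have h1 : ∀ a, P.phi 1 a y = 1 := fun a => by
    rw [phi, Fintype.sum_unique]
    have : ∀ z : ZMod 1, z = 0 := fun z => Subsingleton.elim _ _
    rw [this (_ - _), AddChar.map_zero_eq_one]
  simp [slashCoef, h1, ModularGroup.S]

/-- Invariance under `(1 0; c 1)` for `N ∣ c`. -/
lemma theta_slash_lower (n : ℤ) (hn : (N : ℤ) ∣ n) :
    theta P ∣[(2 : ℤ)] (ModularGroup.S * ModularGroup.T ^ (-n) * ModularGroup.S⁻¹) = theta P := by
  have hT : (theta P ∣[(2 : ℤ)] ModularGroup.S) ∣[(2 : ℤ)] (ModularGroup.T ^ (-n))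
      = theta P ∣[(2 : ℤ)] ModularGroup.S := by
    funext τ
    rw [slash_T_zpow, theta_slash_S]
    refine tsum_congr fun y => ?_
    congr 1
    obtain ⟨k, rfl⟩ := hn
    rw [UpperHalfPlane.coe_vadd, mul_add, Complex.exp_add]
    have : cexp (2 * π * I * (dualExp P y : ℂ) * (((-((N : ℤ) * k) : ℤ) : ℝ) : ℂ)) = 1 := by
      rw [show 2 * π * I * (dualExp P y : ℂ) * (((-((N : ℤ) * k) : ℤ) : ℝ) : ℂ)
        = ((-(P.dualEval y * k) : ℤ) : ℂ) * (2 * π * I) by
          rw [dualExp]; push_cast; field_simp [NeZero.ne N]]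
      exact Complex.exp_int_mul_two_pi_mul_I _
    rw [this, one_mul]
  rw [SlashAction.slash_mul, SlashAction.slash_mul, hT, ← SlashAction.slash_mul, mul_inv_cancel,
    SlashAction.slash_one]

omit [NeZero N] in
lemma lower_entries (n : ℤ) :
    ((ModularGroup.S * ModularGroup.T ^ (-n) * ModularGroup.S⁻¹ : SL(2, ℤ)) : Matrix (Fin 2)
      (Fin 2) ℤ) = !![1, 0; n, 1] := by
  simp only [Matrix.SpecialLinearGroup.coe_mul, Matrix.SpecialLinearGroup.coe_inv,
    ModularGroup.coe_T_zpow, ModularGroup.coe_S]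
  simp [Matrix.adjugate_fin_two]

/-- The Gauss sum for `N ∣ c` and numerator one. -/
lemma gauss_one_of_dvd (c : ℕ) [NeZero c] (hN : N ∣ c) :
    P.gauss c 1 = ((-((c : ℤ) ^ 2 * P.disc) : ℤ) : ℂ) := by
  set γ := ModularGroup.S * ModularGroup.T ^ (-(c : ℤ)) * ModularGroup.S⁻¹ with hγ
  have he := lower_entries (c : ℤ)
  rw [← hγ] at he
  have h10 : γ 1 0 = (c : ℤ) := by rw [he]; rfl
  have h00 : γ 0 0 = 1 := by rw [he]; rfl
  have h1 := theta_slash_lower P (c : ℤ) (by exact_mod_cast hN)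
  rw [← hγ, theta_slash_of_dvd P γ c h10 hN, h00] at h1
  have h2 := congr_fun h1 UpperHalfPlane.I
  simp only [Pi.smul_apply, smul_eq_mul] at h2
  have h3 : -((c : ℂ) ^ 2 * P.disc)⁻¹ * P.gauss c 1 = 1 :=
    mul_right_cancel₀ (theta_ne_zero P) (by rw [h2, one_mul])
  have hc : (c : ℂ) ≠ 0 := Nat.cast_ne_zero.mpr (NeZero.ne c)
  have hD : (P.disc : ℂ) ≠ 0 := Nat.cast_ne_zero.mpr P.disc_pos.ne'
  push_cast
  field_simp at h3
  linear_combination -h3

/-- The Gauss sum for `N ∣ c` is the same for every unit numerator. -/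
lemma gauss_of_dvd (c : ℕ) [NeZero c] (hN : N ∣ c) (a : ℤ) (ha : IsUnit (a : ZMod c)) :
    P.gauss c a = ((-((c : ℤ) ^ 2 * P.disc) : ℤ) : ℂ) := by
  have h := gauss_one_of_dvd P c hN
  simp only [gauss, Int.cast_one, one_mul] at h
  exact sum_stdAddChar_conj _ _ h ha

lemma theta_slash_Gamma0_pos (γ : SL(2, ℤ)) (hγ : γ ∈ CongruenceSubgroup.Gamma0 N)
    (hpos : 0 < γ 1 0) : theta P ∣[(2 : ℤ)] γ = theta P := by
  obtain ⟨c, hc⟩ : ∃ c : ℕ, γ 1 0 = (c : ℤ) := ⟨(γ 1 0).toNat, (Int.toNat_of_nonneg hpos.le).symm⟩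
  have : NeZero c := ⟨fun h => by simp [hc, h] at hpos⟩
  have hN : N ∣ c := by
    rw [CongruenceSubgroup.Gamma0_mem, hc, Int.cast_natCast,
      ZMod.natCast_eq_zero_iff] at hγ
    exact hγ
  have hu : IsUnit ((γ 0 0 : ℤ) : ZMod c) := by
    refine IsUnit.of_mul_eq_one ((γ 1 1 : ℤ) : ZMod c) ?_
    have h := γ.2
    rw [Matrix.det_fin_two] at h
    rw [← Int.cast_mul, sub_eq_iff_eq_add.mp h, hc]
    simp
  have hc0 : (c : ℂ) ≠ 0 := Nat.cast_ne_zero.mpr (NeZero.ne c)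
  have hD : (P.disc : ℂ) ≠ 0 := Nat.cast_ne_zero.mpr P.disc_pos.ne'
  rw [theta_slash_of_dvd P γ c hc hN, gauss_of_dvd P c hN _ hu]
  convert one_smul ℂ (theta P) using 2
  push_cast
  field_simp

omit [NeZero N] in
/-- Invariance under the upper triangular matrices, `± Tⁿ`. -/
lemma slash_of_zero (γ : SL(2, ℤ)) (h0 : γ 1 0 = 0) :
    theta P ∣[(2 : ℤ)] γ = theta P := by
  have h := γ.2
  rw [Matrix.det_fin_two, h0, mul_zero, sub_zero] at h
  funext τ
  rw [ModularForm.SL_slash_apply]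
  have hv : γ • τ = ((γ 0 1 * γ 1 1 : ℤ) : ℝ) +ᵥ τ := by
    ext
    rcases Int.eq_one_or_neg_one_of_mul_eq_one h with h1 | h1 <;>
      · have h2 := h
        rw [h1] at h2
        have h3 : γ 1 1 = γ 0 0 := by rw [h1]; linarith
        rw [coe_specialLinearGroup_apply, UpperHalfPlane.coe_vadd]
        simp [h1, h3, h0]
        try ring
  rw [hv, theta_vadd]
  rcases Int.eq_one_or_neg_one_of_mul_eq_one h with h1 | h1 <;>
    · rw [h1] at h
      have h3 : γ 1 1 = γ 0 0 := by rw [h1]; linarith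
      simp [denom, h0, h3, h1]

/-- **The theta series is invariant under `Γ₀(N)`.** -/
theorem theta_slash_Gamma0 (γ : SL(2, ℤ)) (hγ : γ ∈ CongruenceSubgroup.Gamma0 N) :
    theta P ∣[(2 : ℤ)] γ = theta P := by
  rcases lt_trichotomy (γ 1 0) 0 with hneg | h0 | hpos
  · rw [← slash_neg_SL]
    refine theta_slash_Gamma0_pos P (-γ) ?_ (by simpa using hneg)
    rw [CongruenceSubgroup.Gamma0_mem] at hγ ⊢
    simp [hγ]
  · exact slash_of_zero P γ h0
  · exact theta_slash_Gamma0_pos P γ hγ hpos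

omit [NeZero N] in
lemma mdifferentiable_theta : MDiff (theta P) :=
  mdifferentiable_seriesFun (C := 1) (goodExp_eval P) fun _ => by simp

omit [NeZero N] in
lemma tendsto_theta : Tendsto (theta P) atImInfty (𝓝 1) :=
  tendsto_seriesFun (a := fun _ => (1 : ℂ)) (i₀ := 0) (C := 1) (goodExp_eval P) (fun _ => by simp)
    fun x => by rw [Int.cast_eq_zero, P.eval_eq_zero_iff]

lemma tendsto_theta_slash (γ : SL(2, ℤ)) (c : ℕ) [NeZero c] (hc : γ 1 0 = (c : ℤ)) :
    Tendsto (theta P ∣[(2 : ℤ)] γ) atImInfty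
      (𝓝 (-((c : ℂ) ^ 2 * P.disc)⁻¹ * P.gauss c (γ 0 0))) := by
  rw [theta_slash P γ c hc]
  have h := tendsto_seriesFun (a := slashCoef P c (γ 0 0) (γ 1 1)) (i₀ := 0) (goodExp_dual P)
    (norm_slashCoef_le P c _ _) (dualExp_eq_zero_iff P)
  have h0 : dualExp P 0 = 0 := (dualExp_eq_zero_iff P 0).mpr rfl
  simpa [slashCoef, P.phi_zero, h0] using h

/-- The number of representations of `m`. -/
def rep (m : ℕ) : ℕ := Nat.card {x : Fin 4 → ℤ // P.eval x = (m : ℤ)}

omit [NeZero N] in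
lemma finite_rep (m : ℕ) : Finite {x : Fin 4 → ℤ // P.eval x = (m : ℤ)} := by
  have h := ((goodExp_eval P).summable 1 one_pos).tendsto_cofinite_zero
  have h2 := h.eventually (gt_mem_nhds (Real.exp_pos (-(m : ℝ))))
  rw [Filter.eventually_cofinite] at h2
  refine (h2.subset fun x hx => ?_).to_subtype
  have hx' : P.eval x = (m : ℤ) := hx
  simp [hx']

omit [NeZero N] in
lemma hasSum_rep (τ : ℍ) :
    HasSum (fun m : ℕ => (rep P m : ℂ) • (Function.Periodic.qParam 1 (τ : ℂ)) ^ m) (theta P τ) := by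
  set k : (Fin 4 → ℤ) → ℕ := fun x => (P.eval x).toNat with hk
  have hkx : ∀ x, ((k x : ℕ) : ℤ) = P.eval x := fun x => Int.toNat_of_nonneg (P.eval_nonneg x)
  have hkR : (fun x => ((k x : ℕ) : ℝ)) = fun x => (P.eval x : ℝ) :=
    funext fun x => by exact_mod_cast congrArg ((↑) : ℤ → ℝ) (hkx x)
  have e : ∀ m : ℕ, {x // k x = m} ≃ {x : Fin 4 → ℤ // P.eval x = (m : ℤ)} := fun m =>
    Equiv.subtypeEquivRight fun x => by rw [← hkx]; exact Nat.cast_inj.symm
  have hg : GoodExp fun x => ((k x : ℕ) : ℝ) := hkR ▸ goodExp_eval P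
  have h := hasSum_seriesFun_nat hg (fun m => by
    have := finite_rep P m
    exact Finite.of_equiv _ (e m).symm) τ
  rw [hkR] at h
  refine h.congr_fun fun m => ?_
  rw [rep, Nat.card_congr (e m)]

end QForm

end Fermat.Agent.LT.Theta
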