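import Fermat.Agent.LT.Theta.Local

/-!
# Quaternary lattices in a rational quadratic space as forms of level `N`
-/

noncomputable section

namespace Fermat.Agent.LT.Theta

open Matrix

variable {H : Type*} [AddCommGroup H] [Module ℚ H]

/-- The vector with given integral coordinates. -/
def latVec (b : Fin 4 → H) (x : Fin 4 → ℤ) : H := ∑ i, (x i : ℚ) • b i

lemma latVec_add (b : Fin 4 → H) (x y : Fin 4 → ℤ) :
    latVec b (x + y) = latVec b x + latVec b y := by
  simp [latVec, add_smul, Finset.sum_add_distrib]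

lemma latVec_smul (b : Fin 4 → H) (k : ℤ) (x : Fin 4 → ℤ) :
    latVec b (k • x) = (k : ℚ) • latVec b x := by
  simp [latVec, Finset.smul_sum, smul_smul]

lemma latVec_single (b : Fin 4 → H) (i : Fin 4) : latVec b (Pi.single i 1) = b i := by
  rw [latVec, Finset.sum_eq_single i]
  · simp
  · intro j _ hj; simp [Pi.single_eq_of_ne hj]
  · simp

/-- A rational number integral at every prime is an integer. -/
lemma rat_eq_int_of_local {r : ℚ}
    (h : ∀ p : ℕ, p.Prime → ∃ k : ℤ, ¬ (p : ℤ) ∣ k ∧ ∃ m : ℤ, (k : ℚ) * r = m) :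
    ∃ m : ℤ, r = m := by
  refine ⟨r.num, (Rat.coe_int_num_of_den_eq_one ?_).symm⟩
  by_contra h1
  obtain ⟨p, hp, hpd⟩ := Nat.exists_prime_and_dvd h1
  obtain ⟨k, hk, m, hm⟩ := h p hp
  have h2 : (k : ℚ) * (r.num : ℚ) = (m : ℚ) * (r.den : ℚ) := by
    rw [← Rat.mul_den_eq_num r, ← mul_assoc, hm]
  have h3 : k * r.num = m * (r.den : ℤ) := by exact_mod_cast h2
  have h4 : (p : ℤ) ∣ k * r.num := h3 ▸ dvd_mul_of_dvd_right (by exact_mod_cast hpd) m
  rcases (Nat.prime_iff_prime_int.mp hp).dvd_or_dvd h4 with h5 | h5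
  · exact hk h5
  · have h6 : p ∣ r.num.natAbs := Int.natCast_dvd.mp h5
    exact hp.one_lt.ne' (Nat.eq_one_of_dvd_coprimes r.reduced h6 hpd)

/-- Local comparison data of the lattice of `b`, scaled by `ν`, with `O` at `p`. -/
structure LatSim {N : ℕ} (O : QForm N) (q : QuadraticForm ℚ H) (b : Fin 4 → H) (ν : ℚ) (p : ℕ)
    (E F : Matrix (Fin 4) (Fin 4) ℤ) (u k : ℤ) : Prop where
  not_dvd_unit : ¬ (p : ℤ) ∣ u
  not_dvd_index : ¬ (p : ℤ) ∣ k
  inverse : E * F = k • 1
  value : ∀ x, q (latVec b (E *ᵥ x)) = ν * u * (O.eval x : ℚ)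

/-- The Gram matrix of a positive definite space in a basis is positive definite. -/
private theorem posDef_gram {q : QuadraticForm ℚ H} (hq : ∀ v, v ≠ 0 → 0 < q v) {b : Fin 4 → H}
    (hb : LinearIndependent ℚ b) {ν : ℚ} (hν : 0 < ν) {A : Matrix (Fin 4) (Fin 4) ℤ}
    (hs : A.IsSymm) (hpol : ∀ i j, (A i j : ℚ) * ν = QuadraticMap.polar q (b i) (b j)) :
    (A.map ((↑) : ℤ → ℚ)).PosDef := by
  refine Matrix.PosDef.of_dotProduct_mulVec_pos ?_ fun x hx => ?_
  · exact Matrix.IsHermitian.ext fun i j => by simp [hs.apply i j]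
  have hne : ∑ i, x i • b i ≠ 0 := fun h0 =>
    hx (funext fun i => Fintype.linearIndependent_iff.1 hb x h0 i)
  have h1 : QuadraticMap.polarBilin q (∑ i, x i • b i) (∑ i, x i • b i)
      = ν * (x ⬝ᵥ (A.map ((↑) : ℤ → ℚ) *ᵥ x)) := by
    simp only [map_sum, map_smul, LinearMap.sum_apply, LinearMap.smul_apply]
    simp only [smul_eq_mul, QuadraticMap.polarBilin_apply_apply, ← hpol, dotProduct,
      Matrix.mulVec, Fin.sum_univ_four, Matrix.map_apply]
    ring
  rw [QuadraticMap.polarBilin_apply_apply, QuadraticMap.polar_self, two_nsmul] at h1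
  have := hq _ hne
  simp only [star_trivial]
  nlinarith

/-- Representation numbers count the vectors of the lattice of given value. -/
private theorem rep_eq_card {N : ℕ} {q : QuadraticForm ℚ H} {b : Fin 4 → H}
    (hb : LinearIndependent ℚ b) {ν : ℚ} (hν : 0 < ν) {P : QForm N}
    (hPe : ∀ x, q (latVec b x) = ν * (P.eval x : ℚ)) (m : ℕ) :
    QForm.rep P m = Nat.card {v : H // (∃ x, latVec b x = v) ∧ q v = (m : ℚ) * ν} := by
  have hinj : Function.Injective (latVec b) := fun x y hxy => by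
    funext i
    have h0 : ∑ j, ((x j : ℚ) - y j) • b j = 0 := by
      simp only [sub_smul, Finset.sum_sub_distrib]
      exact sub_eq_zero.2 hxy
    exact_mod_cast sub_eq_zero.1 (Fintype.linearIndependent_iff.1 hb _ h0 i)
  refine Nat.card_eq_of_bijective
    (fun x => ⟨latVec b x.1, ⟨x.1, rfl⟩, by rw [hPe, x.2]; push_cast; ring⟩) ⟨?_, ?_⟩
  · exact fun x y hxy => Subtype.ext (hinj (congrArg Subtype.val hxy))
  · rintro ⟨v, ⟨x, rfl⟩, hv⟩
    refine ⟨⟨x, ?_⟩, rfl⟩
    rw [hPe, mul_comm (m : ℚ)] at hv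
    exact_mod_cast mul_left_cancel₀ hν.ne' hv

/-- A symmetric matrix is determined by its quadratic form. -/
private theorem eq_of_quad {M M' : Matrix (Fin 4) (Fin 4) ℤ} (h : M.IsSymm) (h' : M'.IsSymm)
    (he : ∀ x, x ⬝ᵥ (M *ᵥ x) = x ⬝ᵥ (M' *ᵥ x)) : M = M' := by
  ext i j
  have e1 := he (Pi.single i 1 + Pi.single j 1)
  have e2 := he (Pi.single i 1)
  have e3 := he (Pi.single j 1)
  simp only [Matrix.mulVec_add, dotProduct_add, add_dotProduct, single_dotProduct,
    Matrix.mulVec_single_one, Matrix.col_apply, one_mul] at e1 e2 e3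
  have := h.apply i j
  have := h'.apply i j
  linarith

/-- An integral matrix positive definite over `ℚ` is so over `ℝ`. -/
private theorem posDef_of_rat (A : Matrix (Fin 4) (Fin 4) ℤ) (h : (A.map ((↑) : ℤ → ℚ)).PosDef) :
    (A.map ((↑) : ℤ → ℝ)).PosDef := by
  have hs : (A.map ((↑) : ℤ → ℝ)).IsHermitian := Matrix.IsHermitian.ext fun i j => by
    have h1 := h.1.apply i j
    simp only [star_trivial, Matrix.map_apply] at h1 ⊢
    exact_mod_cast congrArg (fun r : ℚ => (r : ℝ)) h1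
  have hdense : DenseRange fun (x : Fin 4 → ℚ) (i : Fin 4) => (x i : ℝ) :=
    DenseRange.piMap fun _ => Rat.denseRange_cast
  have hpsd : (A.map ((↑) : ℤ → ℝ)).PosSemidef := by
    refine Matrix.PosSemidef.of_dotProduct_mulVec_nonneg hs fun v => ?_
    simp only [star_trivial]
    have hc : IsClosed {w : Fin 4 → ℝ | 0 ≤ w ⬝ᵥ (A.map ((↑) : ℤ → ℝ) *ᵥ w)} :=
      isClosed_le continuous_const (by unfold Matrix.mulVec dotProduct; fun_prop)
    refine hdense.induction_on (p := fun w => 0 ≤ w ⬝ᵥ (A.map ((↑) : ℤ → ℝ) *ᵥ w)) v hc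
      fun x => ?_
    have h1 := h.posSemidef.dotProduct_mulVec_nonneg x
    simp only [star_trivial] at h1
    have h2 : ((x ⬝ᵥ (A.map ((↑) : ℤ → ℚ) *ᵥ x) : ℚ) : ℝ)
        = (fun i => (x i : ℝ)) ⬝ᵥ (A.map ((↑) : ℤ → ℝ) *ᵥ fun i => (x i : ℝ)) := by
      simp [dotProduct, Matrix.mulVec, Fin.sum_univ_four]
    rw [← h2]
    exact_mod_cast h1
  refine hpsd.posDef_iff_det_ne_zero.mpr ?_
  have h3 : (A.map ((↑) : ℤ → ℝ)).det = ((A.det : ℤ) : ℝ) :=
    ((Int.castRingHom ℝ).map_det A).symm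
  have h4 : (A.map ((↑) : ℤ → ℚ)).det = ((A.det : ℤ) : ℚ) :=
    ((Int.castRingHom ℚ).map_det A).symm
  rw [h3]
  intro h0
  obtain ⟨x, hx, hx0⟩ := Matrix.exists_mulVec_eq_zero_iff.mpr
    (show (A.map ((↑) : ℤ → ℚ)).det = 0 by
      rw [h4, show A.det = 0 from by exact_mod_cast h0]; simp)
  have := h.dotProduct_mulVec_pos hx
  simp [hx0] at this

/-- The values on a lattice locally similar to `O` everywhere are integral multiples of `ν`. -/
private theorem exists_int_values {N : ℕ} {O : QForm N} {q : QuadraticForm ℚ H} {b : Fin 4 → H}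
    {ν : ℚ} (hν : 0 < ν) (hloc : ∀ p : ℕ, p.Prime → ∃ E F u k, LatSim O q b ν p E F u k) :
    ∃ val : (Fin 4 → ℤ) → ℤ, ∀ x, q (latVec b x) = ν * (val x : ℚ) := by
  have hint : ∀ x, ∃ m : ℤ, q (latVec b x) / ν = m := fun x => rat_eq_int_of_local fun p hp => by
    obtain ⟨E, F, u, k, h⟩ := hloc p hp
    refine ⟨k * k, fun h' => h.not_dvd_index
      (((Nat.prime_iff_prime_int.mp hp).dvd_or_dvd h').elim id id), u * O.eval (F *ᵥ x), ?_⟩
    have h1 := h.value (F *ᵥ x)
    rw [Matrix.mulVec_mulVec, h.inverse, Matrix.smul_mulVec, Matrix.one_mulVec, latVec_smul,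
      QuadraticMap.map_smul, smul_eq_mul] at h1
    push_cast
    field_simp
    linear_combination h1
  choose val hval using hint
  exact ⟨val, fun x => by rw [← hval x]; field_simp⟩

/-- The even symmetric Gram matrix, scaled by `ν`, of a lattice with integral values. -/
private theorem exists_gram {q : QuadraticForm ℚ H} {b : Fin 4 → H} {ν : ℚ} (hν : ν ≠ 0)
    {val : (Fin 4 → ℤ) → ℤ} (hqv : ∀ x, q (latVec b x) = ν * (val x : ℚ)) :
    ∃ A : Matrix (Fin 4) (Fin 4) ℤ, A.IsSymm ∧ (∀ i, 2 ∣ A i i) ∧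
      (∀ i j, (A i j : ℚ) * ν = QuadraticMap.polar q (b i) (b j)) ∧
      ∀ x : Fin 4 → ℤ, ((x ⬝ᵥ (A *ᵥ x) : ℤ) : ℚ) * ν = 2 * q (latVec b x) := by
  set A : Matrix (Fin 4) (Fin 4) ℤ := Matrix.of fun i j =>
    val (Pi.single i 1 + Pi.single j 1) - val (Pi.single i 1) - val (Pi.single j 1) with hA
  have hpol : ∀ i j, (A i j : ℚ) * ν = QuadraticMap.polar q (b i) (b j) := by
    intro i j
    simp only [hA, Matrix.of_apply, QuadraticMap.polar, Int.cast_sub]
    rw [← latVec_single b i, ← latVec_single b j, ← latVec_add, hqv, hqv, hqv]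
    ring
  refine ⟨A, ?_, fun i => ⟨val (Pi.single i 1), ?_⟩, hpol, fun x => ?_⟩
  · ext i j
    simp only [hA, Matrix.transpose_apply, Matrix.of_apply]
    rw [add_comm]; ring
  · have h1 : (A i i : ℚ) * ν = 2 * q (b i) := by
      rw [hpol, QuadraticMap.polar_self, two_mul, two_nsmul]
    rw [← latVec_single b i, hqv] at h1
    have : (A i i : ℚ) = ((2 * val (Pi.single i 1) : ℤ) : ℚ) := by
      push_cast
      exact mul_right_cancel₀ hν (by linear_combination h1)
    exact_mod_cast this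
  · have h1 : QuadraticMap.polarBilin q (latVec b x) (latVec b x) = 2 * q (latVec b x) := by
      rw [QuadraticMap.polarBilin_apply_apply, QuadraticMap.polar_self, two_mul, two_nsmul]
    rw [← h1]
    simp only [latVec, map_sum, map_smul, LinearMap.sum_apply, LinearMap.smul_apply]
    simp only [smul_eq_mul, QuadraticMap.polarBilin_apply_apply, ← hpol, dotProduct, Matrix.mulVec,
      Fin.sum_univ_four, Int.cast_add, Int.cast_mul]
    ring

/-- Local comparison data of the lattice is a local similarity of its Gram matrix with `O`. -/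
private theorem localSim_of_latSim {N p : ℕ} {O : QForm N} {q : QuadraticForm ℚ H}
    {b : Fin 4 → H} {ν : ℚ} {E F : Matrix (Fin 4) (Fin 4) ℤ} {u k : ℤ}
    (h : LatSim O q b ν p E F u k) (hp : p.Prime) (hν : ν ≠ 0) {A : Matrix (Fin 4) (Fin 4) ℤ}
    (hs : A.IsSymm)
    (hquad : ∀ x : Fin 4 → ℤ, ((x ⬝ᵥ (A *ᵥ x) : ℤ) : ℚ) * ν = 2 * q (latVec b x)) :
    LocalSim O A p E u := by
  refine ⟨fun hd => ?_, h.not_dvd_unit, ?_⟩
  · have hk := congrArg Matrix.det h.inverse
    rw [Matrix.det_mul, Matrix.det_smul, Matrix.det_one, mul_one] at hk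
    have : (p : ℤ) ∣ k ^ Fintype.card (Fin 4) := hk ▸ dvd_mul_of_dvd_left hd _
    exact h.not_dvd_index ((Nat.prime_iff_prime_int.mp hp).dvd_of_dvd_pow this)
  · have hev : ∀ x, ((E *ᵥ x) ⬝ᵥ (A *ᵥ (E *ᵥ x)) : ℤ) = u * (x ⬝ᵥ (O.mat *ᵥ x)) := by
      intro x
      have h1 := hquad (E *ᵥ x)
      rw [h.value] at h1
      rw [← O.two_mul_eval]
      have : (((E *ᵥ x) ⬝ᵥ (A *ᵥ (E *ᵥ x)) : ℤ) : ℚ)
          = ((u * (2 * O.eval x) : ℤ) : ℚ) := by
        push_cast
        exact mul_right_cancel₀ hν (by linear_combination h1)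
      exact_mod_cast this
    have hs' : (Eᵀ * A * E).IsSymm := by
      rw [Matrix.IsSymm, Matrix.transpose_mul, Matrix.transpose_mul, Matrix.transpose_transpose,
        hs.eq, Matrix.mul_assoc]
    refine eq_of_quad hs' (O.symm.smul u) fun x => ?_
    rw [← Matrix.mulVec_mulVec, ← Matrix.mulVec_mulVec,
      Matrix.dotProduct_mulVec x Eᵀ, Matrix.vecMul_transpose, hev, Matrix.smul_mulVec,
      dotProduct_smul, smul_eq_mul]

/-- **A lattice locally similar to `O` everywhere gives a form of level `N`** whose representation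
numbers count the vectors of given value. -/
theorem exists_qform_of_lattice {N : ℕ} [NeZero N] (O : QForm N) (q : QuadraticForm ℚ H)
    (hq : ∀ v, v ≠ 0 → 0 < q v) (b : Fin 4 → H) (hb : LinearIndependent ℚ b) {ν : ℚ} (hν : 0 < ν)
    (hloc : ∀ p : ℕ, p.Prime → ∃ E F u k, LatSim O q b ν p E F u k) :
    ∃ P : QForm N, P.disc = O.disc ∧ (∀ (p : ℕ) [NeZero p], p.Prime → QForm.SameMod O P p) ∧
      (∀ x, q (latVec b x) = ν * (P.eval x : ℚ)) ∧
      ∀ m : ℕ, QForm.rep P m
        = Nat.card {v : H // (∃ x, latVec b x = v) ∧ q v = (m : ℚ) * ν} := by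
  obtain ⟨val, hqv⟩ := exists_int_values hν hloc
  obtain ⟨A, hs, he, hpol, hquad⟩ := exists_gram hν.ne' hqv
  obtain ⟨P, hPA, hPd, hPs⟩ := exists_qform_of_local O A hs he
    (posDef_of_rat A (posDef_gram hq hb hν hs hpol)) fun p hp => by
      obtain ⟨E, F, u, k, h⟩ := hloc p hp
      exact ⟨E, u, localSim_of_latSim h hp hν.ne' hs hquad⟩
  have hPe : ∀ x, q (latVec b x) = ν * (P.eval x : ℚ) := by
    intro x
    have h1 := hquad x
    rw [← hPA, ← P.two_mul_eval] at h1
    push_cast at h1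
    linear_combination -h1 / 2
  exact ⟨P, hPd, fun p _ hp => hPs p hp, hPe, rep_eq_card hb hν hPe⟩

end Fermat.Agent.LT.Theta
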