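import Fermat.Agent.LT.Theta.Cusp

/-!
# Forms locally similar to a given form

A symmetric even positive integral matrix which, for every prime `p`, receives the form `O` up to a
factor prime to `p` by an integral substitution of determinant prime to `p`, has the determinant
and the level of `O`, and is isometric to it up to a unit modulo every prime.
-/

noncomputable section

namespace Fermat.Agent.LT.Theta

open Matrix

/-- `E` carries `u • O` into `A` and is invertible at `p`. -/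
structure LocalSim {N : ℕ} (O : QForm N) (A : Matrix (Fin 4) (Fin 4) ℤ) (p : ℕ)
    (E : Matrix (Fin 4) (Fin 4) ℤ) (u : ℤ) : Prop where
  not_dvd_det : ¬ (p : ℤ) ∣ E.det
  not_dvd_unit : ¬ (p : ℤ) ∣ u
  conj : Eᵀ * A * E = u • O.mat

namespace LocalSim

variable {N : ℕ} {O : QForm N} {A E : Matrix (Fin 4) (Fin 4) ℤ} {p : ℕ} {u : ℤ}

lemma det_mul (h : LocalSim O A p E u) : A.det * E.det ^ 2 = u ^ 4 * (O.disc : ℤ) ^ 2 := by
  have := congrArg Matrix.det h.conj
  rw [Matrix.det_mul, Matrix.det_mul, Matrix.det_transpose, Matrix.det_smul, O.det_eq,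
    Fintype.card_fin] at this
  linear_combination this

/-- The matrix identity a local similarity gives with the dual form. -/
lemma mul_dual (h : LocalSim O A p E u) : A * (E * O.dual * Eᵀ) = (u * N) • 1 := by
  have hE : E.det ≠ 0 := fun h0 => h.not_dvd_det (by rw [h0]; exact dvd_zero _)
  have h1 : Eᵀ * (A * (E * O.dual * Eᵀ)) = Eᵀ * ((u * N) • (1 : Matrix (Fin 4) (Fin 4) ℤ)) := by
    have : Eᵀ * A * E * O.dual = (u * N) • (1 : Matrix (Fin 4) (Fin 4) ℤ) := by
      rw [h.conj, Matrix.smul_mul, O.mul_dual, smul_smul]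
    calc Eᵀ * (A * (E * O.dual * Eᵀ)) = Eᵀ * A * E * O.dual * Eᵀ := by
          simp only [Matrix.mul_assoc]
      _ = _ := by rw [this, Matrix.smul_mul, Matrix.one_mul, Matrix.mul_smul, Matrix.mul_one]
  have h2 := congrArg (fun M => Eᵀ.adjugate * M) h1
  simp only [← Matrix.mul_assoc, Matrix.adjugate_mul, Matrix.smul_mul, Matrix.one_mul,
    Matrix.det_transpose] at h2
  exact smul_right_injective _ hE (by simpa only [Matrix.mul_assoc] using h2)

lemma pow_dvd_adjugate (h : LocalSim O A p E u) (hp : p.Prime) {k : ℕ}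
    (hk : (p : ℤ) ^ k ∣ A.det) (i j : Fin 4) : (p : ℤ) ^ k ∣ N * A.adjugate i j := by
  have h1 := congrArg (fun M => A.adjugate * M) h.mul_dual
  simp only [← Matrix.mul_assoc, Matrix.adjugate_mul, Matrix.smul_mul, Matrix.one_mul,
    Matrix.mul_smul, Matrix.mul_one] at h1
  have h2 := congrFun (congrFun h1 i) j
  simp only [Matrix.smul_apply, smul_eq_mul] at h2
  have h3 : (p : ℤ) ^ k ∣ u * (N * A.adjugate i j) := by
    rw [← mul_assoc, ← h2]
    exact dvd_mul_of_dvd_left hk _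
  exact ((Nat.prime_iff_prime_int.mp hp).pow_dvd_of_dvd_mul_left k h.not_dvd_unit h3)

/-- The inverse form is even if `A` is locally similar to an even form at two. -/
private lemma dual_even [NeZero N] (h : LocalSim O A 2 E u) {B : Matrix (Fin 4) (Fin 4) ℤ}
    (hBA : B * A = (N : ℤ) • 1) (i : Fin 4) : 2 ∣ B i i := by
  have h1 := congrArg (fun M => B * M) h.mul_dual
  simp only [← Matrix.mul_assoc, hBA, Matrix.smul_mul, Matrix.one_mul, Matrix.mul_smul,
    Matrix.mul_one] at h1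
  have h2 := congrFun (congrFun h1 i) i
  simp only [Matrix.smul_apply, smul_eq_mul] at h2
  have hN : (N : ℤ) ≠ 0 := by exact_mod_cast NeZero.ne N
  -- `u B = E (dual O) Eᵀ`
  have h3 : (E * O.dual * Eᵀ) i i = u * B i i := mul_left_cancel₀ hN (by rw [h2]; ring)
  have h4 : (E * O.dual * Eᵀ) i i = (fun j => E i j) ⬝ᵥ (O.dual *ᵥ fun j => E i j) := by
    simp [Matrix.mul_apply, dotProduct, Matrix.mulVec, Fin.sum_univ_four]
    ring
  have h5 : (2 : ℤ) ∣ u * B i i := by
    rw [← h3, h4]; exact two_dvd_quad O.dual_symm O.dual_even _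
  exact (Int.prime_two.dvd_or_dvd h5).resolve_left (by exact_mod_cast h.not_dvd_unit)

/-- A local similarity reduces to an isometry up to a unit modulo the prime. -/
private lemma sameMod {P : QForm N} [NeZero p] (hp : p.Prime) (h : LocalSim O P.mat p E u) :
    QForm.SameMod O P p := by
  have : Fact p.Prime := ⟨hp⟩
  have hu : (u : ZMod p) ≠ 0 := fun h0 =>
    h.not_dvd_unit ((ZMod.intCast_zmod_eq_zero_iff_dvd u p).mp h0)
  set Ep : Matrix (Fin 4) (Fin 4) (ZMod p) := E.map (Int.castRingHom (ZMod p)) with hEp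
  have hEdet : IsUnit Ep.det := by
    rw [hEp, ← RingHom.mapMatrix_apply, ← RingHom.map_det, isUnit_iff_ne_zero]
    exact fun h0 => h.not_dvd_det ((ZMod.intCast_zmod_eq_zero_iff_dvd _ p).mp h0)
  let e : (Fin 4 → ZMod p) ≃ (Fin 4 → ZMod p) :=
    { toFun := fun r => Ep *ᵥ r
      invFun := fun r => Ep⁻¹ *ᵥ r
      left_inv := fun r => by
        show Ep⁻¹ *ᵥ (Ep *ᵥ r) = r
        rw [Matrix.mulVec_mulVec, Matrix.nonsing_inv_mul _ hEdet, Matrix.one_mulVec]
      right_inv := fun r => by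
        show Ep *ᵥ (Ep⁻¹ *ᵥ r) = r
        rw [Matrix.mulVec_mulVec, Matrix.mul_nonsing_inv _ hEdet, Matrix.one_mulVec] }
  refine ⟨Units.mk0 _ hu, e, fun r => ?_⟩
  have he' : e r = QForm.reduce p (E *ᵥ QForm.lift p r) := by
    funext i
    show (Ep *ᵥ r) i = _
    simp [QForm.reduce, hEp, Matrix.mulVec, dotProduct, QForm.lift]
  have hval : P.eval (E *ᵥ QForm.lift p r) = u * O.eval (QForm.lift p r) := by
    have h2 := P.two_mul_eval (E *ᵥ QForm.lift p r)
    have h3 : (E *ᵥ QForm.lift p r) ⬝ᵥ (P.mat *ᵥ (E *ᵥ QForm.lift p r))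
        = u * (2 * O.eval (QForm.lift p r)) := by
      have h4 : (E *ᵥ QForm.lift p r) ⬝ᵥ (P.mat *ᵥ (E *ᵥ QForm.lift p r))
          = QForm.lift p r ⬝ᵥ ((Eᵀ * P.mat * E) *ᵥ QForm.lift p r) := by
        rw [← Matrix.mulVec_mulVec, ← Matrix.mulVec_mulVec,
          Matrix.dotProduct_mulVec (QForm.lift p r) Eᵀ, Matrix.vecMul_transpose]
      rw [h4, h.conj, Matrix.smul_mulVec, dotProduct_smul, O.two_mul_eval, smul_eq_mul]
    rw [h3] at h2
    linarith
  rw [he', P.evalMod_reduce, hval]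
  simp [QForm.evalMod]

end LocalSim

lemma int_dvd_of_prime_pow {a b : ℤ}
    (h : ∀ p : ℕ, p.Prime → ∀ k : ℕ, (p : ℤ) ^ k ∣ a → (p : ℤ) ^ k ∣ b) : a ∣ b := by
  rw [← Int.natAbs_dvd_natAbs, Nat.dvd_iff_prime_pow_dvd_dvd]
  intro p k hp hk
  have h1 : (p : ℤ) ^ k ∣ a := by
    rw [← Int.natAbs_dvd_natAbs]
    simpa [Int.natAbs_pow] using hk
  simpa [Int.natAbs_pow] using Int.natAbs_dvd_natAbs.mpr (h p hp k h1)

/-- **The form of a matrix locally similar to `O` at every prime.** -/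
theorem exists_qform_of_local {N : ℕ} [NeZero N] (O : QForm N) (A : Matrix (Fin 4) (Fin 4) ℤ)
    (hs : A.IsSymm) (he : ∀ i, 2 ∣ A i i) (hpos : (A.map ((↑) : ℤ → ℝ)).PosDef)
    (hloc : ∀ p : ℕ, p.Prime → ∃ E u, LocalSim O A p E u) :
    ∃ P : QForm N, P.mat = A ∧ P.disc = O.disc ∧
      ∀ (p : ℕ) [NeZero p], p.Prime → QForm.SameMod O P p := by
  have hApos : 0 < A.det := by
    have h2 : (A.map ((↑) : ℤ → ℝ)).det = ((A.det : ℤ) : ℝ) :=
      ((Int.castRingHom ℝ).map_det A).symm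
    exact_mod_cast h2 ▸ hpos.det_pos
  -- the determinant, one prime at a time; `N A⁻¹` is integral and even
  have hdet : A.det = (O.disc : ℤ) ^ 2 := by
    refine Int.dvd_antisymm hApos.le (sq_nonneg _) ?_ ?_
    · refine int_dvd_of_prime_pow fun p hp k hk => ?_
      obtain ⟨E, u, h⟩ := hloc p hp
      have h1 : (p : ℤ) ^ k ∣ u ^ 4 * (O.disc : ℤ) ^ 2 := by
        rw [← h.det_mul]; exact dvd_mul_of_dvd_left hk _
      exact (Nat.prime_iff_prime_int.mp hp).pow_dvd_of_dvd_mul_left k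
        (fun h' => h.not_dvd_unit ((Nat.prime_iff_prime_int.mp hp).dvd_of_dvd_pow h')) h1
    · refine int_dvd_of_prime_pow fun p hp k hk => ?_
      obtain ⟨E, u, h⟩ := hloc p hp
      have h1 : (p : ℤ) ^ k ∣ A.det * E.det ^ 2 := by
        rw [h.det_mul]; exact dvd_mul_of_dvd_right hk _
      exact (Nat.prime_iff_prime_int.mp hp).pow_dvd_of_dvd_mul_right k
        (fun h' => h.not_dvd_det ((Nat.prime_iff_prime_int.mp hp).dvd_of_dvd_pow h')) h1
  have hdvd : ∀ i j, A.det ∣ N * A.adjugate i j := fun i j =>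
    int_dvd_of_prime_pow fun p hp k hk => by
      obtain ⟨E, u, h⟩ := hloc p hp
      exact h.pow_dvd_adjugate hp hk i j
  choose B hB using hdvd
  have hAB : A.det • Matrix.of B = (N : ℤ) • A.adjugate := by
    ext i j
    simp [hB i j]
  have hmul : A * Matrix.of B = (N : ℤ) • 1 := by
    refine smul_right_injective _ hApos.ne' ?_
    show A.det • (A * Matrix.of B) = A.det • ((N : ℤ) • (1 : Matrix (Fin 4) (Fin 4) ℤ))
    rw [← Matrix.mul_smul, hAB, Matrix.mul_smul, Matrix.mul_adjugate, smul_comm]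
  have hBA : Matrix.of B * A = (N : ℤ) • 1 := by
    refine smul_right_injective _ hApos.ne' ?_
    show A.det • (Matrix.of B * A) = A.det • ((N : ℤ) • (1 : Matrix (Fin 4) (Fin 4) ℤ))
    rw [← Matrix.smul_mul, hAB, Matrix.smul_mul, Matrix.adjugate_mul, smul_comm]
  have heven : ∀ i, 2 ∣ Matrix.of B i i := by
    obtain ⟨E, u, h⟩ := hloc 2 Nat.prime_two
    exact h.dual_even hBA
  refine ⟨⟨A, hs, he, hpos, O.disc, hdet, Matrix.of B, hmul, heven⟩, rfl, rfl, fun p _ hp => ?_⟩
  obtain ⟨E, u, h⟩ := hloc p hp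
  exact LocalSim.sameMod hp h

end Fermat.Agent.LT.Theta
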