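import Fermat.Agent.LT.Theta.Form

/-!
# Transformation of quaternary theta series; invariance under `Γ₀(N)`

For `γ = (a b; c d)` with `c > 0` the slash of the theta series is an exponential series with
twisted Gauss sums as coefficients (Poisson summation).  For `N ∣ c` it is a multiple of the theta
series; the multiple is `1` because it is so for `(1 0; c 1)` and the Gauss sum then is rational,
hence unchanged by Galois conjugation `ζ ↦ ζ ^ a`. It is used in `LT/Theta/Invariance`.
-/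

noncomputable section

namespace Fermat.Agent.LT.Theta

open Matrix Complex
open UpperHalfPlane hiding I
open scoped Real MatrixGroups ModularForm

namespace QForm

variable {N : ℕ} [NeZero N] (P : QForm N)

/-- The real matrix of the form. -/
def realMat : Matrix (Fin 4) (Fin 4) ℝ := P.mat.map ((↑) : ℤ → ℝ)

omit [NeZero N] in
lemma det_realMat : (realMat P).det = (P.disc : ℝ) ^ 2 := by
  have := (Int.castRingHom ℝ).map_det P.mat
  rw [P.det_eq] at this
  simpa [realMat] using this.symm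

lemma realMat_inv : (realMat P)⁻¹ = (N : ℝ)⁻¹ • P.dual.map ((↑) : ℤ → ℝ) := by
  refine Matrix.inv_eq_right_inv ?_
  have h := congrArg (fun M : Matrix (Fin 4) (Fin 4) ℤ => M.map (Int.castRingHom ℝ)) P.mul_dual
  simp only [Matrix.map_mul] at h
  rw [Matrix.mul_smul]
  change (N : ℝ)⁻¹ • (P.mat.map (Int.castRingHom ℝ) * P.dual.map (Int.castRingHom ℝ)) = 1
  rw [h]
  ext i j
  simp only [Matrix.smul_apply, Matrix.map_apply, Matrix.one_apply, smul_eq_mul]
  split_ifs <;> simp [NeZero.ne N]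

/-- The exponent of the dual series. -/
def dualExp (y : Fin 4 → ℤ) : ℝ := (P.dualEval y : ℝ) / N

lemma qval_realMat_inv (y : Fin 4 → ℤ) : qval (realMat P)⁻¹ (rvec y) = 2 * dualExp P y := by
  have h := congrArg ((↑) : ℤ → ℝ) (P.two_mul_dualEval y)
  push_cast at h
  rw [realMat_inv, dualExp, mul_div, h, qval, Matrix.smul_mulVec, dotProduct_smul, smul_eq_mul,
    inv_mul_eq_div]
  simp [rvec, dotProduct, Matrix.mulVec]

omit [NeZero N] in
lemma goodExp_eval : GoodExp fun x => (P.eval x : ℝ) := by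
  refine ⟨fun x => by exact_mod_cast P.eval_nonneg x, fun t ht => ?_⟩
  refine (summable_gaussian P.pos 0 (half_pos ht)).congr fun x => ?_
  rw [sub_zero, P.qval_real]
  ring_nf

lemma goodExp_dual : GoodExp (dualExp P) := by
  have hpos : (realMat P)⁻¹.PosDef := Matrix.PosDef.inv P.pos
  refine ⟨fun y => ?_, fun t ht => ?_⟩
  · have := hpos.posSemidef.dotProduct_mulVec_nonneg (rvec y)
    simp only [star_trivial] at this
    rw [← qval, qval_realMat_inv] at this
    linarith
  · refine (summable_gaussian hpos 0 (half_pos ht)).congr fun y => ?_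
    rw [sub_zero, qval_realMat_inv]
    ring_nf

lemma dualExp_eq_zero_iff (y : Fin 4 → ℤ) : dualExp P y = 0 ↔ y = 0 := by
  refine ⟨fun h => ?_, fun h => by simp [h, dualExp, dualEval]⟩
  by_contra hy
  have hne : rvec y ≠ 0 := fun h0 => hy (funext fun i => by simpa [rvec] using congr_fun h0 i)
  have := (Matrix.PosDef.inv P.pos).dotProduct_mulVec_pos hne
  simp only [star_trivial] at this
  rw [← qval, ← realMat, qval_realMat_inv, h] at this
  simp at this

/-- The theta series. -/
def theta : ℍ → ℂ := seriesFun (fun _ => 1) fun x => (P.eval x : ℝ)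

/-- Splitting an integral vector into its residue and quotient. -/
def splitEquiv (c : ℕ) [NeZero c] :
    (Fin 4 → ZMod c) × (Fin 4 → ℤ) ≃ (Fin 4 → ℤ) where
  toFun p := lift c p.1 + (c : ℤ) • p.2
  invFun x := (reduce c x, fun i => x i / c)
  left_inv p := by
    refine Prod.ext (funext fun i => ?_) (funext fun i => ?_)
    · simp [reduce, lift]
    · have h1 : (((p.1 i).val : ℕ) : ℤ) < c := by exact_mod_cast ZMod.val_lt (p.1 i)
      have h2 : (0 : ℤ) ≤ ((p.1 i).val : ℕ) := Int.natCast_nonneg _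
      simp [lift, Int.add_mul_ediv_left _ _ (by exact_mod_cast NeZero.ne c : (c : ℤ) ≠ 0),
        Int.ediv_eq_zero_of_lt h2 h1, -ZMod.natCast_val]
  right_inv x := funext fun i => by
    show ((((x i : ZMod c)).val : ℕ) : ℤ) + (c : ℤ) * (x i / c) = x i
    rw [ZMod.val_intCast]
    exact Int.emod_add_mul_ediv (x i) c

/-- The coefficients of the slashed theta series. -/
def slashCoef (c : ℕ) [NeZero c] (a d : ℤ) (y : Fin 4 → ℤ) : ℂ :=
  -((c : ℂ) ^ 2 * P.disc)⁻¹ * P.phi c a y * cexp (2 * π * I * (dualExp P y : ℂ) * (d / c : ℂ))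

omit [NeZero N] in
lemma norm_slashCoef_le (c : ℕ) [NeZero c] (a d : ℤ) (y : Fin 4 → ℤ) :
    ‖slashCoef P c a d y‖ ≤ ((c : ℝ) ^ 2 * P.disc)⁻¹ * (c : ℝ) ^ 4 := by
  have h1 : ‖cexp (2 * π * I * (dualExp P y : ℂ) * (d / c : ℂ))‖ = 1 := by
    rw [Complex.norm_exp]; simp [Complex.div_re, Complex.div_im]
  rw [slashCoef, norm_mul, norm_mul, h1, mul_one]
  refine mul_le_mul (le_of_eq ?_) (P.norm_phi_le a y) (norm_nonneg _) (by positivity)
  simp

lemma inner_sum (c : ℕ) [NeZero c] (d : ℤ) (r : Fin 4 → ZMod c) (τ : ℍ) :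
    (∑' k : Fin 4 → ℤ, cexp (2 * π * I * ((P.eval (lift c r + (c : ℤ) • k) : ℝ) : ℂ)
        * (-1 / ((c : ℂ) * ((c : ℂ) * τ + d)))))
      = -(((c : ℂ) * τ + d) ^ 2) * ((c : ℂ) ^ 2 * P.disc)⁻¹
        * ∑' y : Fin 4 → ℤ, ZMod.stdAddChar (-(r ⬝ᵥ reduce c y))
          * (cexp (2 * π * I * (dualExp P y : ℂ) * (d / c : ℂ))
            * cexp (2 * π * I * (dualExp P y : ℂ) * τ)) := by
  have hc : (c : ℂ) ≠ 0 := Nat.cast_ne_zero.mpr (NeZero.ne c)
  have hcR : (c : ℝ) ≠ 0 := Nat.cast_ne_zero.mpr (NeZero.ne c)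
  set z : ℂ := -I * ((τ : ℂ) + d / c) with hz
  have hzre : 0 < z.re := by simpa [hz, Complex.div_im] using τ.im_pos
  set v : Fin 4 → ℝ := fun i => -((lift c r i : ℝ) / c) with hv
  have hpos : (realMat P)⁻¹.PosDef := Matrix.PosDef.inv P.pos
  -- Poisson summation for the inverse matrix, at `z = -i (τ + d/c)` and shift `-r/c`
  have hp := tsum_gaussian hpos v hzre
  rw [Matrix.nonsing_inv_nonsing_inv _
    (show IsUnit (realMat P).det from isUnit_iff_ne_zero.mpr P.pos.det_pos.ne')] at hp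
  have hsq : Real.sqrt (realMat P)⁻¹.det = (P.disc : ℝ)⁻¹ := by
    rw [Matrix.det_nonsing_inv, det_realMat, Ring.inverse_eq_inv',
      Real.sqrt_inv, Real.sqrt_sq (Nat.cast_nonneg _)]
  have hpow : ((z ^ (1 / 2 : ℂ))⁻¹) ^ 4 = (z ^ 2)⁻¹ := by
    rw [inv_pow, show 4 = 2 * 2 from rfl, pow_mul, one_div,
      Complex.cpow_ofNat_inv_pow z]
  rw [hsq, hpow] at hp
  have hD : (P.disc : ℂ) ≠ 0 := Nat.cast_ne_zero.mpr P.disc_pos.ne'
  have hz0 : z ≠ 0 := fun h => by simp [h] at hzre
  have hnum : (c : ℂ) * τ + d = I * c * z := by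
    rw [hz]; field_simp; ring_nf; simp only [I_sq]; ring
  have hne : (c : ℂ) * τ + d ≠ 0 := by rw [hnum]; simp [hc, hz0]
  -- the side of the residue class `r`
  have hR : ∀ k : Fin 4 → ℤ,
      cexp (2 * π * I * ((P.eval (lift c r + (c : ℤ) • k) : ℝ) : ℂ)
        * (-1 / ((c : ℂ) * ((c : ℂ) * τ + d))))
        = cexp (-π / z * (qval (realMat P) (rvec k - v) : ℂ)) := by
    intro k
    have h1 : rvec k - v = (c : ℝ)⁻¹ • rvec (lift c r + (c : ℤ) • k) := by
      funext i
      simp [rvec, hv]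
      field_simp
      ring
    have h2 : qval (realMat P) (rvec k - v)
        = 2 * (P.eval (lift c r + (c : ℤ) • k) : ℝ) / (c : ℝ) ^ 2 := by
      rw [h1, qval, Matrix.mulVec_smul, dotProduct_smul, smul_dotProduct, ← qval, realMat,
        P.qval_real, smul_eq_mul, smul_eq_mul]
      field_simp
    rw [h2, hnum]
    congr 1
    push_cast
    field_simp
  rw [tsum_congr hR]
  -- the dual side
  have hL : ∀ y : Fin 4 → ℤ,
      cexp (-π * z * (qval (realMat P)⁻¹ (rvec y) : ℂ) + 2 * π * I * ((v ⬝ᵥ rvec y : ℝ) : ℂ))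
        = ZMod.stdAddChar (-(r ⬝ᵥ reduce c y))
          * (cexp (2 * π * I * (dualExp P y : ℂ) * (d / c : ℂ))
            * cexp (2 * π * I * (dualExp P y : ℂ) * τ)) := by
    intro y
    have h1 : v ⬝ᵥ rvec y = ((-(lift c r ⬝ᵥ y) : ℤ) : ℝ) / c := by
      push_cast [dotProduct]
      simp only [hv, rvec, ← Finset.sum_neg_distrib, Finset.sum_div]
      exact Finset.sum_congr rfl fun i _ => by ring
    rw [dot_reduce, ← Int.cast_neg, ZMod.stdAddChar_coe, ← Complex.exp_add, ← Complex.exp_add,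
      qval_realMat_inv, h1, hz]
    congr 1
    push_cast
    ring
  rw [tsum_congr hL] at hp
  rw [hp, hnum]
  push_cast
  field_simp
  simp only [I_sq]
  ring

/-- The slash of the theta series by a matrix with positive lower left entry. -/
theorem theta_slash (γ : SL(2, ℤ)) (c : ℕ) [NeZero c] (hγc : γ 1 0 = (c : ℤ)) :
    theta P ∣[(2 : ℤ)] γ = seriesFun (slashCoef P c (γ 0 0) (γ 1 1)) (dualExp P) := by
  funext τ
  set a := γ 0 0
  set b := γ 0 1
  set d := γ 1 1
  have hdet : a * d - b * c = 1 := by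
    have h := γ.2
    rw [Matrix.det_fin_two] at h
    rw [← hγc]
    exact h
  have hdetC : (a : ℂ) * d - (b : ℂ) * c = 1 := by exact_mod_cast hdet
  have hc : (c : ℂ) ≠ 0 := Nat.cast_ne_zero.mpr (NeZero.ne c)
  have hden : denom γ τ = (c : ℂ) * τ + d := by simp [denom, hγc, d]
  have hne : (c : ℂ) * τ + d ≠ 0 := hden ▸ denom_ne_zero _ τ
  -- `γ τ = a / c - 1 / (c (c τ + d))`
  have hg : ((γ • τ : ℍ) : ℂ) = (a : ℂ) / c + -1 / ((c : ℂ) * ((c : ℂ) * τ + d)) := by
    rw [coe_specialLinearGroup_apply]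
    simp only [algebraMap_int_eq, eq_intCast, Complex.ofReal_intCast, hγc, Int.cast_natCast,
      Complex.ofReal_natCast]
    change ((a : ℂ) * τ + b) / ((c : ℂ) * τ + d) = _
    rw [eq_comm, div_add_div _ _ hc (mul_ne_zero hc hne), div_eq_div_iff
      (mul_ne_zero hc (mul_ne_zero hc hne)) hne]
    linear_combination ((c : ℂ) * ((c : ℂ) * τ + d)) * hdetC
  rw [ModularForm.SL_slash_apply, hden]
  simp only [theta, seriesFun, one_mul]
  have hsum := summable_series (a := fun _ => (1 : ℂ)) (C := 1) (goodExp_eval P)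
    (fun _ => by simp) (γ • τ)
  simp only [one_mul] at hsum
  -- split into residue classes modulo `c`, transform each, and exchange the sums
  rw [← (splitEquiv c).tsum_eq,
    Summable.tsum_prod (by have h := hsum.comp_injective (splitEquiv c).injective; exact h),
    tsum_fintype]
  -- on the class `r` the factor at `a / c` is constant, and `inner_sum` gives the rest
  have hterm : ∀ r : Fin 4 → ZMod c, (∑' k : Fin 4 → ℤ, cexp (2 * π * I
      * ((P.eval (splitEquiv c (r, k)) : ℝ) : ℂ) * ((γ • τ : ℍ) : ℂ)))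
      = ZMod.stdAddChar ((a : ZMod c) * P.evalMod c r)
        * (-(((c : ℂ) * τ + d) ^ 2) * ((c : ℂ) ^ 2 * P.disc)⁻¹
        * ∑' y : Fin 4 → ℤ, ZMod.stdAddChar (-(r ⬝ᵥ reduce c y))
          * (cexp (2 * π * I * (dualExp P y : ℂ) * (d / c : ℂ))
            * cexp (2 * π * I * (dualExp P y : ℂ) * τ))) := by
    intro r
    rw [← inner_sum, ← tsum_mul_left]
    refine tsum_congr fun k => ?_
    have hr : reduce c (lift c r + (c : ℤ) • k) = r := congrArg Prod.fst
      ((splitEquiv c).left_inv (r, k))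
    have h1 : P.evalMod c r = (P.eval (lift c r + (c : ℤ) • k) : ZMod c) := by
      rw [← P.evalMod_reduce, hr]
    rw [h1, ← Int.cast_mul, ZMod.stdAddChar_coe, ← Complex.exp_add]
    show cexp (2 * π * I * ((P.eval (lift c r + (c : ℤ) • k) : ℝ) : ℂ) * _) = _
    rw [hg]
    congr 1
    push_cast
    ring
  rw [Finset.sum_congr rfl fun r _ => hterm r]
  -- the finite sum over the classes commutes with the sum over the dual lattice
  have hs : ∀ r : Fin 4 → ZMod c, Summable fun y : Fin 4 → ℤ =>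
      ZMod.stdAddChar (-(r ⬝ᵥ reduce c y)) * (cexp (2 * π * I * (dualExp P y : ℂ) * (d / c : ℂ))
          * cexp (2 * π * I * (dualExp P y : ℂ) * τ)) := by
    intro r
    have := summable_series (a := fun y : Fin 4 → ℤ => ZMod.stdAddChar (-(r ⬝ᵥ reduce c y))
      * cexp (2 * π * I * (dualExp P y : ℂ) * (d / c : ℂ))) (C := 1) (goodExp_dual P)
      (fun y => by rw [norm_mul, AddChar.norm_apply, Complex.norm_exp]; simp [Complex.div_re,
        Complex.div_im]) τ
    exact this.congr fun y => mul_assoc _ _ _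
  simp only [← tsum_mul_left]
  rw [← Summable.tsum_finsetSum (fun r _ => ((hs r).mul_left _).mul_left _), ← tsum_mul_right]
  -- the coefficient of `y` is the twisted Gauss sum
  refine tsum_congr fun y => ?_
  rw [slashCoef, phi, Finset.mul_sum, Finset.sum_mul, Finset.sum_mul, Finset.sum_mul]
  refine Finset.sum_congr rfl fun r _ => ?_
  rw [sub_eq_add_neg, AddChar.map_add_eq_mul, _root_.zpow_neg, zpow_ofNat]
  field_simp

omit [NeZero N] in
lemma theta_vadd (n : ℤ) (τ : ℍ) : theta P ((n : ℝ) +ᵥ τ) = theta P τ := by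
  refine tsum_congr fun x => ?_
  rw [UpperHalfPlane.coe_vadd, mul_add, Complex.exp_add]
  have : cexp (2 * π * I * ((P.eval x : ℝ) : ℂ) * ((n : ℝ) : ℂ)) = 1 := by
    rw [show 2 * π * I * ((P.eval x : ℝ) : ℂ) * ((n : ℝ) : ℂ)
      = ((P.eval x * n : ℤ) : ℂ) * (2 * π * I) by push_cast; ring]
    exact Complex.exp_int_mul_two_pi_mul_I _
  rw [this, one_mul]

omit [NeZero N] in
lemma theta_ne_zero : theta P UpperHalfPlane.I ≠ 0 := by
  have heq : ∀ x : Fin 4 → ℤ, (1 : ℂ) * cexp (2 * π * Complex.I * ((P.eval x : ℝ) : ℂ)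
      * (UpperHalfPlane.I : ℂ)) = ((Real.exp (-(2 * π) * P.eval x) : ℝ) : ℂ) := by
    intro x
    rw [UpperHalfPlane.coe_I, one_mul, Complex.ofReal_exp]
    congr 1
    push_cast
    ring_nf
    simp [I_sq]
  have hr : Summable fun x : Fin 4 → ℤ => Real.exp (-(2 * π) * P.eval x) :=
    (goodExp_eval P).summable _ Real.two_pi_pos
  rw [theta, seriesFun, tsum_congr heq, ← Complex.ofReal_tsum]
  exact Complex.ofReal_ne_zero.mpr (hr.tsum_pos (fun x => (Real.exp_pos _).le) 0
    (Real.exp_pos _)).ne'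

/-- For `N ∣ c` the slash is a multiple of the theta series. -/
lemma theta_slash_of_dvd (γ : SL(2, ℤ)) (c : ℕ) [NeZero c] (hγc : γ 1 0 = (c : ℤ)) (hN : N ∣ c) :
    theta P ∣[(2 : ℤ)] γ = (-((c : ℂ) ^ 2 * P.disc)⁻¹ * P.gauss c (γ 0 0)) • theta P := by
  rw [theta_slash P γ c hγc]
  funext τ
  set a := γ 0 0
  set d := γ 1 1
  have had : ((a * d : ℤ) : ZMod c) = 1 := by
    have h := γ.2
    rw [Matrix.det_fin_two] at h
    rw [sub_eq_iff_eq_add.mp h, hγc]
    simp
  have hinj : Function.Injective fun s : Fin 4 → ℤ => P.mat *ᵥ s := fun s t h => by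
    have := congrArg (fun u => P.dual *ᵥ u) h
    simp only [P.dual_mat_mulVec] at this
    exact smul_right_injective _ (by exact_mod_cast NeZero.ne N) this
  simp only [seriesFun, theta, Pi.smul_apply, smul_eq_mul, one_mul]
  -- only the `y` in the image of the matrix contribute
  rw [← hinj.tsum_eq, ← tsum_mul_left]
  · refine tsum_congr fun s => ?_
    have he : dualExp P (P.mat *ᵥ s) = (P.eval s : ℝ) := by
      rw [dualExp, P.dualEval_mat]
      push_cast
      field_simp [NeZero.ne N]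
    have h2 : ZMod.stdAddChar ((-(d * P.eval s) : ℤ) : ZMod c)
        * cexp (2 * π * I * ((P.eval s : ℝ) : ℂ) * (d / c : ℂ)) = 1 := by
      rw [ZMod.stdAddChar_coe, ← Complex.exp_add]
      convert Complex.exp_zero using 2
      push_cast
      ring
    rw [slashCoef, P.phi_mat had, he]
    linear_combination (-((c : ℂ) ^ 2 * P.disc)⁻¹ * P.gauss c a
      * cexp (2 * π * I * ((P.eval s : ℝ) : ℂ) * τ)) * h2
  · intro y hy
    by_contra hyr
    refine hy ?_
    have : P.phi c a y = 0 := by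
      by_contra h0
      exact hyr (P.exists_mat_of_phi_ne_zero hN (NeZero.ne N) h0)
    simp [slashCoef, this]

end QForm

end Fermat.Agent.LT.Theta
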