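import Mathlib.NumberTheory.ModularForms.JacobiTheta.TwoVariable
import Mathlib.Tactic
import Mathlib.Topology.Separation.CompletelyRegular

/-!
# Poisson summation for Gaussians of a positive definite real quadratic form

For a positive definite real symmetric matrix `A` of size `n`, a real vector `v` and `0 < Re z`,
`∑ exp (-π z xᵀAx + 2πi vᵀx) = (√det A)⁻¹ (√z)⁻ⁿ ∑ exp (-π/z (y - v)ᵀA⁻¹(y - v))`,
both sums over `ℤⁿ`.  The proof is by induction on `n`, completing the square in one variable and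
using the one variable transformation formula.

This is `tsum_gaussian`.
-/

noncomputable section

namespace Fermat.Agent.LT.Theta

open Matrix Complex
open scoped Real

/-! ## Convergence -/

/-- The quadratic function of a matrix. -/
def qval {n : ℕ} (A : Matrix (Fin n) (Fin n) ℝ) (x : Fin n → ℝ) : ℝ := x ⬝ᵥ (A *ᵥ x)

/-- The real vector of an integral vector. -/
def rvec {n : ℕ} (x : Fin n → ℤ) : Fin n → ℝ := fun i => (x i : ℝ)

lemma summable_exp_shift {t : ℝ} (ht : 0 < t) (v : ℝ) :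
    Summable fun m : ℤ => Real.exp (-t * ((m : ℝ) - v) ^ 2) := by
  have hτ : 0 < ((t / π : ℝ) * I : ℂ).im := by
    simpa using div_pos ht Real.pi_pos
  have h := ((summable_jacobiTheta₂_term_iff ((-t * v / π : ℝ) * I) ((t / π : ℝ) * I)).mpr hτ).norm
  refine (h.mul_left (Real.exp (-t * v ^ 2))).congr fun m => ?_
  rw [norm_jacobiTheta₂_term, ← Real.exp_add]
  congr 1
  simp only [mul_im, ofReal_re, I_im, ofReal_im, I_re]
  field_simp
  ring

lemma summable_exp_sum_shift {t : ℝ} (ht : 0 < t) :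
    ∀ {n : ℕ} (v : Fin n → ℝ),
      Summable fun x : Fin n → ℤ => Real.exp (-t * ∑ i, ((x i : ℝ) - v i) ^ 2)
  | 0, _ => Summable.of_finite
  | n + 1, v => by
      have hprod := Summable.mul_of_nonneg (summable_exp_shift ht (v 0))
        (summable_exp_sum_shift ht (fun i => v i.succ))
        (fun _ => (Real.exp_pos _).le) (fun _ => (Real.exp_pos _).le)
      refine ((Fin.consEquiv fun _ => ℤ).summable_iff).mp (hprod.congr fun p => ?_)
      show _ = Real.exp (-t * ∑ i, (((Fin.cons p.1 p.2 : Fin (n + 1) → ℤ) i : ℝ) - v i) ^ 2)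
      rw [← Real.exp_add, Fin.sum_univ_succ, Fin.cons_zero]
      simp only [Fin.cons_succ]
      ring_nf

lemma qval_coercive {n : ℕ} {A : Matrix (Fin n) (Fin n) ℝ} (hA : A.PosDef) :
    ∃ ε : ℝ, 0 < ε ∧ ∀ x, ε * ∑ i, x i ^ 2 ≤ qval A x := by
  rcases Nat.eq_zero_or_pos n with rfl | hn
  · exact ⟨1, one_pos, fun x => by simp [qval]⟩
  have : Nonempty (Fin n) := ⟨⟨0, hn⟩⟩
  have hc : Continuous (qval A) := by
    unfold qval dotProduct Matrix.mulVec dotProduct
    fun_prop
  have hne : (Metric.sphere (0 : Fin n → ℝ) 1).Nonempty :=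
    NormedSpace.sphere_nonempty.mpr zero_le_one
  -- the minimum on the unit sphere is positive
  obtain ⟨w, hw, hmin⟩ := (isCompact_sphere _ _).exists_isMinOn hne hc.continuousOn
  have hw0 : w ≠ 0 := fun h => by simp [h] at hw
  have hm : 0 < qval A w := by simpa [qval] using hA.dotProduct_mulVec_pos hw0
  refine ⟨qval A w / n, div_pos hm (by exact_mod_cast hn), fun x => ?_⟩
  rcases eq_or_ne x 0 with rfl | hx
  · simp [qval]
  have hx0 : 0 < ‖x‖ := norm_pos_iff.mpr hx
  have hin : ‖x‖⁻¹ • x ∈ Metric.sphere (0 : Fin n → ℝ) 1 := by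
    simp [norm_smul, hx0.ne']
  have h1 : qval A w ≤ qval A (‖x‖⁻¹ • x) := hmin hin
  have h2 : qval A (‖x‖⁻¹ • x) = ‖x‖⁻¹ ^ 2 * qval A x := by
    simp only [qval, Matrix.mulVec_smul, smul_dotProduct, dotProduct_smul, smul_eq_mul]
    ring
  have h3 : qval A w * ‖x‖ ^ 2 ≤ qval A x := by
    rw [h2] at h1
    have := mul_le_mul_of_nonneg_right h1 (sq_nonneg ‖x‖)
    calc qval A w * ‖x‖ ^ 2 ≤ ‖x‖⁻¹ ^ 2 * qval A x * ‖x‖ ^ 2 := this
      _ = qval A x := by field_simp
  have h4 : ∑ i, x i ^ 2 ≤ n * ‖x‖ ^ 2 := by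
    calc ∑ i, x i ^ 2 ≤ ∑ _i : Fin n, ‖x‖ ^ 2 := by
          refine Finset.sum_le_sum fun i _ => ?_
          have := norm_le_pi_norm x i
          rw [Real.norm_eq_abs] at this
          calc x i ^ 2 = |x i| ^ 2 := (sq_abs _).symm
            _ ≤ ‖x‖ ^ 2 := by gcongr
      _ = n * ‖x‖ ^ 2 := by simp
  calc qval A w / n * ∑ i, x i ^ 2 ≤ qval A w / n * (n * ‖x‖ ^ 2) := by gcongr
    _ = qval A w * ‖x‖ ^ 2 := by field_simp
    _ ≤ qval A x := h3

lemma summable_gaussian {n : ℕ} {A : Matrix (Fin n) (Fin n) ℝ} (hA : A.PosDef)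
    (v : Fin n → ℝ) {t : ℝ} (ht : 0 < t) :
    Summable fun x : Fin n → ℤ => Real.exp (-t * qval A (rvec x - v)) := by
  obtain ⟨ε, hε, h⟩ := qval_coercive hA
  refine Summable.of_nonneg_of_le (fun _ => (Real.exp_pos _).le) (fun x => ?_)
    (summable_exp_sum_shift (mul_pos ht hε) v)
  rw [Real.exp_le_exp]
  have := h (rvec x - v)
  simp only [Pi.sub_apply, rvec] at this
  have h2 := mul_le_mul_of_nonneg_left this ht.le
  simp only [neg_mul] at h2 ⊢
  nlinarith [h2]

lemma norm_term_dual {n : ℕ} (A : Matrix (Fin n) (Fin n) ℝ) (v x : Fin n → ℝ) (z : ℂ) :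
    ‖cexp (-π / z * (qval A (x - v) : ℂ))‖ = Real.exp (-(π * (z⁻¹).re) * qval A (x - v)) := by
  rw [Complex.norm_exp, div_eq_mul_inv]
  simp [Complex.mul_re]

lemma summable_dual {n : ℕ} {A : Matrix (Fin n) (Fin n) ℝ} (hA : A.PosDef)
    (v : Fin n → ℝ) {z : ℂ} (hz : 0 < z.re) :
    Summable fun x : Fin n → ℤ => cexp (-π / z * (qval A (rvec x - v) : ℂ)) := by
  have : 0 < π * (z⁻¹).re := by
    rw [Complex.inv_re]
    exact mul_pos Real.pi_pos (div_pos hz (normSq_pos.mpr fun h => by simp [h] at hz))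
  exact Summable.of_norm ((summable_gaussian hA v this).congr fun x =>
    (norm_term_dual A v _ z).symm)

lemma norm_term {n : ℕ} (A : Matrix (Fin n) (Fin n) ℝ) (v x : Fin n → ℝ) (z : ℂ) :
    ‖cexp (-π * z * (qval A x : ℂ) + 2 * π * I * ((v ⬝ᵥ x : ℝ) : ℂ))‖
      = Real.exp (-(π * z.re) * qval A x) := by
  rw [Complex.norm_exp]
  simp [Complex.mul_re]

lemma summable_primal {n : ℕ} {A : Matrix (Fin n) (Fin n) ℝ} (hA : A.PosDef)
    (v : Fin n → ℝ) {z : ℂ} (hz : 0 < z.re) :
    Summable fun x : Fin n → ℤ =>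
      cexp (-π * z * (qval A (rvec x) : ℂ) + 2 * π * I * ((v ⬝ᵥ rvec x : ℝ) : ℂ)) := by
  refine Summable.of_norm ((summable_gaussian hA 0 (mul_pos Real.pi_pos hz)).congr fun x => ?_)
  rw [norm_term, sub_zero]

/-! ## Completing the square in one variable -/

section Schur

variable {n : ℕ} (A : Matrix (Fin (n + 1)) (Fin (n + 1)) ℝ)

/-- The first row without the corner. -/
def edge : Fin n → ℝ := fun j => A 0 j.succ

/-- The Schur complement of the corner. -/
def schur : Matrix (Fin n) (Fin n) ℝ :=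
  Matrix.of fun i j => A i.succ j.succ - A 0 i.succ * A 0 j.succ / A 0 0

variable {A}

lemma isSymm_schur (hs : A.IsSymm) : (schur A).IsSymm := by
  ext i j
  simp only [schur, Matrix.transpose_apply, Matrix.of_apply]
  rw [hs.apply j.succ i.succ]
  ring

lemma mulVec_cons_zero (x0 : ℝ) (x : Fin n → ℝ) :
    (A *ᵥ Fin.cons x0 x) 0 = A 0 0 * x0 + edge A ⬝ᵥ x := by
  simp [Matrix.mulVec, dotProduct, edge, Fin.sum_univ_succ]

lemma mulVec_cons_succ (hs : A.IsSymm) (x0 : ℝ) (x : Fin n → ℝ) (i : Fin n) :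
    (A *ᵥ Fin.cons x0 x) i.succ
      = (schur A *ᵥ x) i + edge A i * (x0 + edge A ⬝ᵥ x / A 0 0) := by
  simp only [Matrix.mulVec, dotProduct, edge, schur, Matrix.of_apply, Fin.sum_univ_succ,
    Fin.cons_zero, Fin.cons_succ]
  rw [hs.apply 0 i.succ, mul_add, Finset.sum_div, Finset.mul_sum, add_left_comm,
    ← Finset.sum_add_distrib]
  congr 1
  refine Finset.sum_congr rfl fun j _ => ?_
  ring

lemma qval_cons (hs : A.IsSymm) (h0 : A 0 0 ≠ 0) (x0 : ℝ) (x : Fin n → ℝ) :
    qval A (Fin.cons x0 x)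
      = A 0 0 * (x0 + edge A ⬝ᵥ x / A 0 0) ^ 2 + qval (schur A) x := by
  have h1 : qval A (Fin.cons x0 x) = x0 * (A *ᵥ Fin.cons x0 x) 0
      + ∑ i, x i * (A *ᵥ Fin.cons x0 x) i.succ := by
    simp [qval, dotProduct, Fin.sum_univ_succ]
  rw [h1, mulVec_cons_zero]
  simp only [mulVec_cons_succ hs, mul_add, Finset.sum_add_distrib, qval, dotProduct, edge,
    ← mul_assoc, ← Finset.sum_mul]
  field_simp
  simp only [mul_comm (A 0 _) (x _)]
  ring

lemma posDef_schur (hA : A.PosDef) : (schur A).PosDef := by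
  have hs : A.IsSymm := hA.1
  have ha : 0 < A 0 0 := hA.diag_pos
  refine Matrix.PosDef.of_dotProduct_mulVec_pos (isSymm_schur hs) fun x hx => ?_
  have hne : (Fin.cons (-(edge A ⬝ᵥ x / A 0 0)) x : Fin (n + 1) → ℝ) ≠ 0 := fun h => by
    exact hx (funext fun i => by simpa using congr_fun h i.succ)
  have := hA.dotProduct_mulVec_pos hne
  simp only [star_trivial] at this ⊢
  have h2 := qval_cons hs ha.ne' (-(edge A ⬝ᵥ x / A 0 0)) x
  rw [qval] at h2
  rw [h2] at this
  simpa [qval] using this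

lemma det_schur (hs : A.IsSymm) (h0 : A 0 0 ≠ 0) : A.det = A 0 0 * (schur A).det := by
  let B : Matrix (Fin (n + 1)) (Fin (n + 1)) ℝ :=
    Matrix.of fun i j => if i = 0 then A i j else A i j - A i 0 / A 0 0 * A 0 j
  have hdet : A.det = B.det := by
    refine Matrix.det_eq_of_forall_row_eq_smul_add_const
      (c := fun i => if i = 0 then 0 else A i 0 / A 0 0) 0 (by simp) fun i j => ?_
    rcases eq_or_ne i 0 with rfl | hi
    · simp [B]
    · simp [B, hi]
  rw [hdet, Matrix.det_succ_column_zero, Fin.sum_univ_succ, Finset.sum_eq_zero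
    (fun i _ => by simp [B, Fin.succ_ne_zero, h0])]
  have hB : B.submatrix Fin.succ Fin.succ = schur A := by
    ext i j
    simp [B, schur, Fin.succ_ne_zero, hs.apply 0 i.succ]
    ring
  rw [Fin.succAbove_zero, hB]
  simp [B]

lemma qval_inv (hA : A.PosDef) (u0 : ℝ) (u : Fin n → ℝ) :
    qval A⁻¹ (Fin.cons u0 u)
      = u0 ^ 2 / A 0 0 + qval (schur A)⁻¹ (fun i => u i - u0 / A 0 0 * edge A i) := by
  have hs : A.IsSymm := hA.1
  have h0 : A 0 0 ≠ 0 := hA.diag_pos.ne'
  have hdet : IsUnit A.det := isUnit_iff_ne_zero.mpr hA.det_pos.ne'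
  have hdS : IsUnit (schur A).det := isUnit_iff_ne_zero.mpr (posDef_schur hA).det_pos.ne'
  set w := A⁻¹ *ᵥ (Fin.cons u0 u : Fin (n + 1) → ℝ) with hw
  have hAw : A *ᵥ w = Fin.cons u0 u := by
    rw [hw, Matrix.mulVec_mulVec, Matrix.mul_nonsing_inv _ hdet, Matrix.one_mulVec]
  obtain ⟨w0, w', hww⟩ : ∃ w0 w', w = Fin.cons w0 w' :=
    ⟨w 0, fun i => w i.succ, (Fin.cons_self_tail w).symm⟩
  have e0 : u0 = A 0 0 * w0 + edge A ⬝ᵥ w' := by
    have := congr_fun hAw 0
    rw [hww, mulVec_cons_zero, Fin.cons_zero] at this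
    exact this.symm
  have e1 : (fun i => u i - u0 / A 0 0 * edge A i) = schur A *ᵥ w' := by
    funext i
    have := congr_fun hAw i.succ
    rw [hww, mulVec_cons_succ hs, Fin.cons_succ] at this
    rw [← this, e0]
    field_simp
    ring
  have e2 : qval (schur A)⁻¹ (schur A *ᵥ w') = qval (schur A) w' := by
    rw [qval, qval, Matrix.mulVec_mulVec, Matrix.nonsing_inv_mul _ hdS, Matrix.one_mulVec,
      dotProduct_comm]
  have e3 : qval A⁻¹ (Fin.cons u0 u) = qval A w := by
    rw [qval, qval, hAw, ← hw, dotProduct_comm]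
  rw [e1, e2, e3, hww, qval_cons hs h0, e0]
  field_simp

end Schur

/-! ## The formula -/

lemma cpow_half_ofReal_mul {a : ℝ} (ha : 0 < a) {z : ℂ} (hz : z ≠ 0) :
    (z * (a : ℂ)) ^ (1 / 2 : ℂ) = (Real.sqrt a : ℂ) * z ^ (1 / 2 : ℂ) := by
  have hne : (z * (a : ℂ)) ≠ 0 := mul_ne_zero hz (ofReal_ne_zero.mpr ha.ne')
  rw [Complex.cpow_def_of_ne_zero hne, Complex.cpow_def_of_ne_zero hz,
    Complex.log_mul_ofReal a ha z hz, add_mul, Complex.exp_add]
  congr 1
  rw [Real.sqrt_eq_rpow, Complex.ofReal_cpow ha.le,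
    Complex.cpow_def_of_ne_zero (ofReal_ne_zero.mpr ha.ne'), ← Complex.ofReal_log ha.le]
  norm_num

/-- The linear coefficient left by completing the square in the first variable. -/
private def schurShift {n : ℕ} (A : Matrix (Fin (n + 1)) (Fin (n + 1)) ℝ) (v : Fin (n + 1) → ℝ)
    (m : ℤ) : Fin n → ℝ :=
  fun i => v i.succ + ((m : ℝ) - v 0) / A 0 0 * edge A i

/-- The term transformed in the first variable. -/
private def schurTerm {n : ℕ} (A : Matrix (Fin (n + 1)) (Fin (n + 1)) ℝ) (v : Fin (n + 1) → ℝ)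
    (z : ℂ) (x : Fin n → ℤ) (m : ℤ) : ℂ :=
  cexp (-π / (z * A 0 0) * (((m : ℝ) - v 0) ^ 2 : ℝ))
    * cexp (-π * z * (qval (schur A) (rvec x) : ℂ)
        + 2 * π * I * ((schurShift A v m ⬝ᵥ rvec x : ℝ) : ℂ))

/-- The double series of transformed terms converges absolutely. -/
private lemma summable_schurTerm {n : ℕ} {A : Matrix (Fin (n + 1)) (Fin (n + 1)) ℝ} (hA : A.PosDef)
    (v : Fin (n + 1) → ℝ) {z : ℂ} (hz : 0 < z.re) :
    Summable (Function.uncurry (schurTerm A v z)) := by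
  have ha : 0 < A 0 0 := hA.diag_pos
  have hz0 : z ≠ 0 := fun h => by simp [h] at hz
  set a := A 0 0 with haA
  have hpos : 0 < π / a * (z⁻¹).re := by
    rw [Complex.inv_re]
    exact mul_pos (div_pos Real.pi_pos ha) (div_pos hz (normSq_pos.mpr hz0))
  refine Summable.of_norm ((Summable.mul_of_nonneg
    (summable_gaussian (posDef_schur hA) 0 (mul_pos Real.pi_pos hz))
    (summable_exp_shift hpos (v 0)) (fun _ => (Real.exp_pos _).le)
    (fun _ => (Real.exp_pos _).le)).congr fun p => ?_)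
  simp only [Function.uncurry, schurTerm, ← haA, norm_mul, norm_term, sub_zero]
  rw [mul_comm, Complex.norm_exp]
  congr 2
  rw [div_eq_mul_inv (-(π : ℂ)), mul_inv, ← Complex.ofReal_inv]
  simp only [Complex.mul_re, Complex.mul_im, neg_re, neg_im, ofReal_re, ofReal_im]
  ring

/-- In the first variable: the transformation of the one variable theta series. -/
private lemma tsum_first_var {n : ℕ} {A : Matrix (Fin (n + 1)) (Fin (n + 1)) ℝ} (hA : A.PosDef)
    (v : Fin (n + 1) → ℝ) {z : ℂ} (hz : 0 < z.re) (x : Fin n → ℤ) :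
    (∑' x0 : ℤ, cexp (-π * z * (qval A (rvec (Fin.cons x0 x)) : ℂ)
        + 2 * π * I * ((v ⬝ᵥ rvec (Fin.cons x0 x) : ℝ) : ℂ)))
      = ((Real.sqrt (A 0 0) : ℂ))⁻¹ * (z ^ (1 / 2 : ℂ))⁻¹ * ∑' m : ℤ, schurTerm A v z x m := by
  have hs : A.IsSymm := hA.1
  have ha : 0 < A 0 0 := hA.diag_pos
  have hz0 : z ≠ 0 := fun h => by simp [h] at hz
  set a := A 0 0 with haA
  set v' : Fin n → ℝ := fun i => v i.succ with hv'
  set β : ℝ := edge A ⬝ᵥ rvec x with hβ
  have hc : ∀ x0 : ℤ, rvec (Fin.cons x0 x) = Fin.cons (x0 : ℝ) (rvec x) := fun x0 => by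
    funext i; refine Fin.cases ?_ (fun j => ?_) i <;> simp [rvec]
  have hdot : ∀ x0 : ℤ,
      v ⬝ᵥ (Fin.cons (x0 : ℝ) (rvec x)) = v 0 * x0 + v' ⬝ᵥ rvec x := fun x0 => by
    simp [dotProduct, Fin.sum_univ_succ, hv']
  have hre : 0 < (z * (a : ℂ)).re := by simpa using mul_pos hz ha
  calc _ = cexp (-π * z * (((qval (schur A) (rvec x) + β ^ 2 / a : ℝ)) : ℂ)
        + 2 * π * I * ((v' ⬝ᵥ rvec x : ℝ) : ℂ))
        * ∑' x0 : ℤ, cexp (-π * (z * a) * (x0 : ℂ) ^ 2
            + 2 * π * (I * v 0 - z * β) * x0) := by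
        rw [← tsum_mul_left]
        refine tsum_congr fun x0 => ?_
        rw [hc, hdot, qval_cons hs ha.ne', ← hβ, ← Complex.exp_add]
        congr 1
        have haC : (a : ℂ) ≠ 0 := ofReal_ne_zero.mpr ha.ne'
        simp only [← haA]
        push_cast
        field_simp
        ring
    _ = _ := by
        rw [Complex.tsum_exp_neg_quadratic hre, cpow_half_ofReal_mul ha hz0,
          ← tsum_mul_left, ← tsum_mul_left, ← tsum_mul_left]
        refine tsum_congr fun m => ?_
        simp only [schurTerm, ← haA]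
        rw [one_div, mul_inv, mul_left_comm, ← Complex.exp_add, ← Complex.exp_add]
        congr 2
        have hw : schurShift A v m ⬝ᵥ rvec x = v' ⬝ᵥ rvec x + ((m : ℝ) - v 0) / a * β := by
          simp only [schurShift, ← haA, hv', dotProduct, add_mul, Finset.sum_add_distrib, hβ,
            Finset.mul_sum, mul_assoc]
        rw [hw]
        have haC : (a : ℂ) ≠ 0 := ofReal_ne_zero.mpr ha.ne'
        push_cast
        field_simp
        ring_nf
        simp only [I_sq, I_pow_three, I_pow_four]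
        ring

/-- **Poisson summation for Gaussians** in `n` variables. -/
theorem tsum_gaussian : ∀ {n : ℕ} {A : Matrix (Fin n) (Fin n) ℝ}, A.PosDef →
    ∀ (v : Fin n → ℝ) {z : ℂ}, 0 < z.re →
    (∑' x : Fin n → ℤ,
        cexp (-π * z * (qval A (rvec x) : ℂ) + 2 * π * I * ((v ⬝ᵥ rvec x : ℝ) : ℂ)))
      = (Real.sqrt A.det : ℂ)⁻¹ * ((z ^ (1 / 2 : ℂ))⁻¹) ^ n
        * ∑' y : Fin n → ℤ, cexp (-π / z * (qval A⁻¹ (rvec y - v) : ℂ))
  | 0, A, _, v, z, _ => by
      simp [qval]
  | n + 1, A, hA, v, z, hz => by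
      have hs : A.IsSymm := hA.1
      have ha : 0 < A 0 0 := hA.diag_pos
      set a := A 0 0 with haA
      set v' : Fin n → ℝ := fun i => v i.succ with hv'
      have hg := summable_schurTerm hA v hz
      -- the left hand side
      have hl := ((Fin.consEquiv fun _ => ℤ).summable_iff).mpr (summable_primal hA v hz)
      have hl' := ((Equiv.prodComm (Fin n → ℤ) ℤ).summable_iff).mpr hl
      rw [← (Fin.consEquiv fun _ => ℤ).tsum_eq, ← (Equiv.prodComm (Fin n → ℤ) ℤ).tsum_eq]
      rw [Summable.tsum_prod (by exact hl')]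
      -- in the first variable: the transformation of the one variable theta series
      simp only [Equiv.prodComm_apply, Prod.swap_prod_mk]
      refine (tsum_congr fun x => tsum_first_var hA v hz x).trans ?_
      rw [tsum_mul_left, ← hg.tsum_comm]
      -- in the others: induction, for the Schur complement
      have outer : ∀ m : ℤ, (∑' x : Fin n → ℤ, schurTerm A v z x m)
          = (Real.sqrt (schur A).det : ℂ)⁻¹ * ((z ^ (1 / 2 : ℂ))⁻¹) ^ n
            * ∑' y : Fin n → ℤ, cexp (-π / z * (qval A⁻¹ (rvec (Fin.cons m y) - v) : ℂ)) := by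
        intro m
        simp only [schurTerm]
        rw [tsum_mul_left, tsum_gaussian (posDef_schur hA) (schurShift A v m) hz, mul_left_comm,
          ← tsum_mul_left]
        congr 1
        refine tsum_congr fun y => ?_
        rw [← Complex.exp_add]
        congr 1
        have hc : rvec (Fin.cons m y) - v
            = Fin.cons ((m : ℝ) - v 0) (fun i => (y i : ℝ) - v' i) := by
          funext i; refine Fin.cases ?_ (fun j => ?_) i <;> simp [rvec, hv']
        have hw : rvec y - schurShift A v m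
            = fun i => (y i : ℝ) - v' i - ((m : ℝ) - v 0) / a * edge A i := by
          funext i; simp [schurShift, rvec, hv', ← haA]; ring
        rw [hc, qval_inv hA, hw]
        simp only [← haA]
        generalize qval (schur A)⁻¹ _ = q
        have haC : (a : ℂ) ≠ 0 := ofReal_ne_zero.mpr ha.ne'
        push_cast
        field_simp
        ring
      rw [tsum_congr outer, tsum_mul_left]
      -- the right hand side, split in the same way
      have hr := ((Fin.consEquiv fun _ => ℤ).summable_iff).mpr (summable_dual hA.inv v hz)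
      rw [← (Fin.consEquiv fun _ => ℤ).tsum_eq
        (fun y : Fin (n + 1) → ℤ => cexp (-π / z * (qval A⁻¹ (rvec y - v) : ℂ))),
        Summable.tsum_prod (by exact hr)]
      rw [det_schur hs ha.ne', ← haA, Real.sqrt_mul ha.le, pow_succ]
      push_cast
      show _ = _ * _ * ∑' (b : ℤ) (c : Fin n → ℤ),
        cexp (-π / z * (qval A⁻¹ (rvec (Fin.cons b c) - v) : ℂ))
      ring

end Fermat.Agent.LT.Theta
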